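import Mathlib

/-!
# S05: shared definitions

The model curve `y² = x³ + a₂ x² + a₄ x` over a field `K` with a valuation subring `A`
(residue characteristic `≠ 2`), the kernel of reduction `E₁`, good points, and the
truncated valuation `ell` of the `x`-coordinate (the unsigned component invariant at a node).

Conventions: `A.valuation : Valuation K A.ValueGroup` is written multiplicatively, so
`A.valuation x ≤ 1 ↔ x ∈ A` and `A.valuation x < 1 ↔ x ∈ 𝔪_A`.
-/

set_option autoImplicit false

namespace Fermat.Agent.S05

open WeierstrassCurve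

variable {K : Type*} [Field K] (A : ValuationSubring K) (W : WeierstrassCurve K)

/-- `W` is of the form `y² = x³ + a₂ x² + a₄ x` with `a₂, a₄ ∈ A`, and `2 ∈ Aˣ`. -/
structure IsModel : Prop where
  a₁ : W.a₁ = 0
  a₃ : W.a₃ = 0
  a₆ : W.a₆ = 0
  a₂_le : A.valuation W.a₂ ≤ 1
  a₄_le : A.valuation W.a₄ ≤ 1
  two : A.valuation (2 : K) = 1

/-- The model has good reduction: `a₄` and `a₂² - 4 a₄` are units
(the discriminant is `16 a₄² (a₂² - 4 a₄)`). -/
structure IsGoodModel : Prop extends IsModel A W where
  a₄_unit : A.valuation W.a₄ = 1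
  disc_unit : A.valuation (W.a₂ ^ 2 - 4 * W.a₄) = 1

/-- The model has multiplicative reduction with the node at `(0, 0)`:
`a₂` is a unit and `a₄ ∈ 𝔪_A`, `a₄ ≠ 0`. -/
structure IsMultModel : Prop extends IsModel A W where
  a₂_unit : A.valuation W.a₂ = 1
  a₄_lt : A.valuation W.a₄ < 1
  a₄_ne : W.a₄ ≠ 0

/-- The kernel of reduction: the point at infinity and the points with non-integral `x`. -/
def InE1 : W.toAffine.Point → Prop
  | .zero => True
  | .some x _ _ => 1 < A.valuation x

/-- Good points: the kernel of reduction and the integral points whose reduction is a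
nonsingular point of the reduced curve (one of the two partial derivatives `2y`,
`3x² + 2a₂x + a₄` is a unit). -/
def IsGood : W.toAffine.Point → Prop
  | .zero => True
  | .some x y _ => 1 < A.valuation x ∨ A.valuation y = 1 ∨
      A.valuation (3 * x ^ 2 + 2 * W.a₂ * x + W.a₄) = 1

/-- The `t`-coordinate `x / y` (with value `0` at the point at infinity); on `E₁` it is a
uniformiser at the origin. -/
noncomputable def tCoord : W.toAffine.Point → K
  | .zero => 0
  | .some x y _ => x / y

/-- The truncated valuation of the `x`-coordinate, with values in `[v(a₄), 1]`: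
`1` at good points (`v(x) ≥ 1` or the origin), `v(x)` if `v(a₄) < v(x) < 1`, and `v(a₄)` if
`v(x) ≤ v(a₄)`. For a multiplicative model this is the class of the component of the point in
`(Γ / v(a₄)^{2ℤ}) / ±1`. -/
noncomputable def ell : W.toAffine.Point → A.ValueGroup
  | .zero => 1
  | .some x _ _ => max (A.valuation W.a₄) (min 1 (A.valuation x))

/-- The equivalence relation on the value group generated by `w ↦ w⁻¹` and
`w ↦ w * v(a₄)²`. -/
def Fold (z w : A.ValueGroup) : Prop :=
  ∃ m : ℤ, w = z * A.valuation W.a₄ ^ (2 * m) ∨ w = z⁻¹ * A.valuation W.a₄ ^ (2 * m)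

@[simp] theorem inE1_zero : InE1 A W (0 : W.toAffine.Point) := trivial

@[simp] theorem inE1_some {x y : K} (h : W.toAffine.Nonsingular x y) :
    InE1 A W (.some x y h) ↔ 1 < A.valuation x := Iff.rfl

@[simp] theorem isGood_zero : IsGood A W (0 : W.toAffine.Point) := trivial

@[simp] theorem isGood_some {x y : K} (h : W.toAffine.Nonsingular x y) :
    IsGood A W (.some x y h) ↔ (1 < A.valuation x ∨ A.valuation y = 1 ∨
      A.valuation (3 * x ^ 2 + 2 * W.a₂ * x + W.a₄) = 1) := Iff.rfl

@[simp] theorem tCoord_zero : tCoord W (0 : W.toAffine.Point) = 0 := rfl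

@[simp] theorem tCoord_some {x y : K} (h : W.toAffine.Nonsingular x y) :
    tCoord W (.some x y h) = x / y := rfl

@[simp] theorem ell_zero : ell A W (0 : W.toAffine.Point) = 1 := rfl

@[simp] theorem ell_some {x y : K} (h : W.toAffine.Nonsingular x y) :
    ell A W (.some x y h) = max (A.valuation W.a₄) (min 1 (A.valuation x)) := rfl

theorem InE1.isGood {P : W.toAffine.Point} (h : InE1 A W P) : IsGood A W P := by
  cases P with
  | zero => trivial
  | some x y hxy => exact Or.inl h

end Fermat.Agent.S05
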