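import Mathlib
import Fermat.Agent.S05.Defs

/-!
# S05, module G: good points

* `inE1_sub` : two points which are congruent modulo the maximal ideal at a nonsingular point of
  the reduction differ by an element of the kernel of reduction;
* `isGood_of_goodModel` : on a model with good reduction every point is good;
* `isGood_iff_ell_eq_one` : on a model with multiplicative reduction (node at the origin) the good
  points are the points with `ell = 1`.
-/

set_option autoImplicit false
set_option linter.unusedSectionVars false

namespace Fermat.Agent.S05.Good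

open WeierstrassCurve WeierstrassCurve.Affine

variable {K : Type*} [Field K] [DecidableEq K] (A : ValuationSubring K) (W : WeierstrassCurve K)

/-! ### Valuation helpers -/

section Val

variable {A}

theorem val_le_one_of_sq {z : K} (h : A.valuation (z ^ 2) ≤ 1) : A.valuation z ≤ 1 := by
  by_contra hc
  rw [not_le] at hc
  have h1 : 1 < A.valuation z ^ 2 := one_lt_pow₀ hc (by norm_num)
  rw [map_pow] at h
  exact absurd h (not_le.mpr h1)

theorem val_lt_one_of_sq {z : K} (h : A.valuation (z ^ 2) < 1) : A.valuation z < 1 := by
  by_contra hc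
  rw [not_lt] at hc
  have h1 : 1 ≤ A.valuation z ^ 2 := one_le_pow₀ hc
  rw [map_pow] at h
  exact absurd h (not_lt.mpr h1)

theorem val_mul_le_one {a b : K} (ha : A.valuation a ≤ 1) (hb : A.valuation b ≤ 1) :
    A.valuation (a * b) ≤ 1 := by
  rw [map_mul]
  exact mul_le_one' ha hb

theorem val_pow_le_one {a : K} (ha : A.valuation a ≤ 1) (n : ℕ) :
    A.valuation (a ^ n) ≤ 1 := by
  rw [map_pow]
  exact pow_le_one' ha n

theorem val_mul_lt_one_left {a b : K} (ha : A.valuation a < 1) (hb : A.valuation b ≤ 1) :
    A.valuation (a * b) < 1 := by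
  rw [map_mul]
  exact mul_lt_one_of_lt_of_le ha hb

theorem val_mul_lt_one_right {a b : K} (ha : A.valuation a ≤ 1) (hb : A.valuation b < 1) :
    A.valuation (a * b) < 1 := by
  rw [mul_comm]
  exact val_mul_lt_one_left hb ha

/-- a unit plus an element of the maximal ideal is a unit -/
theorem val_add_eq_one {a b : K} (ha : A.valuation a = 1) (hb : A.valuation b < 1) :
    A.valuation (a + b) = 1 := by
  rw [Valuation.map_add_eq_of_lt_left _ (by rwa [ha]), ha]

theorem val_natCast_le_one (n : ℕ) : A.valuation (n : K) ≤ 1 := by
  rw [ValuationSubring.valuation_le_one_iff]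
  exact natCast_mem A n

/-- if `u` is a unit and `u * z ∈ 𝔪` then `z ∈ 𝔪` -/
theorem val_lt_one_of_mul_left {u z : K} (hu : A.valuation u = 1)
    (h : A.valuation (u * z) < 1) : A.valuation z < 1 := by
  rwa [map_mul, hu, one_mul] at h

/-- the square of a non-integral element dominates integral elements -/
theorem one_lt_val_sq_sub {l c : K} (hl : 1 < A.valuation l) (hc : A.valuation c ≤ 1) :
    1 < A.valuation (l ^ 2 - c) := by
  have h1 : 1 < A.valuation (l ^ 2) := by
    rw [map_pow]
    exact one_lt_pow₀ hl (by norm_num)
  rw [Valuation.map_sub_eq_of_lt_left _ (hc.trans_lt h1)]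
  exact h1

/-- a unit divided by a nonzero element of the maximal ideal is not integral -/
theorem one_lt_val_div {u d : K} (hu : A.valuation u = 1) (hd : A.valuation d < 1)
    (hd0 : d ≠ 0) : 1 < A.valuation (u / d) := by
  rw [map_div₀, hu]
  have h0 : 0 < A.valuation d := (Valuation.pos_iff _).mpr hd0
  rw [one_div]
  exact (one_lt_inv₀ h0).mpr hd

theorem val_two_mul {z : K} (h2 : A.valuation (2 : K) = 1) :
    A.valuation (2 * z) = A.valuation z := by
  rw [map_mul, h2, one_mul]

theorem val_three_le_one : A.valuation (3 : K) ≤ 1 := by
  have := val_natCast_le_one (A := A) 3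
  exact_mod_cast this

theorem val_four_eq_one (h2 : A.valuation (2 : K) = 1) : A.valuation (4 : K) = 1 := by
  have : (4 : K) = 2 * 2 := by norm_num
  rw [this, map_mul, h2, one_mul]

end Val

/-! ### The equation of a model -/

section Model

variable {A W}

theorem equation_model (hW : IsModel A W) {x y : K} (h : W.toAffine.Nonsingular x y) :
    y ^ 2 = x ^ 3 + W.a₂ * x ^ 2 + W.a₄ * x := by
  have h1 := (W.toAffine.equation_iff x y).mp h.1
  rw [hW.a₁, hW.a₃, hW.a₆] at h1
  linear_combination h1

theorem negY_model (hW : IsModel A W) (x y : K) : W.toAffine.negY x y = -y := by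
  rw [Affine.negY, hW.a₁, hW.a₃]
  ring

/-- integral `x` implies integral `y` -/
theorem val_y_le_one (hW : IsModel A W) {x y : K} (h : W.toAffine.Nonsingular x y)
    (hx : A.valuation x ≤ 1) : A.valuation y ≤ 1 := by
  apply val_le_one_of_sq
  rw [equation_model hW h]
  refine Valuation.map_add_le _ (Valuation.map_add_le _ (val_pow_le_one hx 3) ?_) ?_
  · exact val_mul_le_one hW.a₂_le (val_pow_le_one hx 2)
  · exact val_mul_le_one hW.a₄_le hx

/-- the derivative of the cubic at an integral point is integral -/
theorem val_deriv_le_one (hW : IsModel A W) {x : K} (hx : A.valuation x ≤ 1) :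
    A.valuation (3 * x ^ 2 + 2 * W.a₂ * x + W.a₄) ≤ 1 := by
  refine Valuation.map_add_le _ (Valuation.map_add_le _ ?_ ?_) hW.a₄_le
  · exact val_mul_le_one val_three_le_one (val_pow_le_one hx 2)
  · exact val_mul_le_one (val_mul_le_one hW.two.le hW.a₂_le) hx

end Model

/-! ### Congruent points differ by an element of the kernel of reduction -/

section Sub

variable {A W}

variable (A W) in
/-- **Chord lemma.** Two points congruent modulo `𝔪` at a nonsingular point of the reduction
differ by an element of the kernel of reduction. -/
theorem inE1_sub (hW : IsModel A W) {x y x' y' : K} (h : W.toAffine.Nonsingular x y)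
    (h' : W.toAffine.Nonsingular x' y') (hx : A.valuation x ≤ 1)
    (hgood : A.valuation y = 1 ∨ A.valuation (3 * x ^ 2 + 2 * W.a₂ * x + W.a₄) = 1)
    (hxx : A.valuation (x' - x) < 1) (hyy : A.valuation (y' - y) < 1) :
    InE1 A W (Point.some x' y' h' - Point.some x y h) := by
  have hy : A.valuation y ≤ 1 := val_y_le_one hW h hx
  have hx' : A.valuation x' ≤ 1 := by
    have : x' = (x' - x) + x := by ring
    rw [this]
    exact Valuation.map_add_le _ hxx.le hx
  have e := equation_model hW h
  have e' := equation_model hW h'
  have hnegY : W.toAffine.negY x y = -y := negY_model hW x y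
  have h2ne : (2 : K) ≠ 0 := by
    intro hc
    have := hW.two
    rw [hc, map_zero] at this
    exact zero_ne_one this
  rw [sub_eq_add_neg, Point.neg_some]
  by_cases hxe : x' = x
  · subst hxe
    -- `y' = y` or `y' = -y`
    have hyy2 : (y' - y) * (y' + y) = 0 := by linear_combination e' - e
    rcases mul_eq_zero.mp hyy2 with h1 | h1
    · -- the same point
      have h2 : y' = y := by linear_combination h1
      subst h2
      rw [Point.add_of_Y_eq rfl (by rw [Affine.negY_negY])]
      trivial
    · have h2 : y' = W.toAffine.negY x' y := by rw [hnegY]; linear_combination h1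
      by_cases hy0 : y = 0
      · -- then `y' = y = 0`
        have h3 : y' = W.toAffine.negY x' (W.toAffine.negY x' y) := by
          rw [Affine.negY_negY, hy0]
          rw [hnegY, hy0] at h2
          rw [h2]
          ring
        rw [Point.add_of_Y_eq rfl h3]
        trivial
      · subst h2
        have hne : W.toAffine.negY x' y ≠ W.toAffine.negY x' (W.toAffine.negY x' y) := by
          rw [Affine.negY_negY, hnegY]
          intro hc
          apply hy0
          have h2' : (2 : K) * y = 0 := by linear_combination -hc
          exact (mul_eq_zero.mp h2').resolve_left h2ne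
        rw [Point.add_self_of_Y_ne hne]
        show 1 < A.valuation (W.toAffine.addX x' x' (W.toAffine.slope x' x'
          (W.toAffine.negY x' y) (W.toAffine.negY x' y)))
        rw [Affine.slope_of_Y_ne rfl hne, Affine.addX, hW.a₁, Affine.negY_negY, hnegY]
        -- `v(2y) < 1`, so `y ∈ 𝔪` and the derivative is a unit
        have h2y : A.valuation (2 * y) < 1 := by
          have : (2 : K) * y = -(-y - y) := by ring
          rw [this, Valuation.map_neg]
          rw [hnegY] at hyy
          exact hyy
        have hylt : A.valuation y < 1 := val_lt_one_of_mul_left hW.two h2y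
        have hM : A.valuation (3 * x' ^ 2 + 2 * W.a₂ * x' + W.a₄) = 1 := by
          rcases hgood with hg | hg
          · rw [hg] at hylt
            exact absurd hylt (lt_irrefl _)
          · exact hg
        have h2yne : (2 : K) * y ≠ 0 := mul_ne_zero h2ne hy0
        have hL : 1 < A.valuation ((3 * x' ^ 2 + 2 * W.a₂ * x' + W.a₄ - 0 * -y) / (-y - y)) := by
          have hden : -y - y ≠ 0 := by
            intro hc
            apply h2yne
            linear_combination -hc
          have e1 : (3 * x' ^ 2 + 2 * W.a₂ * x' + W.a₄ - 0 * -y) / (-y - y)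
              = (-(3 * x' ^ 2 + 2 * W.a₂ * x' + W.a₄)) / (2 * y) := by
            rw [div_eq_div_iff hden h2yne]
            ring
          rw [e1]
          exact one_lt_val_div (by rw [Valuation.map_neg]; exact hM) h2y h2yne
        have e2 : ∀ L : K, L ^ 2 + 0 * L - W.a₂ - x' - x' = L ^ 2 - (W.a₂ + 2 * x') := fun L => by
          ring
        rw [e2]
        refine one_lt_val_sq_sub hL ?_
        exact Valuation.map_add_le _ hW.a₂_le (val_mul_le_one hW.two.le hx)
  · rw [Point.add_of_X_ne hxe]
    show 1 < A.valuation (W.toAffine.addX x' x (W.toAffine.slope x' x y' (W.toAffine.negY x y)))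
    rw [Affine.slope_of_X_ne hxe, Affine.addX, hW.a₁, hnegY]
    have hd : x' - x ≠ 0 := sub_ne_zero.mpr hxe
    have hL : 1 < A.valuation ((y' - -y) / (x' - x)) := by
      rcases hgood with hg | hg
      · -- `y' + y` is a unit
        refine one_lt_val_div ?_ hxx hd
        have : y' - -y = 2 * y + (y' - y) := by ring
        rw [this]
        exact val_add_eq_one (by rw [val_two_mul hW.two, hg]) hyy
      · -- the derivative is a unit
        have hM' : A.valuation (x' ^ 2 + x' * x + x ^ 2 + W.a₂ * (x' + x) + W.a₄) = 1 := by
          have : x' ^ 2 + x' * x + x ^ 2 + W.a₂ * (x' + x) + W.a₄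
              = (3 * x ^ 2 + 2 * W.a₂ * x + W.a₄) + (x' - x) * (x' + 2 * x + W.a₂) := by ring
          rw [this]
          refine val_add_eq_one hg (val_mul_lt_one_left hxx ?_)
          exact Valuation.map_add_le _ (Valuation.map_add_le _ hx'
            (val_mul_le_one hW.two.le hx)) hW.a₂_le
        have hid : (y' - -y) * (y' - y)
            = (x' - x) * (x' ^ 2 + x' * x + x ^ 2 + W.a₂ * (x' + x) + W.a₄) := by
          linear_combination e' - e
        have hyd : y' - y ≠ 0 := by
          intro hc
          rw [hc, mul_zero] at hid
          rcases mul_eq_zero.mp hid.symm with h3 | h3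
          · exact hd h3
          · rw [h3, map_zero] at hM'
            exact zero_ne_one hM'
        have e1 : (y' - -y) / (x' - x)
            = (x' ^ 2 + x' * x + x ^ 2 + W.a₂ * (x' + x) + W.a₄) / (y' - y) := by
          rw [div_eq_div_iff hd hyd, hid]
          ring
        rw [e1]
        exact one_lt_val_div hM' hyy hyd
    have e2 : ∀ L : K, L ^ 2 + 0 * L - W.a₂ - x' - x = L ^ 2 - (W.a₂ + x' + x) := fun L => by
      ring
    rw [e2]
    refine one_lt_val_sq_sub hL ?_
    exact Valuation.map_add_le _ (Valuation.map_add_le _ hW.a₂_le hx') hx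

end Sub

/-! ### Good points of good and multiplicative models -/

section Criteria

variable {A W}

variable (A W) in
/-- On a model with good reduction every point is good. -/
theorem isGood_of_goodModel (hW : IsGoodModel A W) (P : W.toAffine.Point) : IsGood A W P := by
  cases P with
  | zero => trivial
  | some x y h =>
    rw [isGood_some]
    by_contra hc
    rw [not_or, not_or] at hc
    obtain ⟨h1, h2, h3⟩ := hc
    have hM : IsModel A W := hW.toIsModel
    have hx : A.valuation x ≤ 1 := not_lt.mp h1
    have hy : A.valuation y < 1 := lt_of_le_of_ne (val_y_le_one hM h hx) h2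
    have hD : A.valuation (3 * x ^ 2 + 2 * W.a₂ * x + W.a₄) < 1 :=
      lt_of_le_of_ne (val_deriv_le_one hM hx) h3
    have e := equation_model hM h
    by_cases hx1 : A.valuation x < 1
    · -- then `a₄ ∈ 𝔪`
      have h4 : A.valuation W.a₄ < 1 := by
        have : W.a₄ = (3 * x ^ 2 + 2 * W.a₂ * x + W.a₄) - x * (3 * x + 2 * W.a₂) := by ring
        rw [this]
        refine Valuation.map_sub_lt _ hD (val_mul_lt_one_left hx1 ?_)
        exact Valuation.map_add_le _ (val_mul_le_one val_three_le_one hx)
          (val_mul_le_one hM.two.le hM.a₂_le)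
      rw [hW.a₄_unit] at h4
      exact lt_irrefl _ h4
    · have hxu : A.valuation x = 1 := le_antisymm hx (not_lt.mp hx1)
      -- `g = x² + a₂ x + a₄ ∈ 𝔪`
      have hg : A.valuation (x ^ 2 + W.a₂ * x + W.a₄) < 1 := by
        apply val_lt_one_of_mul_left hxu
        have : x * (x ^ 2 + W.a₂ * x + W.a₄) = y ^ 2 := by rw [e]; ring
        rw [this, map_pow]
        exact pow_lt_one₀ zero_le hy (by norm_num)
      -- `2x + a₂ ∈ 𝔪`
      have hd : A.valuation (2 * x + W.a₂) < 1 := by
        apply val_lt_one_of_mul_left hxu
        have : x * (2 * x + W.a₂)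
            = (3 * x ^ 2 + 2 * W.a₂ * x + W.a₄) - (x ^ 2 + W.a₂ * x + W.a₄) := by ring
        rw [this]
        exact Valuation.map_sub_lt _ hD hg
      have hdisc : A.valuation (W.a₂ ^ 2 - 4 * W.a₄) < 1 := by
        have : W.a₂ ^ 2 - 4 * W.a₄
            = (2 * x + W.a₂) * (2 * x + W.a₂) - 4 * (x ^ 2 + W.a₂ * x + W.a₄) := by ring
        rw [this]
        refine Valuation.map_sub_lt _ (val_mul_lt_one_left hd hd.le) ?_
        exact val_mul_lt_one_right (val_four_eq_one hM.two).le hg
      rw [hW.disc_unit] at hdisc
      exact lt_irrefl _ hdisc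

variable (A W) in
/-- On a model with multiplicative reduction, with the node at the origin, the good points are
the points whose `x`-coordinate is not in the maximal ideal. -/
theorem isGood_iff_ell_eq_one (hW : IsMultModel A W) (P : W.toAffine.Point) :
    IsGood A W P ↔ ell A W P = 1 := by
  cases P with
  | zero => exact ⟨fun _ => rfl, fun _ => trivial⟩
  | some x y h =>
    have hM : IsModel A W := hW.toIsModel
    have e := equation_model hM h
    have hell : ell A W (Point.some x y h) = 1 ↔ 1 ≤ A.valuation x := by
      rw [ell_some]
      constructor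
      · intro h1
        by_contra hc
        rw [not_le] at hc
        rw [min_eq_right hc.le] at h1
        have := max_lt hW.a₄_lt hc
        rw [h1] at this
        exact lt_irrefl _ this
      · intro h1
        rw [min_eq_left h1, max_eq_right hW.a₄_lt.le]
    rw [hell, isGood_some]
    constructor
    · rintro (h1 | h1 | h1)
      · exact h1.le
      · -- `y` is a unit, so `x ∉ 𝔪`
        by_contra hc
        rw [not_le] at hc
        have hy2 : A.valuation (y ^ 2) < 1 := by
          have : y ^ 2 = x * (x ^ 2 + W.a₂ * x + W.a₄) := by rw [e]; ring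
          rw [this]
          refine val_mul_lt_one_left hc ?_
          exact Valuation.map_add_le _ (Valuation.map_add_le _ (val_pow_le_one hc.le 2)
            (val_mul_le_one hM.a₂_le hc.le)) hM.a₄_le
        have := val_lt_one_of_sq hy2
        rw [h1] at this
        exact lt_irrefl _ this
      · by_contra hc
        rw [not_le] at hc
        have hD : A.valuation (3 * x ^ 2 + 2 * W.a₂ * x + W.a₄) < 1 := by
          refine Valuation.map_add_lt _ ?_ hW.a₄_lt
          have : 3 * x ^ 2 + 2 * W.a₂ * x = x * (3 * x + 2 * W.a₂) := by ring
          rw [this]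
          refine val_mul_lt_one_left hc ?_
          exact Valuation.map_add_le _ (val_mul_le_one val_three_le_one hc.le)
            (val_mul_le_one hM.two.le hM.a₂_le)
        rw [h1] at hD
        exact lt_irrefl _ hD
    · intro h1
      rcases lt_or_eq_of_le h1 with h2 | h2
      · exact Or.inl h2
      · right
        have hxu : A.valuation x = 1 := h2.symm
        by_contra hc
        rw [not_or] at hc
        obtain ⟨hc1, hc2⟩ := hc
        have hy : A.valuation y < 1 := lt_of_le_of_ne (val_y_le_one hM h hxu.le) hc1
        have hD : A.valuation (3 * x ^ 2 + 2 * W.a₂ * x + W.a₄) < 1 :=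
          lt_of_le_of_ne (val_deriv_le_one hM hxu.le) hc2
        have hg : A.valuation (x ^ 2 + W.a₂ * x + W.a₄) < 1 := by
          apply val_lt_one_of_mul_left hxu
          have : x * (x ^ 2 + W.a₂ * x + W.a₄) = y ^ 2 := by rw [e]; ring
          rw [this, map_pow]
          exact pow_lt_one₀ zero_le hy (by norm_num)
        have hd : A.valuation (2 * x + W.a₂) < 1 := by
          apply val_lt_one_of_mul_left hxu
          have : x * (2 * x + W.a₂)
              = (3 * x ^ 2 + 2 * W.a₂ * x + W.a₄) - (x ^ 2 + W.a₂ * x + W.a₄) := by ring
          rw [this]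
          exact Valuation.map_sub_lt _ hD hg
        -- `x + a₂ ∈ 𝔪`
        have hs : A.valuation (x + W.a₂) < 1 := by
          apply val_lt_one_of_mul_left hxu
          have : x * (x + W.a₂) = (x ^ 2 + W.a₂ * x + W.a₄) - W.a₄ := by ring
          rw [this]
          exact Valuation.map_sub_lt _ hg hW.a₄_lt
        have hxm : A.valuation x < 1 := by
          have : x = (2 * x + W.a₂) - (x + W.a₂) := by ring
          rw [this]
          exact Valuation.map_sub_lt _ hd hs
        rw [hxu] at hxm
        exact lt_irrefl _ hxm

end Criteria

end Fermat.Agent.S05.Good
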