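import Mathlib
import Fermat.Agent.S05.Defs

/-!
# S05, module T: the kernel of reduction

For a model `y² = x³ + a₂ x² + a₄ x` over a field `K` with a valuation subring `A` (with
`2 ∈ Aˣ`), the kernel of reduction `E₁ = {O} ∪ {(x, y) : v(x) > 1}` is a subgroup, and it has no
`n`-torsion for `n` a unit of `A`.

The proof uses the coordinates `t = x / y`, `w = 1 / y`, in which the curve is
`w = t³ + a₂ t² w + a₄ t w²`, and the estimate `v(t(P + Q) - t(P) - t(Q)) ≤ ρ³` for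
`v(t(P)), v(t(Q)) ≤ ρ < 1`.
-/

set_option autoImplicit false

namespace Fermat.Agent.S05.Kernel

open WeierstrassCurve

variable {K : Type*} [Field K] (A : ValuationSubring K) (W : WeierstrassCurve K)

/-! ### The curve equation -/

variable {A W} in
theorem equation_model (hW : IsModel A W) {x y : K} (h : W.toAffine.Equation x y) :
    y ^ 2 = x ^ 3 + W.a₂ * x ^ 2 + W.a₄ * x := by
  rw [Affine.equation_iff] at h
  rw [hW.a₁, hW.a₃, hW.a₆] at h
  linear_combination h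

variable {A W} in
/-- For a point of `E₁`: `v(y)² = v(x)³`. -/
theorem val_y_sq (hW : IsModel A W) {x y : K} (h : W.toAffine.Equation x y)
    (hx : 1 < A.valuation x) : A.valuation y ^ 2 = A.valuation x ^ 3 := by
  have e := equation_model hW h
  have h1 : A.valuation (W.a₂ * x ^ 2 + W.a₄ * x) < A.valuation (x ^ 3) := by
    have hx0 : (0 : A.ValueGroup) < A.valuation x := lt_trans zero_lt_one hx
    have hx2 : A.valuation x ≤ A.valuation x ^ 2 := by
      calc A.valuation x = A.valuation x ^ 1 := (pow_one _).symm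
        _ ≤ A.valuation x ^ 2 := pow_le_pow_right₀ hx.le (by norm_num)
    have hx3 : A.valuation x ^ 2 < A.valuation x ^ 3 :=
      pow_lt_pow_right₀ hx (by norm_num)
    refine lt_of_le_of_lt (A.valuation.map_add_le (g := A.valuation x ^ 2) ?_ ?_) ?_
    · rw [map_mul, map_pow]
      calc A.valuation W.a₂ * A.valuation x ^ 2 ≤ 1 * A.valuation x ^ 2 :=
            mul_le_mul_left hW.a₂_le _
        _ = A.valuation x ^ 2 := one_mul _
    · rw [map_mul]
      calc A.valuation W.a₄ * A.valuation x ≤ 1 * A.valuation x :=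
            mul_le_mul_left hW.a₄_le _
        _ = A.valuation x := one_mul _
        _ ≤ A.valuation x ^ 2 := hx2
    · rw [map_pow]
      exact hx3
  have h2 : A.valuation (y ^ 2) = A.valuation (x ^ 3) := by
    rw [e, add_assoc]
    exact A.valuation.map_add_eq_of_lt_left h1
  rwa [map_pow, map_pow] at h2

/-- The chart `t = x / y`, `w = 1 / y` at a point of `E₁`. -/
structure Chart (x y t w : K) : Prop where
  x_ne : x ≠ 0
  y_ne : y ≠ 0
  t_eq : t = x / y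
  w_eq : w = 1 / y
  t_ne : t ≠ 0
  val_t_lt : A.valuation t < 1
  val_w : A.valuation w = A.valuation t ^ 3
  val_x : A.valuation x * A.valuation t ^ 2 = 1
  eqn : w = t ^ 3 + W.a₂ * t ^ 2 * w + W.a₄ * t * w ^ 2

variable {A W} in
theorem chart (hW : IsModel A W) {x y : K} (h : W.toAffine.Equation x y)
    (hx : 1 < A.valuation x) : Chart A W x y (x / y) (1 / y) := by
  have e := equation_model hW h
  have hy2 := val_y_sq hW h hx
  have hx0 : x ≠ 0 := by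
    rintro rfl
    rw [map_zero] at hx
    exact not_lt.mpr zero_le hx
  have hvx0 : A.valuation x ≠ 0 := (A.valuation.ne_zero_iff).mpr hx0
  have hy0 : y ≠ 0 := by
    rintro rfl
    rw [map_zero, zero_pow two_ne_zero] at hy2
    exact pow_ne_zero 3 hvx0 hy2.symm
  have hvy0 : A.valuation y ≠ 0 := (A.valuation.ne_zero_iff).mpr hy0
  have hvy : 1 < A.valuation y := by
    by_contra hle
    rw [not_lt] at hle
    have h1 : A.valuation y ^ 2 ≤ 1 := Right.pow_le_one_of_le hle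
    have h2 : 1 < A.valuation x ^ 3 := one_lt_pow₀ hx (by norm_num)
    rw [hy2] at h1
    exact not_lt.mpr h1 h2
  have hvx : A.valuation x * A.valuation (x / y) ^ 2 = 1 := by
    rw [map_div₀, div_pow, hy2]
    field_simp
  have ht0 : x / y ≠ 0 := div_ne_zero hx0 hy0
  have htlt : A.valuation (x / y) < 1 := by
    rw [← pow_lt_one_iff (two_ne_zero)]
    have h1 : A.valuation (x / y) ^ 2 = (A.valuation x)⁻¹ :=
      eq_inv_of_mul_eq_one_right hvx
    rw [h1]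
    exact inv_lt_one_of_one_lt₀ hx
  have hwlt : A.valuation (1 / y) < 1 := by
    rw [map_div₀, map_one, one_div]
    exact inv_lt_one_of_one_lt₀ hvy
  have heqn : 1 / y = (x / y) ^ 3 + W.a₂ * (x / y) ^ 2 * (1 / y) +
      W.a₄ * (x / y) * (1 / y) ^ 2 := by
    field_simp
    linear_combination e
  refine ⟨hx0, hy0, rfl, rfl, ht0, htlt, ?_, hvx, heqn⟩
  -- `w * (1 - a₂ t² - a₄ t w) = t³` and the second factor is a unit
  have hfac : (1 / y) * (1 - (W.a₂ * (x / y) ^ 2 + W.a₄ * (x / y) * (1 / y))) = (x / y) ^ 3 := by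
    linear_combination heqn
  have hunit : A.valuation (1 - (W.a₂ * (x / y) ^ 2 + W.a₄ * (x / y) * (1 / y))) = 1 := by
    apply A.valuation.map_one_sub_of_lt
    apply A.valuation.map_add_lt
    · rw [map_mul, map_pow]
      exact Right.mul_lt_one_of_le_of_lt hW.a₂_le ((pow_lt_one_iff two_ne_zero).mpr htlt)
    · rw [map_mul, map_mul]
      exact mul_lt_one_of_lt_of_le (Right.mul_lt_one_of_le_of_lt hW.a₄_le htlt) hwlt.le
  have := congrArg A.valuation hfac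
  rwa [map_mul, hunit, mul_one, map_pow] at this

/-! ### The chord in the `(t, w)`-chart -/

/-- Numerator of the slope of the chord in the `(t, w)`-chart. -/
def Nn (t₁ t₂ w₂ : K) : K := t₂ ^ 2 + t₁ * t₂ + t₁ ^ 2 + W.a₂ * (t₁ + t₂) * w₂ + W.a₄ * w₂ ^ 2

/-- Denominator of the slope of the chord in the `(t, w)`-chart. -/
def Dd (t₁ w₁ w₂ : K) : K := 1 - W.a₂ * t₁ ^ 2 - W.a₄ * t₁ * (w₁ + w₂)

theorem chord_identity {t₁ w₁ t₂ w₂ : K}
    (h₁ : w₁ = t₁ ^ 3 + W.a₂ * t₁ ^ 2 * w₁ + W.a₄ * t₁ * w₁ ^ 2)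
    (h₂ : w₂ = t₂ ^ 3 + W.a₂ * t₂ ^ 2 * w₂ + W.a₄ * t₂ * w₂ ^ 2) :
    (w₂ - w₁) * Dd W t₁ w₁ w₂ = (t₂ - t₁) * Nn W t₁ t₂ w₂ := by
  unfold Dd Nn
  linear_combination h₂ - h₁

variable {A W} in
theorem val_Dd (hW : IsModel A W) {t₁ w₁ w₂ : K} (ht₁ : A.valuation t₁ < 1)
    (hw₁ : A.valuation w₁ < 1) (hw₂ : A.valuation w₂ < 1) :
    A.valuation (Dd W t₁ w₁ w₂) = 1 := by
  have e : Dd W t₁ w₁ w₂ = 1 - (W.a₂ * t₁ ^ 2 + W.a₄ * t₁ * (w₁ + w₂)) := by
    unfold Dd; ring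
  rw [e]
  apply A.valuation.map_one_sub_of_lt
  apply A.valuation.map_add_lt
  · rw [map_mul, map_pow]
    exact Right.mul_lt_one_of_le_of_lt hW.a₂_le ((pow_lt_one_iff two_ne_zero).mpr ht₁)
  · rw [map_mul, map_mul]
    exact mul_lt_one_of_lt_of_le (Right.mul_lt_one_of_le_of_lt hW.a₄_le ht₁)
      (A.valuation.map_add_le hw₁.le hw₂.le)

variable {A W} in
theorem val_Nn_le (hW : IsModel A W) {t₁ t₂ w₂ : K} {ρ : A.ValueGroup} (hρ : ρ ≤ 1)
    (ht₁ : A.valuation t₁ ≤ ρ) (ht₂ : A.valuation t₂ ≤ ρ) (hw₂ : A.valuation w₂ ≤ ρ ^ 3) :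
    A.valuation (Nn W t₁ t₂ w₂) ≤ ρ ^ 2 := by
  have hρ3 : ρ ^ 3 ≤ ρ ^ 2 := pow_le_pow_right_of_le_one' hρ (by norm_num)
  have hρ32 : ρ ^ 3 ≤ ρ := by
    calc ρ ^ 3 ≤ ρ ^ 1 := pow_le_pow_right_of_le_one' hρ (by norm_num)
      _ = ρ := pow_one ρ
  unfold Nn
  refine A.valuation.map_add_le (A.valuation.map_add_le (A.valuation.map_add_le
    (A.valuation.map_add_le ?_ ?_) ?_) ?_) ?_
  · rw [map_pow]; exact pow_le_pow_left' ht₂ 2
  · rw [map_mul, pow_two]; exact mul_le_mul' ht₁ ht₂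
  · rw [map_pow]; exact pow_le_pow_left' ht₁ 2
  · rw [map_mul, map_mul, pow_two]
    calc A.valuation W.a₂ * A.valuation (t₁ + t₂) * A.valuation w₂
        ≤ 1 * ρ * ρ := mul_le_mul' (mul_le_mul' hW.a₂_le (A.valuation.map_add_le ht₁ ht₂))
          (hw₂.trans hρ32)
      _ = ρ * ρ := by rw [one_mul]
  · rw [map_mul, map_pow]
    calc A.valuation W.a₄ * A.valuation w₂ ^ 2 ≤ 1 * ρ ^ 2 :=
          mul_le_mul' hW.a₄_le (pow_le_pow_left' (hw₂.trans hρ32) 2)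
      _ = ρ ^ 2 := one_mul _

/-! ### The core estimate -/

variable {A W} in
/-- The core computation: if the line `y = ℓ x + μ` meets the curve in `P₁, P₂ ∈ E₁` and in a third
point with `x`-coordinate `x₃`, then the third point lies in `E₁` and its `t`-coordinate satisfies
`t₁ + t₂ + t₃ ≡ 0` up to third order. -/
theorem core (hW : IsModel A W) {x₁ y₁ x₂ y₂ x₃ ℓ μ t₁ w₁ t₂ w₂ : K}
    (c₁ : Chart A W x₁ y₁ t₁ w₁) (c₂ : Chart A W x₂ y₂ t₂ w₂)
    (hℓ₁ : y₁ = ℓ * x₁ + μ) (hℓ₂ : y₂ = ℓ * x₂ + μ)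
    (hrel : ℓ * Dd W t₁ w₁ w₂ + μ * Nn W t₁ t₂ w₂ = 0)
    (e₁ : x₁ + x₂ + x₃ = ℓ ^ 2 - W.a₂)
    (e₂ : x₁ * x₂ + x₁ * x₃ + x₂ * x₃ = W.a₄ - 2 * ℓ * μ)
    (e₃ : x₁ * x₂ * x₃ = μ ^ 2) :
    1 < A.valuation x₃ ∧ ∀ ρ : A.ValueGroup, ρ < 1 → A.valuation t₁ ≤ ρ → A.valuation t₂ ≤ ρ →
      A.valuation (x₃ / (-(ℓ * x₃ + μ)) - t₁ - t₂) ≤ ρ ^ 3 := by
  set r₁ := A.valuation t₁ with hr₁
  set r₂ := A.valuation t₂ with hr₂
  have hr₁lt : r₁ < 1 := c₁.val_t_lt
  have hr₂lt : r₂ < 1 := c₂.val_t_lt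
  have hr₁0 : r₁ ≠ 0 := (A.valuation.ne_zero_iff).mpr c₁.t_ne
  have hr₂0 : r₂ ≠ 0 := (A.valuation.ne_zero_iff).mpr c₂.t_ne
  have hr₁pos : 0 < r₁ := lt_of_le_of_ne zero_le hr₁0.symm
  have hr₂pos : 0 < r₂ := lt_of_le_of_ne zero_le hr₂0.symm
  have hw₁ : A.valuation w₁ = r₁ ^ 3 := c₁.val_w
  have hw₂ : A.valuation w₂ = r₂ ^ 3 := c₂.val_w
  have hw₁lt : A.valuation w₁ < 1 := by
    rw [hw₁]; exact (pow_lt_one_iff (by norm_num)).mpr hr₁lt
  have hw₂lt : A.valuation w₂ < 1 := by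
    rw [hw₂]; exact (pow_lt_one_iff (by norm_num)).mpr hr₂lt
  have hD : A.valuation (Dd W t₁ w₁ w₂) = 1 := val_Dd hW c₁.val_t_lt hw₁lt hw₂lt
  -- the line in the chart
  have h2₁ : ℓ * t₁ + μ * w₁ = 1 := by
    rw [c₁.t_eq, c₁.w_eq]
    field_simp [c₁.y_ne]
    linear_combination -hℓ₁
  have h2₂ : ℓ * t₂ + μ * w₂ = 1 := by
    rw [c₂.t_eq, c₂.w_eq]
    field_simp [c₂.y_ne]
    linear_combination -hℓ₂
  have hμ : μ ≠ 0 := by
    rintro rfl
    rw [zero_mul, add_zero] at hrel h2₁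
    have hD0 : Dd W t₁ w₁ w₂ ≠ 0 := by
      intro h0
      rw [h0, map_zero] at hD
      exact zero_ne_one hD
    rcases mul_eq_zero.mp hrel with h | h
    · rw [h, zero_mul] at h2₁
      exact zero_ne_one h2₁
    · exact hD0 h
  have hμv : A.valuation μ ≠ 0 := (A.valuation.ne_zero_iff).mpr hμ
  have hμpos : 0 < A.valuation μ := lt_of_le_of_ne zero_le hμv.symm
  set n := A.valuation (Nn W t₁ t₂ w₂) with hn
  have hℓv : A.valuation ℓ = n * A.valuation μ := by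
    have h : ℓ * Dd W t₁ w₁ w₂ = -(μ * Nn W t₁ t₂ w₂) := by linear_combination hrel
    have h' := congrArg A.valuation h
    rw [map_mul, hD, mul_one, A.valuation.map_neg, map_mul] at h'
    rw [h', mul_comm]
  -- general bound on `n`
  have hn_le : ∀ ρ : A.ValueGroup, ρ ≤ 1 → r₁ ≤ ρ → r₂ ≤ ρ → n ≤ ρ ^ 2 := fun ρ hρ h1 h2 =>
    val_Nn_le hW hρ h1 h2 (by rw [hw₂]; exact pow_le_pow_left' h2 3)
  -- bounds on `μ⁻¹`
  have hM₁ : A.valuation μ⁻¹ ≤ max (n * r₁) (r₁ ^ 3) := by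
    have e : μ⁻¹ = ℓ * t₁ * μ⁻¹ + w₁ := by
      field_simp
      linear_combination -h2₁
    have h1 : A.valuation (ℓ * t₁ * μ⁻¹) = n * r₁ := by
      rw [map_mul, map_mul, hℓv, map_inv₀, mul_right_comm n, mul_assoc,
        mul_inv_cancel₀ hμv, mul_one]
    calc A.valuation μ⁻¹ = A.valuation (ℓ * t₁ * μ⁻¹ + w₁) := by rw [← e]
      _ ≤ max (A.valuation (ℓ * t₁ * μ⁻¹)) (A.valuation w₁) := A.valuation.map_add _ _
      _ = max (n * r₁) (r₁ ^ 3) := by rw [h1, hw₁]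
  have hM₂ : A.valuation μ⁻¹ ≤ max (n * r₂) (r₂ ^ 3) := by
    have e : μ⁻¹ = ℓ * t₂ * μ⁻¹ + w₂ := by
      field_simp
      linear_combination -h2₂
    have h1 : A.valuation (ℓ * t₂ * μ⁻¹) = n * r₂ := by
      rw [map_mul, map_mul, hℓv, map_inv₀, mul_right_comm n, mul_assoc,
        mul_inv_cancel₀ hμv, mul_one]
    calc A.valuation μ⁻¹ = A.valuation (ℓ * t₂ * μ⁻¹ + w₂) := by rw [← e]
      _ ≤ max (A.valuation (ℓ * t₂ * μ⁻¹)) (A.valuation w₂) := A.valuation.map_add _ _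
      _ = max (n * r₂) (r₂ ^ 3) := by rw [h1, hw₂]
  have hMlt : A.valuation μ⁻¹ < r₁ * r₂ := by
    rcases le_total r₁ r₂ with h | h
    · have hn2 : n ≤ r₂ ^ 2 := hn_le r₂ hr₂lt.le h le_rfl
      refine lt_of_le_of_lt hM₁ (max_lt ?_ ?_)
      · calc n * r₁ ≤ r₂ ^ 2 * r₁ := mul_le_mul' hn2 le_rfl
          _ = r₂ * (r₁ * r₂) := by rw [pow_two, mul_assoc, mul_comm r₂ r₁]
          _ < 1 * (r₁ * r₂) := by
              exact (mul_lt_mul_iff_of_pos_right (mul_pos hr₁pos hr₂pos)).mpr hr₂lt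
          _ = r₁ * r₂ := one_mul _
      · calc r₁ ^ 3 = r₁ * (r₁ * r₁) := pow_three r₁
          _ ≤ r₁ * (r₁ * r₂) := mul_le_mul' le_rfl (mul_le_mul' le_rfl h)
          _ < 1 * (r₁ * r₂) := by
              exact (mul_lt_mul_iff_of_pos_right (mul_pos hr₁pos hr₂pos)).mpr hr₁lt
          _ = r₁ * r₂ := one_mul _
    · have hn2 : n ≤ r₁ ^ 2 := hn_le r₁ hr₁lt.le le_rfl h
      refine lt_of_le_of_lt hM₂ (max_lt ?_ ?_)
      · calc n * r₂ ≤ r₁ ^ 2 * r₂ := mul_le_mul' hn2 le_rfl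
          _ = r₁ * (r₁ * r₂) := by rw [pow_two, mul_assoc]
          _ < 1 * (r₁ * r₂) := by
              exact (mul_lt_mul_iff_of_pos_right (mul_pos hr₁pos hr₂pos)).mpr hr₁lt
          _ = r₁ * r₂ := one_mul _
      · calc r₂ ^ 3 = r₂ * (r₂ * r₂) := pow_three r₂
          _ ≤ r₂ * (r₁ * r₂) := mul_le_mul' le_rfl (mul_le_mul' h le_rfl)
          _ < 1 * (r₁ * r₂) := by
              exact (mul_lt_mul_iff_of_pos_right (mul_pos hr₁pos hr₂pos)).mpr hr₂lt
          _ = r₁ * r₂ := one_mul _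
  -- the third point lies in `E₁`
  have hx₃ : 1 < A.valuation x₃ := by
    have h3 := congrArg A.valuation e₃
    rw [map_mul, map_mul, map_pow] at h3
    have hx1 : A.valuation x₁ * r₁ ^ 2 = 1 := c₁.val_x
    have hx2 : A.valuation x₂ * r₂ ^ 2 = 1 := c₂.val_x
    have e : A.valuation x₃ = A.valuation μ ^ 2 * (r₁ * r₂) ^ 2 := by
      calc A.valuation x₃
          = (A.valuation x₁ * r₁ ^ 2) * (A.valuation x₂ * r₂ ^ 2) * A.valuation x₃ := by
            rw [hx1, hx2, one_mul, one_mul]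
        _ = (A.valuation x₁ * A.valuation x₂ * A.valuation x₃) * (r₁ * r₂) ^ 2 := by
            rw [mul_pow]
            simp only [mul_assoc, mul_comm, mul_left_comm]
        _ = A.valuation μ ^ 2 * (r₁ * r₂) ^ 2 := by rw [h3]
    rw [e]
    have h4 : A.valuation μ⁻¹ ^ 2 < (r₁ * r₂) ^ 2 := pow_lt_pow_left₀ hMlt zero_le two_ne_zero
    rw [map_inv₀, inv_pow] at h4
    have hpos : 0 < A.valuation μ ^ 2 := pow_pos hμpos 2
    have h5 := (mul_lt_mul_iff_of_pos_left hpos).mpr h4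
    rwa [mul_inv_cancel₀ hpos.ne'] at h5
  refine ⟨hx₃, fun ρ hρ h1 h2 => ?_⟩
  have hnρ : n ≤ ρ ^ 2 := hn_le ρ hρ.le h1 h2
  have hnlt : n < 1 := lt_of_le_of_lt hnρ ((pow_lt_one_iff two_ne_zero).mpr hρ)
  have hℓle : A.valuation ℓ ≤ A.valuation μ := by
    rw [hℓv]
    exact mul_le_of_le_one_of_le hnlt.le le_rfl
  set Q := μ ^ 2 - W.a₂ * ℓ * μ + W.a₄ * ℓ ^ 2 with hQ
  have hQv : A.valuation Q = A.valuation μ ^ 2 := by
    have e : Q = μ ^ 2 + (-(W.a₂ * ℓ * μ) + W.a₄ * ℓ ^ 2) := by rw [hQ]; ring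
    have hlt1 : n * A.valuation μ ^ 2 < A.valuation μ ^ 2 := by
      calc n * A.valuation μ ^ 2 < 1 * A.valuation μ ^ 2 :=
            (mul_lt_mul_iff_of_pos_right (pow_pos hμpos 2)).mpr hnlt
        _ = A.valuation μ ^ 2 := one_mul _
    rw [e, ← map_pow]
    apply A.valuation.map_add_eq_of_lt_left
    rw [map_pow]
    apply A.valuation.map_add_lt
    · rw [A.valuation.map_neg, map_mul, map_mul, hℓv]
      calc A.valuation W.a₂ * (n * A.valuation μ) * A.valuation μ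
          ≤ 1 * (n * A.valuation μ) * A.valuation μ :=
            mul_le_mul' (mul_le_mul' hW.a₂_le le_rfl) le_rfl
        _ = n * A.valuation μ ^ 2 := by rw [one_mul, mul_assoc, pow_two]
        _ < A.valuation μ ^ 2 := hlt1
    · rw [map_mul, map_pow, hℓv]
      calc A.valuation W.a₄ * (n * A.valuation μ) ^ 2
          ≤ 1 * (n * A.valuation μ) ^ 2 := mul_le_mul' hW.a₄_le le_rfl
        _ = n * (n * A.valuation μ ^ 2) := by rw [one_mul, mul_pow, pow_two n, mul_assoc]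
        _ ≤ 1 * (n * A.valuation μ ^ 2) := mul_le_mul' hnlt.le le_rfl
        _ = n * A.valuation μ ^ 2 := one_mul _
        _ < A.valuation μ ^ 2 := hlt1
  have hQ0 : Q ≠ 0 := by
    intro h0
    rw [h0, map_zero] at hQv
    exact (pow_ne_zero 2 hμv) hQv.symm
  have hprod : y₁ * y₂ * (ℓ * x₃ + μ) = μ * Q := by
    rw [hℓ₁, hℓ₂, hQ]
    linear_combination (ℓ ^ 3) * e₃ + (ℓ ^ 2 * μ) * e₂ + (ℓ * μ ^ 2) * e₁
  have hy₃ : ℓ * x₃ + μ ≠ 0 := by
    intro h0
    rw [h0, mul_zero] at hprod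
    exact mul_ne_zero hμ hQ0 hprod.symm
  have hB : x₁ * y₂ * (ℓ * x₃ + μ) + x₂ * y₁ * (ℓ * x₃ + μ) + x₃ * y₁ * y₂ =
      -(μ * (W.a₂ * μ - 2 * W.a₄ * ℓ)) := by
    rw [hℓ₁, hℓ₂]
    linear_combination (3 * ℓ ^ 2) * e₃ + (2 * ℓ * μ) * e₂ + (μ ^ 2) * e₁
  have hsum : x₃ / (-(ℓ * x₃ + μ)) - t₁ - t₂ = (W.a₂ * μ - 2 * W.a₄ * ℓ) / Q := by
    have hy₁ := c₁.y_ne
    have hy₂ := c₂.y_ne
    have e : x₃ / (-(ℓ * x₃ + μ)) - t₁ - t₂ =
        -(x₁ * y₂ * (ℓ * x₃ + μ) + x₂ * y₁ * (ℓ * x₃ + μ) + x₃ * y₁ * y₂) /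
          (y₁ * y₂ * (ℓ * x₃ + μ)) := by
      rw [c₁.t_eq, c₂.t_eq]
      generalize ℓ * x₃ + μ = z at hy₃ ⊢
      field_simp
      ring
    rw [e, hB, hprod, neg_neg]
    field_simp
  rw [hsum, map_div₀, hQv]
  have hnum : A.valuation (W.a₂ * μ - 2 * W.a₄ * ℓ) ≤ A.valuation μ := by
    apply A.valuation.map_sub_le
    · rw [map_mul]
      exact mul_le_of_le_one_of_le hW.a₂_le le_rfl
    · rw [map_mul, map_mul, hW.two, one_mul]
      exact mul_le_of_le_one_of_le hW.a₄_le hℓle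
  have hM : A.valuation μ⁻¹ ≤ ρ ^ 3 := by
    refine hM₁.trans (max_le ?_ ?_)
    · calc n * r₁ ≤ ρ ^ 2 * ρ := mul_le_mul' hnρ h1
        _ = ρ ^ 3 := (pow_succ ρ 2).symm
    · exact pow_le_pow_left' h1 3
  calc A.valuation (W.a₂ * μ - 2 * W.a₄ * ℓ) / A.valuation μ ^ 2
      ≤ A.valuation μ / A.valuation μ ^ 2 := by
        rw [div_eq_mul_inv, div_eq_mul_inv]
        exact mul_le_mul' hnum le_rfl
    _ = A.valuation μ⁻¹ := by
        rw [map_inv₀, pow_two, div_eq_mul_inv, mul_inv, ← mul_assoc, mul_inv_cancel₀ hμv, one_mul]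
    _ ≤ ρ ^ 3 := hM

/-! ### The group law -/

section GroupLaw

variable [DecidableEq K]

variable {A W} in
/-- The symmetric functions of the three intersection points of the chord/tangent with the
curve. -/
theorem sym_functions (hW : IsModel A W) {x₁ y₁ x₂ y₂ : K} (h₁ : W.toAffine.Equation x₁ y₁)
    (h₂ : W.toAffine.Equation x₂ y₂) (hxy : ¬(x₁ = x₂ ∧ y₁ = W.toAffine.negY x₂ y₂))
    {ℓ x₃ : K} (hℓ : ℓ = W.toAffine.slope x₁ x₂ y₁ y₂) (hx₃ : x₃ = W.toAffine.addX x₁ x₂ ℓ) :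
    x₁ + x₂ + x₃ = ℓ ^ 2 - W.a₂ ∧
      x₁ * x₂ + x₁ * x₃ + x₂ * x₃ = W.a₄ - 2 * ℓ * (y₁ - ℓ * x₁) ∧
      x₁ * x₂ * x₃ = (y₁ - ℓ * x₁) ^ 2 := by
  have h := Affine.addPolynomial_slope h₁ h₂ hxy
  rw [← hℓ, ← hx₃] at h
  rw [Affine.addPolynomial_eq, neg_inj, Cubic.prod_X_sub_C_eq, Cubic.toPoly_injective] at h
  have hb := congrArg Cubic.b h
  have hc := congrArg Cubic.c h
  have hd := congrArg Cubic.d h
  have ha₁ : W.toAffine.a₁ = 0 := hW.a₁
  have ha₃ : W.toAffine.a₃ = 0 := hW.a₃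
  have ha₆ : W.toAffine.a₆ = 0 := hW.a₆
  have ha₂ : W.toAffine.a₂ = W.a₂ := rfl
  have ha₄ : W.toAffine.a₄ = W.a₄ := rfl
  simp only [ha₁, ha₃, ha₆, ha₂, ha₄] at hb hc hd
  refine ⟨?_, ?_, ?_⟩
  · linear_combination hb
  · linear_combination -hc
  · linear_combination hd

variable {A W} in
/-- The relation between the slope of the chord/tangent in the two charts. -/
theorem slope_rel (hW : IsModel A W) {x₁ y₁ x₂ y₂ : K} (h₁ : W.toAffine.Equation x₁ y₁)
    (h₂ : W.toAffine.Equation x₂ y₂) (hx₁ : 1 < A.valuation x₁) (hx₂ : 1 < A.valuation x₂)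
    (hxy : ¬(x₁ = x₂ ∧ y₁ = W.toAffine.negY x₂ y₂))
    {ℓ : K} (hℓ₀ : ℓ = W.toAffine.slope x₁ x₂ y₁ y₂) :
    y₂ = ℓ * x₂ + (y₁ - ℓ * x₁) ∧
      ℓ * Dd W (x₁ / y₁) (1 / y₁) (1 / y₂) +
        (y₁ - ℓ * x₁) * Nn W (x₁ / y₁) (x₂ / y₂) (1 / y₂) = 0 := by
  have c₁ := chart hW h₁ hx₁
  have c₂ := chart hW h₂ hx₂
  have hy₁ := c₁.y_ne
  have hy₂ := c₂.y_ne
  by_cases hx : x₁ = x₂
  · -- tangent case
    have hy : y₁ ≠ W.toAffine.negY x₂ y₂ := fun h => hxy ⟨hx, h⟩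
    have hyy : y₁ = y₂ := Affine.Y_eq_of_Y_ne h₁ h₂ hx hy
    subst hx hyy
    have e := equation_model hW h₁
    have hℓ : ℓ = (3 * x₁ ^ 2 + 2 * W.a₂ * x₁ + W.a₄) / (2 * y₁) := by
      rw [hℓ₀, Affine.slope_of_Y_ne rfl hy, Affine.negY]
      have ha₁ : W.toAffine.a₁ = 0 := hW.a₁
      have ha₃ : W.toAffine.a₃ = 0 := hW.a₃
      have ha₂ : W.toAffine.a₂ = W.a₂ := rfl
      have ha₄ : W.toAffine.a₄ = W.a₄ := rfl
      rw [ha₁, ha₃, ha₂, ha₄]
      congr 1 <;> ring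
    have h2 : (2 : K) ≠ 0 := by
      intro h0
      have := hW.two
      rw [h0, map_zero] at this
      exact zero_ne_one this
    refine ⟨by ring, ?_⟩
    rw [hℓ]
    unfold Dd Nn
    field_simp
    linear_combination (3 * (3 * x₁ ^ 2 + 2 * W.a₂ * x₁ + W.a₄)) * e
  · -- chord case
    have hℓ : ℓ = (y₁ - y₂) / (x₁ - x₂) := by rw [hℓ₀]; exact Affine.slope_of_X_ne hx
    have hx' : x₁ - x₂ ≠ 0 := sub_ne_zero.mpr hx
    have hℓ₂ : y₂ = ℓ * x₂ + (y₁ - ℓ * x₁) := by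
      rw [hℓ]
      field_simp
      ring
    refine ⟨hℓ₂, ?_⟩
    set μ := y₁ - ℓ * x₁ with hμ
    have h2₁ : ℓ * (x₁ / y₁) + μ * (1 / y₁) = 1 := by
      field_simp
      rw [hμ]; ring
    have h2₂ : ℓ * (x₂ / y₂) + μ * (1 / y₂) = 1 := by
      field_simp
      linear_combination -hℓ₂
    have hch := chord_identity W c₁.eqn c₂.eqn
    have hw₁lt : A.valuation (1 / y₁) < 1 := by
      rw [c₁.val_w]; exact (pow_lt_one_iff (by norm_num)).mpr c₁.val_t_lt
    have hw₂lt : A.valuation (1 / y₂) < 1 := by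
      rw [c₂.val_w]; exact (pow_lt_one_iff (by norm_num)).mpr c₂.val_t_lt
    have hD := val_Dd hW c₁.val_t_lt hw₁lt hw₂lt
    have hD0 : Dd W (x₁ / y₁) (1 / y₁) (1 / y₂) ≠ 0 := by
      intro h0
      rw [h0, map_zero] at hD
      exact zero_ne_one hD
    have ht : x₁ / y₁ - x₂ / y₂ ≠ 0 := by
      intro h0
      have hw0 : (1 / y₂ - 1 / y₁) * Dd W (x₁ / y₁) (1 / y₁) (1 / y₂) = 0 := by
        rw [hch]
        have : x₂ / y₂ - x₁ / y₁ = 0 := by linear_combination -h0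
        rw [this, zero_mul]
      have hw : 1 / y₂ - 1 / y₁ = 0 := (mul_eq_zero.mp hw0).resolve_right hD0
      have hyy : y₁ = y₂ := by
        have := sub_eq_zero.mp hw
        field_simp at this
        exact this
      have ht' : x₁ / y₁ = x₂ / y₂ := sub_eq_zero.mp h0
      rw [hyy] at ht'
      field_simp at ht'
      exact hx ht'
    have key : (x₁ / y₁ - x₂ / y₂) * (ℓ * Dd W (x₁ / y₁) (1 / y₁) (1 / y₂) +
        μ * Nn W (x₁ / y₁) (x₂ / y₂) (1 / y₂)) = 0 := by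
      linear_combination (Dd W (x₁ / y₁) (1 / y₁) (1 / y₂)) * (h2₁ - h2₂) + μ * hch
    exact (mul_eq_zero.mp key).resolve_left ht

variable {A W} in
theorem addY_model (hW : IsModel A W) (x₁ x₂ y₁ ℓ : K) :
    W.toAffine.addY x₁ x₂ y₁ ℓ = -(ℓ * W.toAffine.addX x₁ x₂ ℓ + (y₁ - ℓ * x₁)) := by
  have ha₁ : W.toAffine.a₁ = 0 := hW.a₁
  have ha₃ : W.toAffine.a₃ = 0 := hW.a₃
  simp only [Affine.addY, Affine.negAddY, Affine.negY, ha₁, ha₃]
  ring

variable {A W} in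
theorem negY_model (hW : IsModel A W) (x y : K) : W.toAffine.negY x y = -y := by
  have ha₁ : W.toAffine.a₁ = 0 := hW.a₁
  have ha₃ : W.toAffine.a₃ = 0 := hW.a₃
  simp only [Affine.negY, ha₁, ha₃]
  ring

variable {A W} in
/-- The key estimate for two affine points in generic position. -/
theorem generic (hW : IsModel A W) {x₁ y₁ x₂ y₂ : K} (h₁ : W.toAffine.Equation x₁ y₁)
    (h₂ : W.toAffine.Equation x₂ y₂) (hx₁ : 1 < A.valuation x₁) (hx₂ : 1 < A.valuation x₂)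
    (hxy : ¬(x₁ = x₂ ∧ y₁ = W.toAffine.negY x₂ y₂)) :
    1 < A.valuation (W.toAffine.addX x₁ x₂ (W.toAffine.slope x₁ x₂ y₁ y₂)) ∧
    ∀ ρ : A.ValueGroup, ρ < 1 → A.valuation (x₁ / y₁) ≤ ρ → A.valuation (x₂ / y₂) ≤ ρ →
      A.valuation (W.toAffine.addX x₁ x₂ (W.toAffine.slope x₁ x₂ y₁ y₂) /
        W.toAffine.addY x₁ x₂ y₁ (W.toAffine.slope x₁ x₂ y₁ y₂) - x₁ / y₁ - x₂ / y₂) ≤
          ρ ^ 3 := by
  obtain ⟨hℓ₂, hrel⟩ := slope_rel hW h₁ h₂ hx₁ hx₂ hxy rfl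
  obtain ⟨e₁, e₂, e₃⟩ := sym_functions hW h₁ h₂ hxy rfl rfl
  have hcore := core hW (chart hW h₁ hx₁) (chart hW h₂ hx₂) (by ring) hℓ₂ hrel e₁ e₂ e₃
  rw [addY_model hW]
  exact hcore

variable {A W} in
theorem val_tCoord_lt (hW : IsModel A W) {P : W.toAffine.Point} (hP : InE1 A W P) :
    A.valuation (tCoord W P) < 1 := by
  cases P with
  | zero =>
    show A.valuation (0 : K) < 1
    rw [map_zero]; exact zero_lt_one
  | some x y h => exact (chart hW h.1 hP).val_t_lt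

variable {A W} in
theorem tCoord_eq_zero_iff (hW : IsModel A W) {P : W.toAffine.Point} (hP : InE1 A W P) :
    tCoord W P = 0 ↔ P = 0 := by
  cases P with
  | zero => exact ⟨fun _ => rfl, fun _ => rfl⟩
  | some x y h =>
    constructor
    · intro h0; exact absurd h0 (chart hW h.1 hP).t_ne
    · intro h0; exact absurd h0 (Affine.Point.some_ne_zero h)

variable {A W} in
theorem tCoord_neg (hW : IsModel A W) (P : W.toAffine.Point) :
    tCoord W (-P) = -tCoord W P := by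
  cases P with
  | zero =>
    show (0 : K) = -0
    rw [neg_zero]
  | some x y h =>
    rw [Affine.Point.neg_some, tCoord_some, tCoord_some, negY_model hW, div_neg]

/-- `E₁` is stable under negation. -/
theorem inE1_neg (hW : IsModel A W) {P : W.toAffine.Point} (hP : InE1 A W P) :
    InE1 A W (-P) := by
  cases P with
  | zero => exact hP
  | some x y h => exact hP

/-- **Key lemma**: `E₁` is stable under addition, and `t(P + Q) ≡ t(P) + t(Q)` modulo `ρ³` if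
`v(t(P)), v(t(Q)) ≤ ρ < 1`. -/
theorem key (hW : IsModel A W) {P Q : W.toAffine.Point} (hP : InE1 A W P) (hQ : InE1 A W Q) :
    InE1 A W (P + Q) ∧ ∀ ρ : A.ValueGroup, ρ < 1 → A.valuation (tCoord W P) ≤ ρ →
      A.valuation (tCoord W Q) ≤ ρ →
      A.valuation (tCoord W (P + Q) - tCoord W P - tCoord W Q) ≤ ρ ^ 3 := by
  cases P with
  | zero =>
    rw [← Affine.Point.zero_def, zero_add]
    refine ⟨hQ, fun ρ _ _ _ => ?_⟩
    rw [tCoord_zero, sub_zero, sub_self, map_zero]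
    exact zero_le
  | some x₁ y₁ h₁ =>
    cases Q with
    | zero =>
      rw [← Affine.Point.zero_def, add_zero]
      refine ⟨hP, fun ρ _ _ _ => ?_⟩
      rw [tCoord_zero, sub_zero, sub_self, map_zero]
      exact zero_le
    | some x₂ y₂ h₂ =>
      by_cases hxy : x₁ = x₂ ∧ y₁ = W.toAffine.negY x₂ y₂
      · rw [Affine.Point.add_of_Y_eq hxy.1 hxy.2]
        refine ⟨trivial, fun ρ _ _ _ => ?_⟩
        rw [tCoord_zero, tCoord_some, tCoord_some, hxy.1, hxy.2, negY_model hW, div_neg]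
        rw [show (0 : K) - -(x₂ / y₂) - x₂ / y₂ = 0 by ring, map_zero]
        exact zero_le
      · rw [Affine.Point.add_some hxy]
        exact generic hW h₁.1 h₂.1 hP hQ hxy

/-- `E₁` is stable under addition. -/
theorem inE1_add (hW : IsModel A W) {P Q : W.toAffine.Point} (hP : InE1 A W P)
    (hQ : InE1 A W Q) : InE1 A W (P + Q) :=
  (key A W hW hP hQ).1

/-- `E₁` is stable under multiplication by natural numbers, and `t(k P) ≡ k t(P)` modulo
`v(t(P))³`. -/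
theorem nsmul_estimate (hW : IsModel A W) {P : W.toAffine.Point} (hP : InE1 A W P) (k : ℕ) :
    InE1 A W (k • P) ∧
      A.valuation (tCoord W (k • P) - k * tCoord W P) ≤ A.valuation (tCoord W P) ^ 3 := by
  have hρ1 : A.valuation (tCoord W P) < 1 := val_tCoord_lt hW hP
  have hρ3 : A.valuation (tCoord W P) ^ 3 ≤ A.valuation (tCoord W P) := by
    calc A.valuation (tCoord W P) ^ 3 ≤ A.valuation (tCoord W P) ^ 1 :=
          pow_le_pow_right_of_le_one' hρ1.le (by norm_num)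
      _ = A.valuation (tCoord W P) := pow_one _
  induction k with
  | zero =>
    rw [zero_smul]
    refine ⟨trivial, ?_⟩
    rw [tCoord_zero, Nat.cast_zero, zero_mul, sub_zero, map_zero]
    exact zero_le
  | succ k ih =>
    obtain ⟨ih₁, ih₂⟩ := ih
    rw [succ_nsmul]
    have hk : A.valuation (tCoord W (k • P)) ≤ A.valuation (tCoord W P) := by
      have h1 : A.valuation ((k : K) * tCoord W P) ≤ A.valuation (tCoord W P) := by
        rw [map_mul]
        exact mul_le_of_le_one_left' ((A.valuation_le_one_iff _).mpr (natCast_mem A k))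
      have h2 : tCoord W (k • P) = (tCoord W (k • P) - k * tCoord W P) + k * tCoord W P := by
        ring
      rw [h2]
      exact A.valuation.map_add_le (ih₂.trans hρ3) h1
    obtain ⟨hk₁, hk₂⟩ := key A W hW ih₁ hP
    refine ⟨hk₁, ?_⟩
    have h3 := hk₂ _ hρ1 hk le_rfl
    have h4 : tCoord W (k • P + P) - ((k + 1 : ℕ) : K) * tCoord W P =
        (tCoord W (k • P + P) - tCoord W (k • P) - tCoord W P) +
          (tCoord W (k • P) - k * tCoord W P) := by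
      push_cast
      ring
    rw [h4]
    exact A.valuation.map_add_le h3 ih₂

/-- `E₁` has no `n`-torsion for `n` a unit of `A`. -/
theorem eq_zero_of_nsmul_eq_zero (hW : IsModel A W) {n : ℕ} (hn : A.valuation (n : K) = 1)
    {P : W.toAffine.Point} (hP : InE1 A W P) (h : n • P = 0) : P = 0 := by
  by_contra hP0
  have ht0 : tCoord W P ≠ 0 := fun h0 => hP0 ((tCoord_eq_zero_iff hW hP).mp h0)
  have hρ0 : A.valuation (tCoord W P) ≠ 0 := (Valuation.ne_zero_iff _).mpr ht0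
  have hρ1 : A.valuation (tCoord W P) < 1 := val_tCoord_lt hW hP
  have h1 := (nsmul_estimate A W hW hP n).2
  rw [h, tCoord_zero, zero_sub, Valuation.map_neg, map_mul, hn, one_mul] at h1
  have h2 : A.valuation (tCoord W P) ^ 3 < A.valuation (tCoord W P) := by
    calc A.valuation (tCoord W P) ^ 3 = A.valuation (tCoord W P) * A.valuation (tCoord W P) ^ 2 := by
          rw [pow_succ', ]
      _ < A.valuation (tCoord W P) * 1 := by
          refine (mul_lt_mul_iff_of_pos_left (zero_lt_iff.mpr hρ0)).mpr ?_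
          exact (pow_lt_one_iff (by norm_num)).mpr hρ1
      _ = A.valuation (tCoord W P) := mul_one _
  exact absurd h1 (not_le.mpr h2)

end GroupLaw

end Fermat.Agent.S05.Kernel
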