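import Mathlib
import Fermat.Agent.S05.Defs
import Fermat.Agent.S05.Good

/-!
# S05, module C: the Kummer line at a node

For a model `y² = x³ + a₂ x² + a₄ x` with multiplicative reduction (node at the origin) the
truncated valuation `ell` of the `x`-coordinate behaves like the absolute value of the component
of the point: the classes of `ell (P + Q)` and `ell (P - Q)` are, in some order, the classes of
`ell P * ell Q` and `ell P / ell Q` modulo `w ↦ w⁻¹` and `w ↦ w * v(a₄)²`.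

Everything is done on `x`-coordinates: `x(P + Q) + x(P - Q) = 2 N / D²` and
`x(P + Q) x(P - Q) = M² / D²` with `N = x₁x₂(x₁ + x₂ + 2a₂) + a₄(x₁ + x₂)`, `M = x₁x₂ - a₄`,
`D = x₁ - x₂`.

Exports: `fold_add_sub`, `fold_nsmul`, `exists_zpow_of_nsmul_eq_zero`, `isGood_add_or_sub`.
-/

set_option autoImplicit false
set_option linter.unusedSectionVars false
set_option linter.unusedVariables false

namespace Fermat.Agent.S05.Kummer

open WeierstrassCurve WeierstrassCurve.Affine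

variable {K : Type*} [Field K]

/-! ### Part A: valuations -/
section Val

variable {Γ : Type*} [LinearOrderedCommGroupWithZero Γ] {v : Valuation K Γ}

theorem v_unit_add {u m : K} (hu : v u = 1) (hm : v m < 1) : v (u + m) = 1 := by
  rw [v.map_add_eq_of_lt_left (by rwa [hu]), hu]

theorem v_unit_sub {u m : K} (hu : v u = 1) (hm : v m < 1) : v (u - m) = 1 := by
  rw [v.map_sub_eq_of_lt_left (by rwa [hu]), hu]

theorem v_one_sub {m : K} (hm : v m < 1) : v (1 - m) = 1 :=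
  v_unit_sub (map_one v) hm

theorem v_lt_mul_left {m x : K} (hm : v m < 1) (hx : v x ≤ 1) : v (m * x) < 1 := by
  rw [map_mul]
  exact mul_lt_one_of_lt_of_le hm hx

theorem v_lt_mul_right {m x : K} (hx : v x ≤ 1) (hm : v m < 1) : v (x * m) < 1 := by
  rw [mul_comm]
  exact v_lt_mul_left hm hx

theorem v_unit_mul {x y : K} (hx : v x = 1) (hy : v y = 1) : v (x * y) = 1 := by
  rw [map_mul, hx, hy, one_mul]

theorem v_unit_pow {x : K} (hx : v x = 1) (n : ℕ) : v (x ^ n) = 1 := by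
  rw [map_pow, hx, one_pow]

theorem v_ne_zero_of_unit {x : K} (hx : v x = 1) : x ≠ 0 := by
  rintro rfl
  rw [map_zero] at hx
  exact zero_ne_one hx

theorem v_inv_le {x : K} (hx : 1 ≤ v x) : v x⁻¹ ≤ 1 := by
  rw [map_inv₀]
  exact inv_le_one_of_one_le₀ hx

/-- `(R0)`: if the sum and the product are integral, so are the roots -/
theorem roots_le {w₁ w₂ : K} (hS : v (w₁ + w₂) ≤ 1) (hP : v (w₁ * w₂) ≤ 1) :
    v w₁ ≤ 1 ∧ v w₂ ≤ 1 := by
  have aux : ∀ {u₁ u₂ : K}, v (u₁ + u₂) ≤ 1 → v (u₁ * u₂) ≤ 1 → v u₁ ≤ 1 := by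
    intro u₁ u₂ hS hP
    by_contra hc
    rw [not_le] at hc
    have h2 : v u₂ < 1 := by
      by_contra h2
      rw [not_lt] at h2
      have : 1 < v u₁ * v u₂ := by
        calc (1 : Γ) < v u₁ := hc
          _ = v u₁ * 1 := (mul_one _).symm
          _ ≤ v u₁ * v u₂ := mul_le_mul_right h2 _
      rw [map_mul] at hP
      exact absurd hP (not_le.mpr this)
    have : v (u₁ + u₂) = v u₁ := v.map_add_eq_of_lt_left (h2.trans hc)
    rw [this] at hS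
    exact absurd hS (not_le.mpr hc)
  exact ⟨aux hS hP, aux (by rwa [add_comm]) (by rwa [mul_comm])⟩

/-- `(R1)`: integral sum, unit product: both roots are units -/
theorem roots_unit {w₁ w₂ : K} (hS : v (w₁ + w₂) ≤ 1) (hP : v (w₁ * w₂) = 1) :
    v w₁ = 1 ∧ v w₂ = 1 := by
  obtain ⟨h1, h2⟩ := roots_le hS hP.le
  rw [map_mul] at hP
  refine ⟨le_antisymm h1 ?_, le_antisymm h2 ?_⟩
  · by_contra hc
    rw [not_le] at hc
    have : v w₁ * v w₂ < 1 := mul_lt_one_of_lt_of_le hc h2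
    exact absurd hP this.ne
  · by_contra hc
    rw [not_le] at hc
    have : v w₁ * v w₂ < 1 := by
      rw [mul_comm]
      exact mul_lt_one_of_lt_of_le hc h1
    exact absurd hP this.ne

/-- `(R2)`: unit sum, non-unit product: one root is a unit -/
theorem roots_split {w₁ w₂ : K} (hS : v (w₁ + w₂) = 1) (hP : v (w₁ * w₂) < 1) :
    (v w₁ = 1 ∧ v w₂ = v (w₁ * w₂)) ∨ (v w₂ = 1 ∧ v w₁ = v (w₁ * w₂)) := by
  obtain ⟨h1, h2⟩ := roots_le hS.le hP.le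
  rcases h1.lt_or_eq with h1 | h1
  · rcases h2.lt_or_eq with h2 | h2
    · exact absurd hS (v.map_add_lt h1 h2).ne
    · right
      exact ⟨h2, by rw [map_mul, h2, mul_one]⟩
  · left
    exact ⟨h1, by rw [map_mul, h1, one_mul]⟩

/-- `(R3)`: both roots have valuation `≥ 1` -/
theorem roots_ge {w₁ w₂ : K} (hP : 1 ≤ v (w₁ * w₂)) (hS : v (w₁ + w₂) ≤ v (w₁ * w₂)) :
    1 ≤ v w₁ ∧ 1 ≤ v w₂ := by
  have hne : w₁ * w₂ ≠ 0 := by
    intro h
    rw [h, map_zero] at hP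
    exact absurd hP (not_le.mpr zero_lt_one)
  have h1 : w₁ ≠ 0 := left_ne_zero_of_mul hne
  have h2 : w₂ ≠ 0 := right_ne_zero_of_mul hne
  have hvne : v (w₁ * w₂) ≠ 0 := (Valuation.ne_zero_iff v).mpr hne
  have hS' : v (w₁⁻¹ + w₂⁻¹) ≤ 1 := by
    have : w₁⁻¹ + w₂⁻¹ = (w₁ + w₂) / (w₁ * w₂) := by
      field_simp
      ring
    rw [this, map_div₀]
    exact (div_le_one₀ (zero_lt_iff.mpr hvne)).mpr hS
  have hP' : v (w₁⁻¹ * w₂⁻¹) ≤ 1 := by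
    rw [← mul_inv, map_inv₀]
    exact inv_le_one_of_one_le₀ hP
  obtain ⟨i1, i2⟩ := roots_le hS' hP'
  rw [map_inv₀] at i1 i2
  have p1 : 0 < v w₁ := zero_lt_iff.mpr ((Valuation.ne_zero_iff v).mpr h1)
  have p2 : 0 < v w₂ := zero_lt_iff.mpr ((Valuation.ne_zero_iff v).mpr h2)
  exact ⟨(inv_le_one₀ p1).mp i1, (inv_le_one₀ p2).mp i2⟩

/-- `(C1)` -/
theorem both_eq {z₁ z₂ r U s π : K} (hr : r ≠ 0) (hU : v U = 1) (hs : v s ≤ 1) (hπ : v π = 1)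
    (h₁ : (z₁ + z₂) * U ^ 2 = r * s) (h₂ : z₁ * z₂ * U ^ 2 = r ^ 2 * π) :
    v z₁ = v r ∧ v z₂ = v r := by
  have hU0 : U ≠ 0 := v_ne_zero_of_unit hU
  have hvr : v r ≠ 0 := (Valuation.ne_zero_iff v).mpr hr
  have e₁ : (z₁ / r + z₂ / r) * U ^ 2 = s := by
    field_simp
    linear_combination h₁
  have e₂ : (z₁ / r) * (z₂ / r) * U ^ 2 = π := by
    field_simp
    linear_combination h₂
  have hS : v (z₁ / r + z₂ / r) ≤ 1 := by
    have := congrArg v e₁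
    rw [map_mul, v_unit_pow hU, mul_one] at this
    rw [this]
    exact hs
  have hP : v (z₁ / r * (z₂ / r)) = 1 := by
    have := congrArg v e₂
    rw [map_mul, v_unit_pow hU, mul_one] at this
    rw [this]
    exact hπ
  obtain ⟨a1, a2⟩ := roots_unit hS hP
  rw [map_div₀] at a1 a2
  exact ⟨(div_eq_one_iff_eq hvr).mp a1, (div_eq_one_iff_eq hvr).mp a2⟩

/-- `(C2)` -/
theorem both_le {z₁ z₂ r U s π : K} (hr : r ≠ 0) (hU : v U = 1) (hs : v s ≤ 1) (hπ : v π ≤ 1)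
    (h₁ : (z₁ + z₂) * U ^ 2 = r * s) (h₂ : z₁ * z₂ * U ^ 2 = r ^ 2 * π) :
    v z₁ ≤ v r ∧ v z₂ ≤ v r := by
  have hU0 : U ≠ 0 := v_ne_zero_of_unit hU
  have hvr : v r ≠ 0 := (Valuation.ne_zero_iff v).mpr hr
  have e₁ : (z₁ / r + z₂ / r) * U ^ 2 = s := by
    field_simp
    linear_combination h₁
  have e₂ : (z₁ / r) * (z₂ / r) * U ^ 2 = π := by
    field_simp
    linear_combination h₂
  have hS : v (z₁ / r + z₂ / r) ≤ 1 := by
    have := congrArg v e₁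
    rw [map_mul, v_unit_pow hU, mul_one] at this
    rw [this]
    exact hs
  have hP : v (z₁ / r * (z₂ / r)) ≤ 1 := by
    have := congrArg v e₂
    rw [map_mul, v_unit_pow hU, mul_one] at this
    rw [this]
    exact hπ
  obtain ⟨a1, a2⟩ := roots_le hS hP
  rw [map_div₀] at a1 a2
  exact ⟨(div_le_one₀ (zero_lt_iff.mpr hvr)).mp a1, (div_le_one₀ (zero_lt_iff.mpr hvr)).mp a2⟩

/-- `(C3)` -/
theorem both_ge {z₁ z₂ U s π : K} (hU : v U = 1) (hs : v s ≤ 1) (hπ : v π ≤ 1)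
    (h₁ : (z₁ + z₂) * U ^ 2 = z₁ * z₂ * s) (h₂ : z₁ * z₂ * π = U ^ 2) :
    1 ≤ v z₁ ∧ 1 ≤ v z₂ := by
  have e₂ := congrArg v h₂
  rw [map_mul, v_unit_pow hU] at e₂
  have e₁ := congrArg v h₁
  rw [map_mul, v_unit_pow hU, mul_one, map_mul] at e₁
  have hP : 1 ≤ v (z₁ * z₂) := by
    by_contra hc
    rw [not_le] at hc
    have : v (z₁ * z₂) * v π < 1 := mul_lt_one_of_lt_of_le hc hπ
    exact absurd e₂ this.ne
  refine roots_ge hP ?_
  rw [e₁]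
  calc v (z₁ * z₂) * v s ≤ v (z₁ * z₂) * 1 := mul_le_mul_right hs _
    _ = v (z₁ * z₂) := mul_one _

/-- `(C4)` -/
theorem split_roots {z₁ z₂ r s π : K} (hr : r ≠ 0) (hs : v s = 1) (hπ : v π < 1)
    (h₁ : z₁ + z₂ = r * s) (h₂ : z₁ * z₂ = r ^ 2 * π) :
    (v z₁ = v r ∧ v z₂ = v r * v π) ∨ (v z₂ = v r ∧ v z₁ = v r * v π) := by
  have hvr : v r ≠ 0 := (Valuation.ne_zero_iff v).mpr hr
  have e₁ : z₁ / r + z₂ / r = s := by
    field_simp
    linear_combination h₁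
  have e₂ : (z₁ / r) * (z₂ / r) = π := by
    field_simp
    linear_combination h₂
  have hS : v (z₁ / r + z₂ / r) = 1 := by rw [e₁, hs]
  have hP : v (z₁ / r * (z₂ / r)) < 1 := by rw [e₂]; exact hπ
  rcases roots_split hS hP with ⟨a1, a2⟩ | ⟨a1, a2⟩
  · left
    rw [e₂] at a2
    rw [map_div₀] at a1 a2
    refine ⟨(div_eq_one_iff_eq hvr).mp a1, ?_⟩
    rw [← a2, mul_div_cancel₀ _ hvr]
  · right
    rw [e₂] at a2
    rw [map_div₀] at a1 a2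
    refine ⟨(div_eq_one_iff_eq hvr).mp a1, ?_⟩
    rw [← a2, mul_div_cancel₀ _ hvr]

end Val
section Clamp

variable {Γ : Type*} [LinearOrderedCommGroupWithZero Γ]

/-- truncation to the interval `[β, 1]` -/
def cl (β t : Γ) : Γ := max β (min 1 t)

theorem cl_of_ge {β t : Γ} (hβ : β ≤ 1) (h : 1 ≤ t) : cl β t = 1 := by
  rw [cl, min_eq_left h, max_eq_right hβ]

theorem cl_of_mid {β t : Γ} (h1 : β ≤ t) (h2 : t ≤ 1) : cl β t = t := by
  rw [cl, min_eq_right h2, max_eq_right h1]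

theorem cl_of_le {β t : Γ} (hβ : β ≤ 1) (h : t ≤ β) : cl β t = β := by
  rw [cl, min_eq_right (h.trans hβ), max_eq_left h]

theorem le_cl (β t : Γ) : β ≤ cl β t := le_max_left _ _

theorem cl_le_one {β : Γ} (hβ : β ≤ 1) (t : Γ) : cl β t ≤ 1 :=
  max_le hβ (min_le_left _ _)

/-- the folding relation -/
def FoldB (β z w : Γ) : Prop :=
  ∃ m : ℤ, w = z * β ^ (2 * m) ∨ w = z⁻¹ * β ^ (2 * m)

theorem FoldB.refl (β z : Γ) : FoldB β z z := ⟨0, Or.inl (by simp)⟩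

theorem FoldB.of_eq {β z w : Γ} (h : w = z) : FoldB β z w := h ▸ FoldB.refl β z

theorem FoldB.inv_left {β z w : Γ} (h : FoldB β z w) : FoldB β z⁻¹ w := by
  obtain ⟨m, h | h⟩ := h
  · exact ⟨m, Or.inr (by rw [inv_inv]; exact h)⟩
  · exact ⟨m, Or.inl h⟩

theorem FoldB.symm {β z w : Γ} (hβ : β ≠ 0) (h : FoldB β z w) : FoldB β w z := by
  obtain ⟨m, h | h⟩ := h
  · refine ⟨-m, Or.inl ?_⟩
    rw [h, mul_assoc, ← zpow_add₀ hβ]
    simp
  · refine ⟨m, Or.inr ?_⟩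
    rw [h, mul_inv, inv_inv, mul_assoc, ← zpow_neg, ← zpow_add₀ hβ]
    simp

theorem FoldB.trans {β x y z : Γ} (hβ : β ≠ 0) (h₁ : FoldB β x y) (h₂ : FoldB β y z) :
    FoldB β x z := by
  obtain ⟨m, h₁ | h₁⟩ := h₁
  · obtain ⟨n, h₂ | h₂⟩ := h₂
    · refine ⟨m + n, Or.inl ?_⟩
      rw [h₂, h₁, mul_assoc, ← zpow_add₀ hβ, mul_add]
    · refine ⟨n - m, Or.inr ?_⟩
      rw [h₂, h₁, mul_inv, mul_assoc, ← zpow_neg, ← zpow_add₀ hβ]
      congr 2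
      ring
  · obtain ⟨n, h₂ | h₂⟩ := h₂
    · refine ⟨m + n, Or.inr ?_⟩
      rw [h₂, h₁, mul_assoc, ← zpow_add₀ hβ, mul_add]
    · refine ⟨n - m, Or.inl ?_⟩
      rw [h₂, h₁, mul_inv, inv_inv, mul_assoc, ← zpow_neg, ← zpow_add₀ hβ]
      congr 2
      ring

/-- compatibility of folding with multiplication and division by a fixed element -/
theorem FoldB.mul_div {β z w : Γ} (h : FoldB β z w) (e : Γ) :
    (FoldB β (z * e) (w * e) ∧ FoldB β (z / e) (w / e)) ∨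
      (FoldB β (z / e) (w * e) ∧ FoldB β (z * e) (w / e)) := by
  obtain ⟨m, h | h⟩ := h
  · left
    refine ⟨⟨m, Or.inl ?_⟩, ⟨m, Or.inl ?_⟩⟩
    · rw [h]
      exact mul_right_comm _ _ _
    · rw [h, div_eq_mul_inv, div_eq_mul_inv]
      exact mul_right_comm _ _ _
  · right
    refine ⟨⟨m, Or.inr ?_⟩, ⟨m, Or.inr ?_⟩⟩
    · rw [h, div_eq_mul_inv, mul_inv, inv_inv]
      exact mul_right_comm _ _ _
    · rw [h, div_eq_mul_inv, mul_inv]
      exact mul_right_comm _ _ _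

/-- an element of `[β, 1]` folded to `1` is `1` -/
theorem eq_one_of_foldB {β w : Γ} (hβ0 : β ≠ 0) (hβ1 : β < 1) (h : FoldB β 1 w)
    (h1 : β ≤ w) (h2 : w ≤ 1) : w = 1 := by
  have hpos : 0 < β := zero_lt_iff.mpr hβ0
  obtain ⟨m, h | h⟩ := h <;>
  · simp only [inv_one, one_mul] at h
    rcases lt_trichotomy m 0 with hm | hm | hm
    · have : 1 < β ^ (2 * m) := one_lt_zpow_of_neg₀ hpos hβ1 (by omega)
      rw [← h] at this
      exact absurd h2 (not_le.mpr this)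
    · rw [h, hm]
      simp
    · have : β ^ (2 * m) < β ^ (1 : ℤ) :=
        zpow_lt_zpow_right_of_lt_one₀ hpos hβ1 (by omega)
      rw [← h, zpow_one] at this
      exact absurd h1 (not_le.mpr this)

end Clamp

section LemmaC

variable {Γ : Type*} [LinearOrderedCommGroupWithZero Γ] {v : Valuation K Γ}

/-- the clamp lemma: `ρ = v(c - b)² / v(c)` -/
theorem clamp_fold {b c : K} (hb0 : b ≠ 0) (hb1 : v b < 1) (hc1 : v b ^ 2 < v c)
    (hc2 : v c < 1) {ρ : Γ} (hρ : ρ * v c = v (c - b) ^ 2) :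
    FoldB (v b) (v c) (cl (v b) ρ) := by
  have hβ0 : v b ≠ 0 := (Valuation.ne_zero_iff v).mpr hb0
  have hβpos : 0 < v b := zero_lt_iff.mpr hβ0
  have hcpos : 0 < v c := lt_of_le_of_lt zero_le hc1
  have hc0 : v c ≠ 0 := hcpos.ne'
  rcases lt_trichotomy (v b) (v c) with h | h | h
  · -- `v(c - b) = v c`, `ρ = v c`
    have h1 : v (c - b) = v c := v.map_sub_eq_of_lt_left h
    rw [h1, sq] at hρ
    have h2 : ρ = v c := (mul_left_inj' hc0).mp hρ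
    rw [h2, cl_of_mid h.le hc2.le]
    exact FoldB.refl _ _
  · -- `v(c - b) ≤ β`, `ρ ≤ β`
    have h1 : v (c - b) ≤ v b := v.map_sub_le h.symm.le le_rfl
    have h2 : ρ * v b ≤ v b * v b := by
      rw [h, hρ, sq]
      exact mul_le_mul' (h ▸ h1) (h ▸ h1)
    have h3 : ρ ≤ v b := le_of_mul_le_mul_right h2 hβpos
    rw [cl_of_le hb1.le h3, h]
    exact FoldB.refl _ _
  · -- `v(c - b) = β`, `ρ = β² / v c`
    have h1 : v (c - b) = v b := v.map_sub_eq_of_lt_right h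
    rw [h1] at hρ
    have h2 : v b ≤ ρ := by
      have : v b * v c ≤ ρ * v c := by
        rw [hρ, sq]
        exact mul_le_mul_right h.le _
      exact le_of_mul_le_mul_right this hcpos
    have h3 : ρ ≤ 1 := by
      have : ρ * v c ≤ 1 * v c := by
        rw [hρ, one_mul]
        exact hc1.le
      exact le_of_mul_le_mul_right this hcpos
    rw [cl_of_mid h2 h3]
    refine ⟨1, Or.inr ?_⟩
    have e : v b ^ (2 * 1 : ℤ) = v b ^ 2 := by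
      rw [mul_one]
      exact zpow_ofNat (v b) 2
    rw [e, ← hρ, mul_comm, mul_assoc, mul_inv_cancel₀ hc0, mul_one]

end LemmaC

section Key

variable {Γ : Type*} [LinearOrderedCommGroupWithZero Γ] {v : Valuation K Γ}

theorem vmul_le {x y : K} (hx : v x ≤ 1) (hy : v y ≤ 1) : v (x * y) ≤ 1 := by
  rw [map_mul]
  exact mul_le_one' hx hy

theorem vpow_le {x : K} (hx : v x ≤ 1) (n : ℕ) : v (x ^ n) ≤ 1 := by
  rw [map_pow]
  exact pow_le_one' hx n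

theorem vdiv_le {x y : K} (hy : y ≠ 0) (h : v x ≤ v y) : v (x / y) ≤ 1 := by
  rw [map_div₀]
  exact (div_le_one₀ (zero_lt_iff.mpr ((Valuation.ne_zero_iff v).mpr hy))).mpr h

theorem vdiv_lt {x y : K} (hy : y ≠ 0) (h : v x < v y) : v (x / y) < 1 := by
  rw [map_div₀]
  exact (div_lt_one₀ (zero_lt_iff.mpr ((Valuation.ne_zero_iff v).mpr hy))).mpr h

theorem ne_zero_of_lt_v {x y : K} (h : v y < v x) : x ≠ 0 := by
  rintro rfl
  rw [map_zero] at h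
  exact not_lt_zero h

/-- the statement of the key lemma -/
def KeyGoal (v : Valuation K Γ) (b x₁ x₂ z₁ z₂ : K) : Prop :=
  (FoldB (v b) (cl (v b) (v x₁) * cl (v b) (v x₂)) (cl (v b) (v z₁)) ∧
    FoldB (v b) (cl (v b) (v x₁) / cl (v b) (v x₂)) (cl (v b) (v z₂))) ∨
  (FoldB (v b) (cl (v b) (v x₁) / cl (v b) (v x₂)) (cl (v b) (v z₁)) ∧
    FoldB (v b) (cl (v b) (v x₁) * cl (v b) (v x₂)) (cl (v b) (v z₂)))

variable {a b x₁ x₂ z₁ z₂ : K}

theorem keyGoal_of_both {c₁ c₂ d : Γ} (h₁ : cl (v b) (v x₁) = c₁) (h₂ : cl (v b) (v x₂) = c₂)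
    (hz₁ : cl (v b) (v z₁) = d) (hz₂ : cl (v b) (v z₂) = d)
    (f₁ : FoldB (v b) (c₁ * c₂) d) (f₂ : FoldB (v b) (c₁ / c₂) d) :
    KeyGoal v b x₁ x₂ z₁ z₂ := by
  left
  rw [h₁, h₂, hz₁, hz₂]
  exact ⟨f₁, f₂⟩

theorem key_GG (ha : v a = 1) (h2 : v (2 : K) = 1) (hb0 : b ≠ 0) (hb1 : v b < 1)
    (hx : x₁ ≠ x₂)
    (hS : (z₁ + z₂) * (x₁ - x₂) ^ 2 = 2 * (x₁ * x₂ * (x₁ + x₂ + 2 * a) + b * (x₁ + x₂)))
    (hP : z₁ * z₂ * (x₁ - x₂) ^ 2 = (x₁ * x₂ - b) ^ 2)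
    (g₁ : 1 ≤ v x₁) (g₂ : 1 ≤ v x₂) : KeyGoal v b x₁ x₂ z₁ z₂ := by
  have hD : x₁ - x₂ ≠ 0 := sub_ne_zero.mpr hx
  have hS' := eq_div_of_mul_eq (pow_ne_zero 2 hD) hS
  have hP' := eq_div_of_mul_eq (pow_ne_zero 2 hD) hP
  have n₁ : x₁ ≠ 0 := ne_zero_of_lt_v (lt_of_lt_of_le (by rw [map_zero]; exact zero_lt_one) g₁)
  have n₂ : x₂ ≠ 0 := ne_zero_of_lt_v (lt_of_lt_of_le (by rw [map_zero]; exact zero_lt_one) g₂)
  have p₁ : v x₁⁻¹ ≤ 1 := v_inv_le g₁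
  have p₂ : v x₂⁻¹ ≤ 1 := v_inv_le g₂
  have hale := ha.le
  have h2le := h2.le
  have hble := hb1.le
  have hU : v (1 - b * x₁⁻¹ * x₂⁻¹) = 1 :=
    v_one_sub (v_lt_mul_left (v_lt_mul_left hb1 p₁) p₂)
  have hU0 := v_ne_zero_of_unit hU
  have h₂ : z₁ * z₂ * (x₂⁻¹ - x₁⁻¹) ^ 2 = (1 - b * x₁⁻¹ * x₂⁻¹) ^ 2 := by
    rw [hP']
    field_simp
  have h₁ : (z₁ + z₂) * (1 - b * x₁⁻¹ * x₂⁻¹) ^ 2 = z₁ * z₂ *
      (2 * (x₁⁻¹ + x₂⁻¹ + 2 * a * x₁⁻¹ * x₂⁻¹ + b * x₁⁻¹ * x₂⁻¹ * (x₁⁻¹ + x₂⁻¹))) := by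
    rw [hS', hP']
    field_simp
    ring
  have hs : v (2 * (x₁⁻¹ + x₂⁻¹ + 2 * a * x₁⁻¹ * x₂⁻¹ + b * x₁⁻¹ * x₂⁻¹ * (x₁⁻¹ + x₂⁻¹))) ≤ 1 := by
    apply_rules [v.map_add_le, v.map_sub_le, vmul_le, vpow_le, (map_one v).le]
  have hπ : v ((x₂⁻¹ - x₁⁻¹) ^ 2) ≤ 1 := by
    apply_rules [v.map_add_le, v.map_sub_le, vmul_le, vpow_le, (map_one v).le]
  obtain ⟨r₁, r₂⟩ := both_ge hU hs hπ h₁ h₂
  exact keyGoal_of_both (c₁ := 1) (c₂ := 1) (d := 1) (cl_of_ge hble g₁) (cl_of_ge hble g₂)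
    (cl_of_ge hble r₁) (cl_of_ge hble r₂) (FoldB.of_eq (one_mul _).symm)
    (FoldB.of_eq (div_one _).symm)

theorem key_HH (ha : v a = 1) (h2 : v (2 : K) = 1) (hb0 : b ≠ 0) (hb1 : v b < 1)
    (hx : x₁ ≠ x₂)
    (hS : (z₁ + z₂) * (x₁ - x₂) ^ 2 = 2 * (x₁ * x₂ * (x₁ + x₂ + 2 * a) + b * (x₁ + x₂)))
    (hP : z₁ * z₂ * (x₁ - x₂) ^ 2 = (x₁ * x₂ - b) ^ 2)
    (g₁ : v x₁ ≤ v b) (g₂ : v x₂ ≤ v b) : KeyGoal v b x₁ x₂ z₁ z₂ := by
  have hD : x₁ - x₂ ≠ 0 := sub_ne_zero.mpr hx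
  have hS' := eq_div_of_mul_eq (pow_ne_zero 2 hD) hS
  have hP' := eq_div_of_mul_eq (pow_ne_zero 2 hD) hP
  have hβ0 : v b ≠ 0 := (Valuation.ne_zero_iff v).mpr hb0
  have q₁ : v (x₁ / b) ≤ 1 := vdiv_le hb0 g₁
  have q₂ : v (x₂ / b) ≤ 1 := vdiv_le hb0 g₂
  have hale := ha.le
  have h2le := h2.le
  have hble := hb1.le
  have hU : v (1 - b * (x₁ / b) * (x₂ / b)) = 1 :=
    v_one_sub (v_lt_mul_left (v_lt_mul_left hb1 q₁) q₂)
  have h₂ : z₁ * z₂ * (x₁ / b - x₂ / b) ^ 2 = (1 - b * (x₁ / b) * (x₂ / b)) ^ 2 := by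
    rw [hP']
    field_simp
    ring
  have h₁ : (z₁ + z₂) * (1 - b * (x₁ / b) * (x₂ / b)) ^ 2 = z₁ * z₂ *
      (2 * ((x₁ / b) * (x₂ / b) * (b * (x₁ / b) + b * (x₂ / b) + 2 * a)
        + x₁ / b + x₂ / b)) := by
    rw [hS', hP']
    field_simp
    ring
  have hs : v (2 * ((x₁ / b) * (x₂ / b) * (b * (x₁ / b) + b * (x₂ / b) + 2 * a)
        + x₁ / b + x₂ / b)) ≤ 1 := by
    apply_rules [v.map_add_le, v.map_sub_le, vmul_le, vpow_le, (map_one v).le]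
  have hπ : v ((x₁ / b - x₂ / b) ^ 2) ≤ 1 := by
    apply_rules [v.map_add_le, v.map_sub_le, vmul_le, vpow_le, (map_one v).le]
  obtain ⟨r₁, r₂⟩ := both_ge hU hs hπ h₁ h₂
  refine keyGoal_of_both (c₁ := v b) (c₂ := v b) (d := 1) (cl_of_le hble g₁) (cl_of_le hble g₂)
    (cl_of_ge hble r₁) (cl_of_ge hble r₂) ⟨-1, Or.inl ?_⟩ (FoldB.of_eq ?_)
  · rw [← sq, ← zpow_natCast, ← zpow_add₀ hβ0]
    norm_num
  · rw [div_self hβ0]

theorem key_GH (ha : v a = 1) (h2 : v (2 : K) = 1) (hb0 : b ≠ 0) (hb1 : v b < 1)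
    (hx : x₁ ≠ x₂)
    (hS : (z₁ + z₂) * (x₁ - x₂) ^ 2 = 2 * (x₁ * x₂ * (x₁ + x₂ + 2 * a) + b * (x₁ + x₂)))
    (hP : z₁ * z₂ * (x₁ - x₂) ^ 2 = (x₁ * x₂ - b) ^ 2)
    (g₁ : 1 ≤ v x₁) (g₂ : v x₂ ≤ v b) : KeyGoal v b x₁ x₂ z₁ z₂ := by
  have hD : x₁ - x₂ ≠ 0 := sub_ne_zero.mpr hx
  have hS' := eq_div_of_mul_eq (pow_ne_zero 2 hD) hS
  have hP' := eq_div_of_mul_eq (pow_ne_zero 2 hD) hP
  have hβ0 : v b ≠ 0 := (Valuation.ne_zero_iff v).mpr hb0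
  have n₁ : x₁ ≠ 0 := ne_zero_of_lt_v (lt_of_lt_of_le (by rw [map_zero]; exact zero_lt_one) g₁)
  have p₁ : v x₁⁻¹ ≤ 1 := v_inv_le g₁
  have q₂ : v (x₂ / b) ≤ 1 := vdiv_le hb0 g₂
  have hale := ha.le
  have h2le := h2.le
  have hble := hb1.le
  have hU : v (1 - b * x₁⁻¹ * (x₂ / b)) = 1 :=
    v_one_sub (v_lt_mul_left (v_lt_mul_left hb1 p₁) q₂)
  have h₁ : (z₁ + z₂) * (1 - b * x₁⁻¹ * (x₂ / b)) ^ 2 = b *
      (2 * ((x₂ / b) * (1 + b * x₁⁻¹ * (x₂ / b) + 2 * a * x₁⁻¹) + x₁⁻¹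
        + b * x₁⁻¹ ^ 2 * (x₂ / b))) := by
    rw [hS']
    field_simp
    ring
  have h₂ : z₁ * z₂ * (1 - b * x₁⁻¹ * (x₂ / b)) ^ 2 = b ^ 2 * (x₂ / b - x₁⁻¹) ^ 2 := by
    rw [hP']
    field_simp
  have hs : v (2 * ((x₂ / b) * (1 + b * x₁⁻¹ * (x₂ / b) + 2 * a * x₁⁻¹) + x₁⁻¹
        + b * x₁⁻¹ ^ 2 * (x₂ / b))) ≤ 1 := by
    apply_rules [v.map_add_le, v.map_sub_le, vmul_le, vpow_le, (map_one v).le]
  have hπ : v ((x₂ / b - x₁⁻¹) ^ 2) ≤ 1 := by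
    apply_rules [v.map_add_le, v.map_sub_le, vmul_le, vpow_le, (map_one v).le]
  obtain ⟨r₁, r₂⟩ := both_le hb0 hU hs hπ h₁ h₂
  refine keyGoal_of_both (c₁ := 1) (c₂ := v b) (d := v b) (cl_of_ge hble g₁)
    (cl_of_le hble g₂) (cl_of_le hble r₁) (cl_of_le hble r₂) (FoldB.of_eq (one_mul _).symm)
    ⟨0, Or.inr ?_⟩
  simp

theorem key_GN (ha : v a = 1) (h2 : v (2 : K) = 1) (hb0 : b ≠ 0) (hb1 : v b < 1)
    (hx : x₁ ≠ x₂)
    (hS : (z₁ + z₂) * (x₁ - x₂) ^ 2 = 2 * (x₁ * x₂ * (x₁ + x₂ + 2 * a) + b * (x₁ + x₂)))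
    (hP : z₁ * z₂ * (x₁ - x₂) ^ 2 = (x₁ * x₂ - b) ^ 2)
    (g₁ : 1 ≤ v x₁) (g₂ : v b < v x₂) (g₂' : v x₂ < 1) : KeyGoal v b x₁ x₂ z₁ z₂ := by
  have hD : x₁ - x₂ ≠ 0 := sub_ne_zero.mpr hx
  have hS' := eq_div_of_mul_eq (pow_ne_zero 2 hD) hS
  have hP' := eq_div_of_mul_eq (pow_ne_zero 2 hD) hP
  have hβ0 : v b ≠ 0 := (Valuation.ne_zero_iff v).mpr hb0
  have n₁ : x₁ ≠ 0 := ne_zero_of_lt_v (lt_of_lt_of_le (by rw [map_zero]; exact zero_lt_one) g₁)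
  have n₂ : x₂ ≠ 0 := ne_zero_of_lt_v g₂
  have p₁ : v x₁⁻¹ ≤ 1 := v_inv_le g₁
  have e₂ : v (b / x₂) < 1 := vdiv_lt n₂ g₂
  have e₂le := e₂.le
  have x₂le := g₂'.le
  have hale := ha.le
  have h2le := h2.le
  have hble := hb1.le
  have hU : v (1 - x₁⁻¹ * x₂) = 1 := v_one_sub (v_lt_mul_right p₁ g₂')
  have h₁ : (z₁ + z₂) * (1 - x₁⁻¹ * x₂) ^ 2 = x₂ *
      (2 * (1 + x₁⁻¹ * x₂ + 2 * a * x₁⁻¹ + b / x₂ * x₁⁻¹ * (1 + x₁⁻¹ * x₂))) := by
    rw [hS']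
    field_simp
  have h₂ : z₁ * z₂ * (1 - x₁⁻¹ * x₂) ^ 2 = x₂ ^ 2 * (1 - b / x₂ * x₁⁻¹) ^ 2 := by
    rw [hP']
    field_simp
  have hs : v (2 * (1 + x₁⁻¹ * x₂ + 2 * a * x₁⁻¹ + b / x₂ * x₁⁻¹ * (1 + x₁⁻¹ * x₂))) ≤ 1 := by
    apply_rules [v.map_add_le, v.map_sub_le, vmul_le, vpow_le, (map_one v).le]
  have hπ : v ((1 - b / x₂ * x₁⁻¹) ^ 2) = 1 :=
    v_unit_pow (v_one_sub (v_lt_mul_left e₂ p₁)) 2
  obtain ⟨r₁, r₂⟩ := both_eq n₂ hU hs hπ h₁ h₂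
  have c₂ : cl (v b) (v x₂) = v x₂ := cl_of_mid g₂.le g₂'.le
  have d₁ : cl (v b) (v z₁) = v x₂ := by rw [r₁]; exact c₂
  have d₂ : cl (v b) (v z₂) = v x₂ := by rw [r₂]; exact c₂
  refine keyGoal_of_both (c₁ := 1) (c₂ := v x₂) (d := v x₂) (cl_of_ge hble g₁) c₂ d₁ d₂
    (FoldB.of_eq (one_mul _).symm) ⟨0, Or.inr ?_⟩
  simp

theorem key_NH (ha : v a = 1) (h2 : v (2 : K) = 1) (hb0 : b ≠ 0) (hb1 : v b < 1)
    (hx : x₁ ≠ x₂)
    (hS : (z₁ + z₂) * (x₁ - x₂) ^ 2 = 2 * (x₁ * x₂ * (x₁ + x₂ + 2 * a) + b * (x₁ + x₂)))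
    (hP : z₁ * z₂ * (x₁ - x₂) ^ 2 = (x₁ * x₂ - b) ^ 2)
    (g₁ : v b < v x₁) (g₁' : v x₁ < 1) (g₂ : v x₂ ≤ v b) : KeyGoal v b x₁ x₂ z₁ z₂ := by
  have hD : x₁ - x₂ ≠ 0 := sub_ne_zero.mpr hx
  have hS' := eq_div_of_mul_eq (pow_ne_zero 2 hD) hS
  have hP' := eq_div_of_mul_eq (pow_ne_zero 2 hD) hP
  have hβ0 : v b ≠ 0 := (Valuation.ne_zero_iff v).mpr hb0
  have hβpos : 0 < v b := zero_lt_iff.mpr hβ0
  have n₁ : x₁ ≠ 0 := ne_zero_of_lt_v g₁
  have hx₁0 : v x₁ ≠ 0 := (Valuation.ne_zero_iff v).mpr n₁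
  have hx₁pos : 0 < v x₁ := zero_lt_iff.mpr hx₁0
  have e₁ : v (b / x₁) < 1 := vdiv_lt n₁ g₁
  have q₂ : v (x₂ / b) ≤ 1 := vdiv_le hb0 g₂
  have e₁le := e₁.le
  have x₁le := g₁'.le
  have hale := ha.le
  have h2le := h2.le
  have hble := hb1.le
  have hr : b / x₁ ≠ 0 := div_ne_zero hb0 n₁
  have hU : v (1 - b / x₁ * (x₂ / b)) = 1 := v_one_sub (v_lt_mul_left e₁ q₂)
  have h₁ : (z₁ + z₂) * (1 - b / x₁ * (x₂ / b)) ^ 2 = b / x₁ *
      (2 * ((x₂ / b) * (x₁ + b * (x₂ / b) + 2 * a) + 1 + b / x₁ * (x₂ / b))) := by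
    rw [hS']
    field_simp
    ring
  have h₂ : z₁ * z₂ * (1 - b / x₁ * (x₂ / b)) ^ 2 = (b / x₁) ^ 2 * (1 - x₁ * (x₂ / b)) ^ 2 := by
    rw [hP']
    field_simp
    ring
  have hs : v (2 * ((x₂ / b) * (x₁ + b * (x₂ / b) + 2 * a) + 1 + b / x₁ * (x₂ / b))) ≤ 1 := by
    apply_rules [v.map_add_le, v.map_sub_le, vmul_le, vpow_le, (map_one v).le]
  have hπ : v ((1 - x₁ * (x₂ / b)) ^ 2) = 1 :=
    v_unit_pow (v_one_sub (v_lt_mul_left g₁' q₂)) 2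
  obtain ⟨r₁, r₂⟩ := both_eq hr hU hs hπ h₁ h₂
  rw [map_div₀] at r₁ r₂
  have m1 : v b ≤ v b / v x₁ := by
    rw [le_div_iff₀ hx₁pos]
    calc v b * v x₁ ≤ v b * 1 := mul_le_mul_right g₁'.le _
      _ = v b := mul_one _
  have m2 : v b / v x₁ ≤ 1 := (div_le_one₀ hx₁pos).mpr g₁.le
  have d₁ : cl (v b) (v z₁) = v b / v x₁ := by rw [r₁]; exact cl_of_mid m1 m2
  have d₂ : cl (v b) (v z₂) = v b / v x₁ := by rw [r₂]; exact cl_of_mid m1 m2
  refine keyGoal_of_both (c₁ := v x₁) (c₂ := v b) (d := v b / v x₁) (cl_of_mid g₁.le g₁'.le)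
    (cl_of_le hble g₂) d₁ d₂ ⟨1, Or.inr ?_⟩ ⟨0, Or.inr ?_⟩
  · have e : v b ^ (2 * 1 : ℤ) = v b * v b := by
      rw [mul_one]
      exact (zpow_ofNat (v b) 2).trans (sq _)
    rw [e, mul_inv, div_eq_mul_inv, mul_assoc, ← mul_assoc (v b)⁻¹, inv_mul_cancel₀ hβ0,
      one_mul, mul_comm]
  · rw [inv_div]
    simp

theorem key_NN (ha : v a = 1) (h2 : v (2 : K) = 1) (hb0 : b ≠ 0) (hb1 : v b < 1)
    (hx : x₁ ≠ x₂)
    (hS : (z₁ + z₂) * (x₁ - x₂) ^ 2 = 2 * (x₁ * x₂ * (x₁ + x₂ + 2 * a) + b * (x₁ + x₂)))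
    (hP : z₁ * z₂ * (x₁ - x₂) ^ 2 = (x₁ * x₂ - b) ^ 2)
    (g₂ : v b < v x₂) (hle : v x₂ ≤ v x₁) (g₁' : v x₁ < 1) : KeyGoal v b x₁ x₂ z₁ z₂ := by
  have hD : x₁ - x₂ ≠ 0 := sub_ne_zero.mpr hx
  have hS' := eq_div_of_mul_eq (pow_ne_zero 2 hD) hS
  have hP' := eq_div_of_mul_eq (pow_ne_zero 2 hD) hP
  have hβ0 : v b ≠ 0 := (Valuation.ne_zero_iff v).mpr hb0
  have hβpos : 0 < v b := zero_lt_iff.mpr hβ0
  have g₁ : v b < v x₁ := g₂.trans_le hle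
  have g₂' : v x₂ < 1 := hle.trans_lt g₁'
  have n₁ : x₁ ≠ 0 := ne_zero_of_lt_v g₁
  have n₂ : x₂ ≠ 0 := ne_zero_of_lt_v g₂
  have hx₁0 : v x₁ ≠ 0 := (Valuation.ne_zero_iff v).mpr n₁
  have hx₁pos : 0 < v x₁ := zero_lt_iff.mpr hx₁0
  have hx₂0 : v x₂ ≠ 0 := (Valuation.ne_zero_iff v).mpr n₂
  have hx₂pos : 0 < v x₂ := zero_lt_iff.mpr hx₂0
  have hD0 : v (x₁ - x₂) ≠ 0 := (Valuation.ne_zero_iff v).mpr hD
  have hDpos : 0 < v (x₁ - x₂) := zero_lt_iff.mpr hD0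
  have e₁ : v (b / x₁) < 1 := vdiv_lt n₁ g₁
  have e₂ : v (b / x₂) < 1 := vdiv_lt n₂ g₂
  have t : v (x₂ / x₁) ≤ 1 := vdiv_le n₁ hle
  have hr : x₁ * x₂ / (x₁ - x₂) ^ 2 ≠ 0 :=
    div_ne_zero (mul_ne_zero n₁ n₂) (pow_ne_zero 2 hD)
  have h₁ : z₁ + z₂ = x₁ * x₂ / (x₁ - x₂) ^ 2 *
      (2 * (2 * a + (x₁ + x₂ + b / x₁ + b / x₂))) := by
    rw [hS']
    field_simp
    ring
  have h₂ : z₁ * z₂ = (x₁ * x₂ / (x₁ - x₂) ^ 2) ^ 2 *
      ((x₁ - b / x₂) * (1 - x₂ / x₁)) ^ 2 := by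
    rw [hP']
    field_simp
  have hs : v (2 * (2 * a + (x₁ + x₂ + b / x₁ + b / x₂))) = 1 := by
    refine v_unit_mul h2 (v_unit_add (v_unit_mul h2 ha) ?_)
    exact v.map_add_lt (v.map_add_lt (v.map_add_lt g₁' g₂') e₁) e₂
  have hπ : v (((x₁ - b / x₂) * (1 - x₂ / x₁)) ^ 2) < 1 := by
    have h1 : v ((x₁ - b / x₂) * (1 - x₂ / x₁)) < 1 :=
      v_lt_mul_left (v.map_sub_lt g₁' e₂) (v.map_sub_le (map_one v).le t)
    rw [map_pow]
    exact pow_lt_one₀ zero_le h1 (by norm_num)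
  -- the two possible classes
  have hc₁ : cl (v b) (v x₁) = v x₁ := cl_of_mid g₁.le g₁'.le
  have hc₂ : cl (v b) (v x₂) = v x₂ := cl_of_mid g₂.le g₂'.le
  have hother : FoldB (v b) (cl (v b) (v x₁) * cl (v b) (v x₂))
      (cl (v b) (v (x₁ * x₂ / (x₁ - x₂) ^ 2) * v (((x₁ - b / x₂) * (1 - x₂ / x₁)) ^ 2))) := by
    rw [hc₁, hc₂, ← map_mul v x₁ x₂]
    refine clamp_fold hb0 hb1 ?_ ?_ ?_
    · rw [map_mul, sq]
      exact mul_lt_mul'' g₁ g₂ zero_le zero_le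
    · rw [map_mul]
      exact mul_lt_one_of_lt_of_le g₁' g₂'.le
    · rw [← map_mul, ← map_mul, ← map_pow]
      congr 1
      field_simp
  have hunit : FoldB (v b) (cl (v b) (v x₁) / cl (v b) (v x₂))
      (cl (v b) (v (x₁ * x₂ / (x₁ - x₂) ^ 2))) := by
    rw [hc₁, hc₂]
    rcases hle.lt_or_eq with hlt | heq
    · have hvD : v (x₁ - x₂) = v x₁ := v.map_sub_eq_of_lt_left hlt
      have hvr : v (x₁ * x₂ / (x₁ - x₂) ^ 2) = v x₂ / v x₁ := by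
        rw [map_div₀, map_pow, hvD, map_mul, sq, mul_div_mul_left _ _ hx₁0]
      have m1 : v b ≤ v x₂ / v x₁ := by
        rw [le_div_iff₀ hx₁pos]
        calc v b * v x₁ ≤ v b * 1 := mul_le_mul_right g₁'.le _
          _ = v b := mul_one _
          _ ≤ v x₂ := g₂.le
      have m2 : v x₂ / v x₁ ≤ 1 := (div_le_one₀ hx₁pos).mpr hle
      rw [hvr, cl_of_mid m1 m2]
      refine ⟨0, Or.inr ?_⟩
      rw [inv_div]
      simp
    · have hvD : v (x₁ - x₂) ≤ v x₁ := v.map_sub_le le_rfl hle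
      have hvr : 1 ≤ v (x₁ * x₂ / (x₁ - x₂) ^ 2) := by
        rw [map_div₀, map_pow, map_mul, heq, one_le_div₀ (pow_pos hDpos 2), ← sq]
        exact pow_le_pow_left' hvD 2
      rw [cl_of_ge hb1.le hvr, heq, div_self hx₁0]
      exact FoldB.refl _ _
  rcases split_roots hr hs hπ h₁ h₂ with ⟨r₁, r₂⟩ | ⟨r₂, r₁⟩
  · right
    rw [r₁, r₂]
    exact ⟨hunit, hother⟩
  · left
    rw [r₁, r₂]
    exact ⟨hother, hunit⟩

theorem KeyGoal.swap (h : KeyGoal v b x₂ x₁ z₁ z₂) : KeyGoal v b x₁ x₂ z₁ z₂ := by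
  have e : cl (v b) (v x₂) / cl (v b) (v x₁) = (cl (v b) (v x₁) / cl (v b) (v x₂))⁻¹ :=
    (inv_div _ _).symm
  unfold KeyGoal at h ⊢
  rw [mul_comm (cl (v b) (v x₂)), e] at h
  rcases h with ⟨h₁, h₂⟩ | ⟨h₁, h₂⟩
  · exact Or.inl ⟨h₁, by simpa using h₂.inv_left⟩
  · exact Or.inr ⟨by simpa using h₁.inv_left, h₂⟩

theorem key_aux (ha : v a = 1) (h2 : v (2 : K) = 1) (hb0 : b ≠ 0) (hb1 : v b < 1)
    (hx : x₁ ≠ x₂)
    (hS : (z₁ + z₂) * (x₁ - x₂) ^ 2 = 2 * (x₁ * x₂ * (x₁ + x₂ + 2 * a) + b * (x₁ + x₂)))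
    (hP : z₁ * z₂ * (x₁ - x₂) ^ 2 = (x₁ * x₂ - b) ^ 2)
    (hle : v x₂ ≤ v x₁) : KeyGoal v b x₁ x₂ z₁ z₂ := by
  rcases le_or_gt 1 (v x₂) with g₂ | g₂
  · exact key_GG ha h2 hb0 hb1 hx hS hP (g₂.trans hle) g₂
  rcases le_or_gt 1 (v x₁) with g₁ | g₁
  · rcases le_or_gt (v x₂) (v b) with k | k
    · exact key_GH ha h2 hb0 hb1 hx hS hP g₁ k
    · exact key_GN ha h2 hb0 hb1 hx hS hP g₁ k g₂
  rcases le_or_gt (v x₂) (v b) with k | k
  · rcases le_or_gt (v x₁) (v b) with k' | k'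
    · exact key_HH ha h2 hb0 hb1 hx hS hP k' k
    · exact key_NH ha h2 hb0 hb1 hx hS hP k' g₁ k
  · exact key_NN ha h2 hb0 hb1 hx hS hP k hle g₁

/-- **Key lemma**: the classes of `x(P ± Q)`. -/
theorem key (ha : v a = 1) (h2 : v (2 : K) = 1) (hb0 : b ≠ 0) (hb1 : v b < 1)
    (hx : x₁ ≠ x₂)
    (hS : (z₁ + z₂) * (x₁ - x₂) ^ 2 = 2 * (x₁ * x₂ * (x₁ + x₂ + 2 * a) + b * (x₁ + x₂)))
    (hP : z₁ * z₂ * (x₁ - x₂) ^ 2 = (x₁ * x₂ - b) ^ 2) : KeyGoal v b x₁ x₂ z₁ z₂ := by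
  rcases le_total (v x₂) (v x₁) with h | h
  · exact key_aux ha h2 hb0 hb1 hx hS hP h
  · refine KeyGoal.swap (key_aux ha h2 hb0 hb1 (Ne.symm hx) ?_ ?_ h)
    · linear_combination hS
    · linear_combination hP

theorem one_le_of_mul_eq {z w u : K} (hu : v u = 1) (hw : v w ≤ 1) (h : z * w = u ^ 2) :
    1 ≤ v z := by
  have e := congrArg v h
  rw [map_mul, v_unit_pow hu] at e
  by_contra hc
  rw [not_le] at hc
  exact absurd e (mul_lt_one_of_lt_of_le hc hw).ne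

/-- the key lemma for duplication -/
theorem key_double (ha : v a = 1) (h2 : v (2 : K) = 1) (hb0 : b ≠ 0) (hb1 : v b < 1)
    {x z : K} (hy : x * (x ^ 2 + a * x + b) ≠ 0)
    (hz : z * (4 * (x * (x ^ 2 + a * x + b))) = (x ^ 2 - b) ^ 2) :
    FoldB (v b) (cl (v b) (v x) ^ 2) (cl (v b) (v z)) := by
  have hβ0 : v b ≠ 0 := (Valuation.ne_zero_iff v).mpr hb0
  have hβpos : 0 < v b := zero_lt_iff.mpr hβ0
  have h4 : v (4 : K) = 1 := by
    have : (4 : K) = 2 * 2 := by norm_num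
    rw [this]
    exact v_unit_mul h2 h2
  have h40 : (4 : K) ≠ 0 := v_ne_zero_of_unit h4
  obtain ⟨f, hf⟩ : ∃ f : K, f = x ^ 2 + a * x + b := ⟨_, rfl⟩
  rw [← hf] at hy hz
  have n : x ≠ 0 := left_ne_zero_of_mul hy
  have nf : f ≠ 0 := right_ne_zero_of_mul hy
  have hx0 : v x ≠ 0 := (Valuation.ne_zero_iff v).mpr n
  have hxpos : 0 < v x := zero_lt_iff.mpr hx0
  have hz' := eq_div_of_mul_eq (mul_ne_zero h40 hy) hz
  have hale := ha.le
  have h4le := h4.le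
  have hble := hb1.le
  rcases le_or_gt 1 (v x) with g | g
  · -- type G
    have p : v x⁻¹ ≤ 1 := v_inv_le g
    have hU : v (1 - b * x⁻¹ ^ 2) = 1 := v_one_sub (v_lt_mul_left hb1 (vpow_le p 2))
    have hw : v (4 * x⁻¹ * (1 + a * x⁻¹ + b * x⁻¹ ^ 2)) ≤ 1 := by
      apply_rules [v.map_add_le, v.map_sub_le, vmul_le, vpow_le, (map_one v).le]
    have e : z * (4 * x⁻¹ * (1 + a * x⁻¹ + b * x⁻¹ ^ 2)) = (1 - b * x⁻¹ ^ 2) ^ 2 := by
      rw [hz']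
      field_simp
      rw [hf]
      ring
    have r := one_le_of_mul_eq hU hw e
    rw [cl_of_ge hble g, cl_of_ge hble r]
    exact FoldB.of_eq (one_pow 2).symm
  rcases le_or_gt (v x) (v b) with k | k
  · -- type H
    have q : v (x / b) ≤ 1 := vdiv_le hb0 k
    have hU : v (1 - b * (x / b) ^ 2) = 1 := v_one_sub (v_lt_mul_left hb1 (vpow_le q 2))
    have hw : v (4 * (x / b) * (b * (x / b) ^ 2 + a * (x / b) + 1)) ≤ 1 := by
      apply_rules [v.map_add_le, v.map_sub_le, vmul_le, vpow_le, (map_one v).le]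
    have e : z * (4 * (x / b) * (b * (x / b) ^ 2 + a * (x / b) + 1)) =
        (1 - b * (x / b) ^ 2) ^ 2 := by
      rw [hz']
      field_simp
      rw [hf]
      ring
    have r := one_le_of_mul_eq hU hw e
    rw [cl_of_le hble k, cl_of_ge hble r]
    refine ⟨-1, Or.inl ?_⟩
    rw [← zpow_natCast, ← zpow_add₀ hβ0]
    norm_num
  · -- type N
    have e₁ : v (b / x) < 1 := vdiv_lt n k
    have hw : v (4 * (a + (x + b / x))) = 1 :=
      v_unit_mul h4 (v_unit_add ha (v.map_add_lt g e₁))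
    have e : z * (4 * (a + (x + b / x))) = (x - b / x) ^ 2 := by
      rw [hz']
      field_simp
      rw [hf]
      ring
    have hρ : v z * v (x * x) = v (x * x - b) ^ 2 := by
      have e' := congrArg v e
      rw [map_mul, hw, mul_one] at e'
      rw [e', ← map_pow, ← map_mul]
      congr 1
      field_simp
    have := clamp_fold (v := v) hb0 hb1 (c := x * x) (ρ := v z) (by
      rw [map_mul, sq]
      exact mul_lt_mul'' k k zero_le zero_le) (by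
      rw [map_mul]
      exact mul_lt_one_of_lt_of_le g g.le) hρ
    rw [cl_of_mid k.le g.le, sq, ← map_mul]
    exact this

end Key

/-! ### Part B: the group law on `x`-coordinates -/

section Formulas

variable [DecidableEq K] {W : WeierstrassCurve K}

theorem eqn_model (h1 : W.a₁ = 0) (h3 : W.a₃ = 0) (h6 : W.a₆ = 0) {x y : K}
    (h : W.toAffine.Nonsingular x y) : y ^ 2 = x ^ 3 + W.a₂ * x ^ 2 + W.a₄ * x := by
  have := (W.toAffine.equation_iff x y).mp h.1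
  rw [h1, h3, h6] at this
  linear_combination this

theorem negY_eq (h1 : W.a₁ = 0) (h3 : W.a₃ = 0) (x y : K) : W.toAffine.negY x y = -y := by
  simp [Affine.negY, h1, h3]

/-- the `x`-coordinate of the sum, for `x₁ ≠ x₂` -/
theorem addX_mul (h1 : W.a₁ = 0) {x₁ x₂ y₁ y₂ : K} (hx : x₁ ≠ x₂) :
    W.toAffine.addX x₁ x₂ (W.toAffine.slope x₁ x₂ y₁ y₂) * (x₁ - x₂) ^ 2 =
      (y₁ - y₂) ^ 2 - (W.a₂ + x₁ + x₂) * (x₁ - x₂) ^ 2 := by
  have hD : x₁ - x₂ ≠ 0 := sub_ne_zero.mpr hx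
  rw [Affine.slope_of_X_ne hx]
  simp only [Affine.addX, h1]
  field_simp
  ring

/-- sum and product of `x(P + Q)` and `x(P - Q)` -/
theorem addX_sum_prod (h1 : W.a₁ = 0) (h3 : W.a₃ = 0) (h6 : W.a₆ = 0) {x₁ x₂ y₁ y₂ : K}
    (hP : W.toAffine.Nonsingular x₁ y₁) (hQ : W.toAffine.Nonsingular x₂ y₂) (hx : x₁ ≠ x₂) :
    (W.toAffine.addX x₁ x₂ (W.toAffine.slope x₁ x₂ y₁ y₂) +
      W.toAffine.addX x₁ x₂ (W.toAffine.slope x₁ x₂ y₁ (W.toAffine.negY x₂ y₂))) * (x₁ - x₂) ^ 2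
      = 2 * (x₁ * x₂ * (x₁ + x₂ + 2 * W.a₂) + W.a₄ * (x₁ + x₂)) ∧
    W.toAffine.addX x₁ x₂ (W.toAffine.slope x₁ x₂ y₁ y₂) *
      W.toAffine.addX x₁ x₂ (W.toAffine.slope x₁ x₂ y₁ (W.toAffine.negY x₂ y₂)) * (x₁ - x₂) ^ 2
      = (x₁ * x₂ - W.a₄) ^ 2 := by
  have hD : x₁ - x₂ ≠ 0 := sub_ne_zero.mpr hx
  have e₁ := eqn_model h1 h3 h6 hP
  have e₂ := eqn_model h1 h3 h6 hQ
  have hz₁ := addX_mul (W := W) h1 (y₁ := y₁) (y₂ := y₂) hx
  have hz₂ := addX_mul (W := W) h1 (y₁ := y₁) (y₂ := W.toAffine.negY x₂ y₂) hx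
  rw [negY_eq h1 h3] at hz₂ ⊢
  set z₁ := W.toAffine.addX x₁ x₂ (W.toAffine.slope x₁ x₂ y₁ y₂) with hz₁def
  set z₂ := W.toAffine.addX x₁ x₂ (W.toAffine.slope x₁ x₂ y₁ (-y₂)) with hz₂def
  refine ⟨?_, ?_⟩
  · linear_combination hz₁ + hz₂ + 2 * e₁ + 2 * e₂
  · have hD2 : (x₁ - x₂) ^ 2 ≠ 0 := pow_ne_zero 2 hD
    apply mul_right_cancel₀ hD2
    have key : z₁ * (x₁ - x₂) ^ 2 * (z₂ * (x₁ - x₂) ^ 2) =
        (x₁ * x₂ - W.a₄) ^ 2 * (x₁ - x₂) ^ 2 := by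
      rw [hz₁, hz₂]
      linear_combination
        ((y₁ ^ 2 - y₂ ^ 2 + (x₁ ^ 3 + W.a₂ * x₁ ^ 2 + W.a₄ * x₁)
            - (x₂ ^ 3 + W.a₂ * x₂ ^ 2 + W.a₄ * x₂))
          - 2 * (W.a₂ + x₁ + x₂) * (x₁ - x₂) ^ 2) * e₁ +
        (-(y₁ ^ 2 - y₂ ^ 2 + (x₁ ^ 3 + W.a₂ * x₁ ^ 2 + W.a₄ * x₁)
            - (x₂ ^ 3 + W.a₂ * x₂ ^ 2 + W.a₄ * x₂))
          - 2 * (W.a₂ + x₁ + x₂) * (x₁ - x₂) ^ 2) * e₂
    linear_combination key

/-- the duplication formula -/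
theorem addX_double (h1 : W.a₁ = 0) (h3 : W.a₃ = 0) (h6 : W.a₆ = 0) {x y : K}
    (hP : W.toAffine.Nonsingular x y) (hy : y ≠ W.toAffine.negY x y) :
    W.toAffine.addX x x (W.toAffine.slope x x y y) * (4 * (x * (x ^ 2 + W.a₂ * x + W.a₄)))
      = (x ^ 2 - W.a₄) ^ 2 := by
  have e₁ := eqn_model h1 h3 h6 hP
  rw [Affine.slope_of_Y_ne rfl hy]
  rw [negY_eq h1 h3] at hy ⊢
  have hy0 : y ≠ 0 := by
    rintro rfl
    exact hy (by simp)
  have h2 : (2 : K) ≠ 0 := by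
    rintro h
    apply hy
    have : y - (-y) = 0 := by linear_combination y * h
    exact sub_eq_zero.mp this
  have hyy : y - -y ≠ 0 := sub_ne_zero.mpr hy
  have h4 : (4 : K) ≠ 0 := by
    have : (4 : K) = 2 * 2 := by norm_num
    rw [this]
    exact mul_ne_zero h2 h2
  have hyy2 : y - -y = 2 * y := by ring
  have hz : W.toAffine.addX x x ((3 * x ^ 2 + 2 * W.a₂ * x + W.a₄ - W.a₁ * y) / (y - -y)) *
      (4 * y ^ 2) = (3 * x ^ 2 + 2 * W.a₂ * x + W.a₄) ^ 2 - (W.a₂ + 2 * x) * (4 * y ^ 2) := by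
    simp only [Affine.addX, h1, hyy2]
    field_simp
    ring
  have e₁' : x * (x ^ 2 + W.a₂ * x + W.a₄) = y ^ 2 := by linear_combination -e₁
  rw [e₁', hz]
  linear_combination (-4 * (W.a₂ + 2 * x)) * e₁

end Formulas


/-! ### Part D: points -/

section Exports

variable [DecidableEq K] {A : ValuationSubring K} {W : WeierstrassCurve K}

theorem ell_neg (P : W.toAffine.Point) : ell A W (-P) = ell A W P := by
  cases P with
  | zero => rfl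
  | some x y h => rfl

theorem beta_le_ell (hW : IsMultModel A W) (P : W.toAffine.Point) :
    A.valuation W.a₄ ≤ ell A W P := by
  cases P with
  | zero => exact hW.a₄_lt.le
  | some x y h => exact le_max_left _ _

theorem ell_le_one (hW : IsMultModel A W) (P : W.toAffine.Point) : ell A W P ≤ 1 := by
  cases P with
  | zero => exact le_rfl
  | some x y h => exact max_le hW.a₄_lt.le (min_le_left _ _)

theorem beta_ne_zero (hW : IsMultModel A W) : A.valuation W.a₄ ≠ 0 :=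
  (Valuation.ne_zero_iff _).mpr hW.a₄_ne

theorem ell_ne_zero (hW : IsMultModel A W) (P : W.toAffine.Point) : ell A W P ≠ 0 := by
  have h1 := beta_le_ell hW P
  have h2 : 0 < A.valuation W.a₄ := zero_lt_iff.mpr (beta_ne_zero hW)
  exact (h2.trans_le h1).ne'

/-- duplication -/
theorem fold_double (hW : IsMultModel A W) (P : W.toAffine.Point) :
    Fold A W (ell A W P * ell A W P) (ell A W (P + P)) := by
  cases P with
  | zero =>
    change FoldB (A.valuation W.a₄) (1 * 1) 1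
    exact FoldB.of_eq (one_mul 1).symm
  | some x y h =>
    have hβ0 := beta_ne_zero hW
    have e₁ := eqn_model hW.a₁ hW.a₃ hW.a₆ h
    by_cases hy : y = W.toAffine.negY x y
    · rw [Point.add_self_of_Y_eq hy]
      change FoldB (A.valuation W.a₄) (cl (A.valuation W.a₄) (A.valuation x) *
        cl (A.valuation W.a₄) (A.valuation x)) 1
      -- here `y = 0`
      rw [negY_eq hW.a₁ hW.a₃] at hy
      have h20 : (2 : K) ≠ 0 := v_ne_zero_of_unit hW.two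
      have hy0 : y = 0 := by
        have : 2 * y = 0 := by linear_combination hy
        rcases mul_eq_zero.mp this with h | h
        · exact absurd h h20
        · exact h
      have hxf : x * (x ^ 2 + W.a₂ * x + W.a₄) = 0 := by
        rw [hy0] at e₁
        linear_combination -e₁
      -- the class of `x` is `1` or `β`
      have hcases : cl (A.valuation W.a₄) (A.valuation x) = 1 ∨
          cl (A.valuation W.a₄) (A.valuation x) = A.valuation W.a₄ := by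
        rcases le_or_gt 1 (A.valuation x) with g | g
        · exact Or.inl (cl_of_ge hW.a₄_lt.le g)
        rcases le_or_gt (A.valuation x) (A.valuation W.a₄) with k | k
        · exact Or.inr (cl_of_le hW.a₄_lt.le k)
        exfalso
        have n : x ≠ 0 := ne_zero_of_lt_v k
        have hf : x ^ 2 + W.a₂ * x + W.a₄ = 0 := by
          rcases mul_eq_zero.mp hxf with h | h
          · exact absurd h n
          · exact h
        have h1 : A.valuation (W.a₂ * x) = A.valuation x := by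
          rw [map_mul, hW.a₂_unit, one_mul]
        have h2 : A.valuation (x ^ 2) < A.valuation (W.a₂ * x) := by
          rw [h1, map_pow, sq]
          calc A.valuation x * A.valuation x < A.valuation x * 1 :=
                (mul_lt_mul_iff_of_pos_left (zero_lt_iff.mpr
                  ((Valuation.ne_zero_iff _).mpr n))).mpr g
            _ = A.valuation x := mul_one _
        have h3 : A.valuation (x ^ 2 + W.a₂ * x) = A.valuation x := by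
          rw [Valuation.map_add_eq_of_lt_right _ h2, h1]
        have h4 : A.valuation (x ^ 2 + W.a₂ * x + W.a₄) = A.valuation x := by
          rw [Valuation.map_add_eq_of_lt_left _ (by rw [h3]; exact k), h3]
        rw [hf, map_zero] at h4
        exact (Valuation.ne_zero_iff _).mpr n h4.symm
      rcases hcases with h | h
      · rw [h]
        exact FoldB.of_eq (one_mul 1).symm
      · rw [h]
        refine ⟨-1, Or.inl ?_⟩
        rw [← sq, ← zpow_natCast, ← zpow_add₀ hβ0]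
        norm_num
    · rw [Point.add_self_of_Y_ne hy]
      have hz := addX_double hW.a₁ hW.a₃ hW.a₆ h hy
      rw [negY_eq hW.a₁ hW.a₃] at hy
      have hy0 : y ≠ 0 := by
        rintro rfl
        exact hy (by simp)
      have hxf : x * (x ^ 2 + W.a₂ * x + W.a₄) ≠ 0 := by
        have : x * (x ^ 2 + W.a₂ * x + W.a₄) = y ^ 2 := by linear_combination -e₁
        rw [this]
        exact pow_ne_zero 2 hy0
      have := key_double (v := A.valuation) hW.a₂_unit hW.two hW.a₄_ne hW.a₄_lt hxf hz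
      rw [sq] at this
      exact this

/-- **The pair rule.** -/
theorem fold_add_sub (hW : IsMultModel A W) (P Q : W.toAffine.Point) :
    (Fold A W (ell A W P * ell A W Q) (ell A W (P + Q)) ∧
      Fold A W (ell A W P / ell A W Q) (ell A W (P - Q))) ∨
    (Fold A W (ell A W P / ell A W Q) (ell A W (P + Q)) ∧
      Fold A W (ell A W P * ell A W Q) (ell A W (P - Q))) := by
  have hβ0 := beta_ne_zero hW
  by_cases h1 : P = Q
  · subst h1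
    left
    refine ⟨fold_double hW P, ?_⟩
    rw [sub_self, div_self (ell_ne_zero hW P)]
    exact FoldB.refl _ _
  by_cases h2 : P = -Q
  · subst h2
    right
    rw [neg_add_cancel, ell_neg, div_self (ell_ne_zero hW Q), sub_eq_add_neg, ← neg_add,
      ell_neg]
    exact ⟨FoldB.refl _ _, fold_double hW Q⟩
  cases P with
  | zero =>
    left
    rw [Point.zero_def.symm, zero_add, zero_sub, ell_neg, ell_zero, one_mul]
    refine ⟨FoldB.refl _ _, ⟨0, Or.inr ?_⟩⟩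
    simp
  | some x₁ y₁ h₁ =>
    cases Q with
    | zero =>
      left
      rw [Point.zero_def.symm, add_zero, sub_zero, ell_zero, mul_one, div_one]
      exact ⟨FoldB.refl _ _, FoldB.refl _ _⟩
    | some x₂ y₂ h₂ =>
      have hx : x₁ ≠ x₂ := by
        intro hx
        rcases Point.X_eq_iff.mp hx with h | h
        · exact h1 h
        · exact h2 h
      rw [sub_eq_add_neg, Point.neg_some, Point.add_of_X_ne hx, Point.add_of_X_ne hx]
      obtain ⟨hS, hP⟩ := addX_sum_prod hW.a₁ hW.a₃ hW.a₆ h₁ h₂ hx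
      exact key (v := A.valuation) hW.a₂_unit hW.two hW.a₄_ne hW.a₄_lt hx hS hP

/-- **Multiples.** -/
theorem fold_nsmul (hW : IsMultModel A W) (P : W.toAffine.Point) (k : ℕ) :
    Fold A W (ell A W P ^ k) (ell A W (k • P)) := by
  have hβ0 := beta_ne_zero hW
  have hε := ell_ne_zero hW P
  have main : ∀ k : ℕ, Fold A W (ell A W P ^ k) (ell A W (k • P)) ∧
      Fold A W (ell A W P ^ (k + 1)) (ell A W ((k + 1) • P)) := by
    intro k
    induction k with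
    | zero =>
      refine ⟨?_, ?_⟩
      · rw [zero_nsmul, pow_zero, ell_zero]
        exact FoldB.refl _ _
      · rw [zero_add, one_nsmul, pow_one]
        exact FoldB.refl _ _
    | succ k ih =>
      obtain ⟨ih0, ih1⟩ := ih
      refine ⟨ih1, ?_⟩
      have e1 : (k + 1 + 1) • P = (k + 1) • P + P := succ_nsmul P (k + 1)
      have e2 : (k + 1) • P - P = k • P := by
        rw [succ_nsmul, add_sub_cancel_right]
      have h := fold_add_sub hW ((k + 1) • P) P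
      rw [e2, ← e1] at h
      have c := FoldB.mul_div ih1 (ell A W P)
      have p1 : ell A W P ^ (k + 1) * ell A W P = ell A W P ^ (k + 1 + 1) := (pow_succ _ _).symm
      have p2 : ell A W P ^ (k + 1) / ell A W P = ell A W P ^ k := by
        rw [pow_succ, mul_div_assoc, div_self hε, mul_one]
      rw [p1, p2] at c
      rcases c with ⟨c1, c2⟩ | ⟨c1, c2⟩
      · rcases h with ⟨h1, h2⟩ | ⟨h1, h2⟩
        · exact FoldB.trans hβ0 c1 h1
        · -- `ε^k ~ c/ε ~ c_{k+2}`, `ε^{k+2} ~ cε ~ c_k ~ ε^k`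
          exact FoldB.trans hβ0 (FoldB.trans hβ0 (FoldB.trans hβ0 c1 h2)
            (FoldB.symm hβ0 ih0)) (FoldB.trans hβ0 c2 h1)
      · rcases h with ⟨h1, h2⟩ | ⟨h1, h2⟩
        · exact FoldB.trans hβ0 (FoldB.trans hβ0 (FoldB.trans hβ0 c2 h2)
            (FoldB.symm hβ0 ih0)) (FoldB.trans hβ0 c1 h1)
        · exact FoldB.trans hβ0 c2 h1
  exact (main k).1

/-- **Torsion points.** -/
theorem exists_zpow_of_nsmul_eq_zero (hW : IsMultModel A W) {P : W.toAffine.Point} {n : ℕ}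
    (h : n • P = 0) : ∃ m : ℤ, ell A W P ^ n = A.valuation W.a₄ ^ (2 * m) := by
  have hβ0 := beta_ne_zero hW
  have hε := ell_ne_zero hW P
  obtain ⟨m, hm | hm⟩ := fold_nsmul hW P n
  · rw [h, ell_zero] at hm
    refine ⟨-m, ?_⟩
    rw [mul_neg, zpow_neg]
    exact eq_inv_of_mul_eq_one_left hm.symm
  · rw [h, ell_zero] at hm
    refine ⟨m, ?_⟩
    have : ell A W P ^ n * 1 = ell A W P ^ n * ((ell A W P ^ n)⁻¹ * A.valuation W.a₄ ^ (2 * m)) :=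
      congrArg _ hm
    rw [mul_one, ← mul_assoc, mul_inv_cancel₀ (pow_ne_zero n hε), one_mul] at this
    exact this

/-- **Two points of the same class.** -/
theorem isGood_add_or_sub (hW : IsMultModel A W) {P Q : W.toAffine.Point}
    (h : ell A W P = ell A W Q) : IsGood A W (P + Q) ∨ IsGood A W (P - Q) := by
  have hβ0 := beta_ne_zero hW
  have e : ell A W P / ell A W Q = 1 := by
    rw [h, div_self (ell_ne_zero hW Q)]
  rcases fold_add_sub hW P Q with ⟨-, h2⟩ | ⟨h1, -⟩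
  · right
    rw [e] at h2
    exact (Good.isGood_iff_ell_eq_one A W hW _).mpr
      (eq_one_of_foldB hβ0 hW.a₄_lt h2 (beta_le_ell hW _) (ell_le_one hW _))
  · left
    rw [e] at h1
    exact (Good.isGood_iff_ell_eq_one A W hW _).mpr
      (eq_one_of_foldB hβ0 hW.a₄_lt h1 (beta_le_ell hW _) (ell_le_one hW _))

end Exports

end Fermat.Agent.S05.Kummer
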