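import Mathlib
import Fermat.Prelude.Def_FLTPrelim_Ramification

/-!
# S05: valuation subrings and inertia

Basic facts about the inertia subgroup `A.inertiaSubgroupIn K` of a valuation subring `A` of
an algebraic extension `L / K`: it preserves `A`, acts trivially modulo the maximal ideal,
preserves the valuation and fixes square roots of fixed units (residue characteristic `≠ 2`).
Also: the valuation of rational numbers for a valuation subring lying over a prime `q`.
-/

set_option autoImplicit false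

namespace Fermat.Agent.S05.Val

open ValuationSubring

variable {K L : Type*} [Field K] [Field L] [Algebra K L] (A : ValuationSubring L)

theorem mem_inertiaSubgroupIn_iff (σ : L ≃ₐ[K] L) :
    σ ∈ A.inertiaSubgroupIn K ↔
      ∃ h : σ ∈ A.decompositionSubgroup K,
        (⟨σ, h⟩ : A.decompositionSubgroup K) ∈ A.inertiaSubgroup K := by
  unfold inertiaSubgroupIn
  constructor
  · rintro ⟨τ, hτ, rfl⟩
    exact ⟨τ.2, hτ⟩
  · rintro ⟨h, hσ⟩
    exact ⟨⟨σ, h⟩, hσ, rfl⟩

theorem mem_decomp_of_mem_inertia {σ : L ≃ₐ[K] L} (hσ : σ ∈ A.inertiaSubgroupIn K) :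
    σ ∈ A.decompositionSubgroup K :=
  ((mem_inertiaSubgroupIn_iff A σ).1 hσ).1

theorem map_mem_of_mem_decomp {σ : L ≃ₐ[K] L} (h : σ ∈ A.decompositionSubgroup K) {x : L}
    (hx : x ∈ A) : σ x ∈ A :=
  (A.subMulAction K).smul_mem' ⟨σ, h⟩ hx

theorem map_mem_iff_of_mem_decomp {σ : L ≃ₐ[K] L} (h : σ ∈ A.decompositionSubgroup K) (x : L) :
    σ x ∈ A ↔ x ∈ A := by
  refine ⟨fun hx => ?_, map_mem_of_mem_decomp A h⟩
  have h' : σ⁻¹ ∈ A.decompositionSubgroup K := inv_mem h
  have := map_mem_of_mem_decomp A h' hx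
  simpa using this

/-- A ring automorphism preserving `A` preserves the maximal ideal. -/
theorem valuation_lt_one_of_equiv (f : L ≃+* L) (hf : ∀ z, f z ∈ A ↔ z ∈ A) {z : L}
    (hz : A.valuation z < 1) : A.valuation (f z) < 1 := by
  by_contra hcon
  rw [not_lt] at hcon
  have hz0 : z ≠ 0 := by
    rintro rfl
    rw [map_zero, map_zero] at hcon
    exact absurd hcon (by simp)
  have hfz0 : f z ≠ 0 := by simpa using hz0
  have h1 : (f z)⁻¹ ∈ A := by
    rw [← A.valuation_le_one_iff, map_inv₀]
    exact inv_le_one_of_one_le₀ hcon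
  have h2 : f z⁻¹ ∈ A := by rwa [map_inv₀]
  have h3 : z⁻¹ ∈ A := (hf _).1 h2
  rw [← A.valuation_le_one_iff, map_inv₀] at h3
  have hv0 : 0 < A.valuation z := zero_lt_iff.mpr (by simpa using hz0)
  have h4 : 1 < (A.valuation z)⁻¹ := (one_lt_inv₀ hv0).2 hz
  exact absurd h3 (not_le.mpr h4)

theorem valuation_iterate_lt_one (f : L ≃+* L) (hf : ∀ z, f z ∈ A ↔ z ∈ A) {z : L}
    (hz : A.valuation z < 1) (k : ℕ) : A.valuation (f^[k] z) < 1 := by
  induction k with
  | zero => simpa using hz
  | succ k ih =>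
    rw [Function.iterate_succ_apply']
    exact valuation_lt_one_of_equiv A f hf ih

theorem prod_iterate_div (f : L ≃+* L) {x : L} (hx : x ≠ 0) (m : ℕ) :
    ∏ i ∈ Finset.range m, f^[i] (f x / x) = f^[m] x / x := by
  have hit : ∀ i : ℕ, ∀ a b : L, f^[i] (a / b) = f^[i] a / f^[i] b := by
    intro i
    induction i with
    | zero => intro a b; rfl
    | succ i ih =>
      intro a b
      rw [Function.iterate_succ_apply', Function.iterate_succ_apply',
        Function.iterate_succ_apply', ih, map_div₀]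
  have hne : ∀ i : ℕ, f^[i] x ≠ 0 := by
    intro i
    induction i with
    | zero => simpa using hx
    | succ i ih =>
      rw [Function.iterate_succ_apply']
      simpa using ih
  induction m with
  | zero => simp [div_self hx]
  | succ m ih =>
    rw [Finset.prod_range_succ, ih, hit, ← Function.iterate_succ_apply,
      div_mul_div_comm, mul_comm, mul_div_mul_right _ _ (hne m)]

theorem valuation_le_of_iterate (f : L ≃+* L) (hf : ∀ z, f z ∈ A ↔ z ∈ A) (x : L) {n : ℕ}
    (hn : 0 < n) (hfix : f^[n] x = x) : A.valuation x ≤ A.valuation (f x) := by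
  by_cases hx : x = 0
  · simp [hx]
  by_contra hcon
  rw [not_le] at hcon
  have hfx0 : f x ≠ 0 := by simpa using hx
  have hv0 : 0 < A.valuation x := zero_lt_iff.mpr (by simpa using hx)
  have hy : A.valuation (f x / x) < 1 := by
    rw [map_div₀]
    exact (div_lt_one₀ hv0).2 hcon
  have hprod := prod_iterate_div f hx n
  rw [hfix, div_self hx] at hprod
  have hlt : A.valuation (∏ i ∈ Finset.range n, f^[i] (f x / x)) < 1 := by
    rw [map_prod]
    obtain ⟨m, rfl⟩ : ∃ m, n = m + 1 := ⟨n - 1, by omega⟩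
    rw [Finset.prod_range_succ]
    have h1 : ∏ i ∈ Finset.range m, A.valuation (f^[i] (f x / x)) ≤ 1 :=
      Finset.prod_le_one' fun i _ => (valuation_iterate_lt_one A f hf hy i).le
    calc (∏ i ∈ Finset.range m, A.valuation (f^[i] (f x / x))) *
          A.valuation (f^[m] (f x / x))
        ≤ 1 * A.valuation (f^[m] (f x / x)) := by gcongr
      _ < 1 := by
        rw [one_mul]
        exact valuation_iterate_lt_one A f hf hy m
  rw [hprod, map_one] at hlt
  exact lt_irrefl _ hlt

/-- Every element of an algebraic extension has a finite orbit under an automorphism. -/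
theorem exists_iterate_eq [Algebra.IsAlgebraic K L] (σ : L ≃ₐ[K] L) (x : L) :
    ∃ n : ℕ, 0 < n ∧ (⇑σ)^[n] x = x := by
  have hint : IsIntegral K x := (Algebra.IsAlgebraic.isAlgebraic x).isIntegral
  have hroot : ∀ k : ℕ, (⇑σ)^[k] x ∈ (minpoly K x).rootSet L := by
    intro k
    induction k with
    | zero =>
      rw [Polynomial.mem_rootSet]
      exact ⟨minpoly.ne_zero hint, minpoly.aeval K x⟩
    | succ k ih =>
      rw [Function.iterate_succ_apply']
      rw [Polynomial.mem_rootSet] at ih ⊢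
      refine ⟨ih.1, ?_⟩
      have := Polynomial.aeval_algHom_apply (σ : L →ₐ[K] L) ((⇑σ)^[k] x) (minpoly K x)
      rw [ih.2, map_zero] at this
      exact this
  have hfin : (Set.range fun k : ℕ => (⇑σ)^[k] x).Finite :=
    (Polynomial.rootSet_finite (minpoly K x) L).subset (by rintro _ ⟨k, rfl⟩; exact hroot k)
  have hninj : ¬ Function.Injective (fun k : ℕ => (⇑σ)^[k] x) := fun hinj =>
    Set.infinite_range_of_injective hinj hfin
  obtain ⟨a, b, hab, hne⟩ : ∃ a b : ℕ, (⇑σ)^[a] x = (⇑σ)^[b] x ∧ a ≠ b := by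
    by_contra hcon
    apply hninj
    intro a b hab
    by_contra hne
    exact hcon ⟨a, b, hab, hne⟩
  wlog hlt : a < b generalizing a b
  · exact this b a hab.symm hne.symm (lt_of_le_of_ne (not_lt.mp hlt) hne.symm)
  refine ⟨b - a, Nat.sub_pos_of_lt hlt, ?_⟩
  have hb : b = a + (b - a) := by omega
  have h1 : (⇑σ)^[a] ((⇑σ)^[b - a] x) = (⇑σ)^[a] x := by
    rw [← Function.iterate_add_apply, ← hb]
    exact hab.symm
  exact (Function.Injective.iterate σ.injective a) h1

/-- An element of the decomposition group preserves the valuation (algebraic extensions). -/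
theorem valuation_map_of_mem_decomp [Algebra.IsAlgebraic K L] {σ : L ≃ₐ[K] L}
    (h : σ ∈ A.decompositionSubgroup K) (x : L) : A.valuation (σ x) = A.valuation x := by
  obtain ⟨n, hn, hfix⟩ := exists_iterate_eq σ x
  have h1 : A.valuation x ≤ A.valuation (σ x) :=
    valuation_le_of_iterate A σ.toRingEquiv (fun z => map_mem_iff_of_mem_decomp A h z) x hn hfix
  have hinv : σ⁻¹ ∈ A.decompositionSubgroup K := inv_mem h
  have hfix' : (⇑(σ⁻¹ : L ≃ₐ[K] L))^[n] (σ x) = σ x := by
    have hleft : Function.LeftInverse (⇑(σ⁻¹ : L ≃ₐ[K] L)) (⇑σ) := fun y => by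
      show σ.symm (σ y) = y
      exact σ.symm_apply_apply y
    have hcomm : ∀ k : ℕ, (⇑(σ⁻¹ : L ≃ₐ[K] L))^[k] ((⇑σ)^[k] (σ x)) = σ x :=
      fun k => (hleft.iterate k) (σ x)
    have h2 : (⇑σ)^[n] (σ x) = σ x := by
      rw [← Function.iterate_succ_apply, Function.iterate_succ_apply', hfix]
    have := hcomm n
    rw [h2] at this
    exact this
  have h2 : A.valuation (σ x) ≤ A.valuation ((σ⁻¹ : L ≃ₐ[K] L) (σ x)) :=
    valuation_le_of_iterate A (σ⁻¹ : L ≃ₐ[K] L).toRingEquiv
      (fun z => map_mem_iff_of_mem_decomp A hinv z) (σ x) hn hfix'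
  have h3 : (σ⁻¹ : L ≃ₐ[K] L) (σ x) = x := by
    show σ.symm (σ x) = x
    exact σ.symm_apply_apply x
  rw [h3] at h2
  exact le_antisymm h2 h1

theorem valuation_map [Algebra.IsAlgebraic K L] {σ : L ≃ₐ[K] L}
    (hσ : σ ∈ A.inertiaSubgroupIn K) (x : L) : A.valuation (σ x) = A.valuation x :=
  valuation_map_of_mem_decomp A (mem_decomp_of_mem_inertia A hσ) x

/-- The inertia group acts trivially modulo the maximal ideal. -/
theorem sub_mem_nonunits {σ : L ≃ₐ[K] L} (hσ : σ ∈ A.inertiaSubgroupIn K) {x : L}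
    (hx : x ∈ A) : σ x - x ∈ A.nonunits := by
  obtain ⟨h, hσ'⟩ := (mem_inertiaSubgroupIn_iff A σ).1 hσ
  have h1 : MulSemiringAction.toRingAut (A.decompositionSubgroup K)
      (IsLocalRing.ResidueField A) ⟨σ, h⟩ = 1 := hσ'
  have h2 := congrArg (fun f => f (IsLocalRing.residue A ⟨x, hx⟩)) h1
  simp only [RingAut.one_apply] at h2
  have h3 : IsLocalRing.residue A ((⟨σ, h⟩ : A.decompositionSubgroup K) • (⟨x, hx⟩ : A)) =
      IsLocalRing.residue A ⟨x, hx⟩ := h2
  have h4 : ((⟨σ, h⟩ : A.decompositionSubgroup K) • (⟨x, hx⟩ : A)) - ⟨x, hx⟩ ∈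
      IsLocalRing.maximalIdeal A := by
    rw [← IsLocalRing.residue_eq_zero_iff, map_sub, h3, sub_self]
  rw [ValuationSubring.mem_nonunits_iff_exists_mem_maximalIdeal]
  exact ⟨A.sub_mem (map_mem_of_mem_decomp A h hx) hx, h4⟩

theorem valuation_sub_lt_one {σ : L ≃ₐ[K] L} (hσ : σ ∈ A.inertiaSubgroupIn K) {x : L}
    (hx : A.valuation x ≤ 1) : A.valuation (σ x - x) < 1 := by
  have := sub_mem_nonunits A hσ ((A.valuation_le_one_iff x).1 hx)
  exact (ValuationSubring.mem_nonunits_iff A).1 this

/-- The inertia group fixes the square roots of fixed units (residue characteristic `≠ 2`). -/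
theorem map_eq_of_sq {σ : L ≃ₐ[K] L} (hσ : σ ∈ A.inertiaSubgroupIn K)
    (h2 : A.valuation (2 : L) = 1) {s : L} (hs : A.valuation s = 1) (hfix : σ (s ^ 2) = s ^ 2) :
    σ s = s := by
  have h1 : (σ s - s) * (σ s + s) = 0 := by
    have : σ s ^ 2 = s ^ 2 := by rw [← map_pow]; exact hfix
    linear_combination this
  rcases mul_eq_zero.1 h1 with h | h
  · exact sub_eq_zero.1 h
  · exfalso
    have hlt := valuation_sub_lt_one A hσ hs.le
    have : σ s - s = -(2 * s) := by linear_combination h
    rw [this, Valuation.map_neg, map_mul, h2, hs, one_mul] at hlt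
    exact lt_irrefl _ hlt

section Rational

variable {L : Type*} [Field L] (A : ValuationSubring L) {q : ℕ}

theorem valuation_natCast_lt_one (hA : A.LiesOverPrime q) : A.valuation (q : L) < 1 :=
  (ValuationSubring.mem_nonunits_iff A).1 hA

theorem valuation_intCast_le_one (n : ℤ) : A.valuation (n : L) ≤ 1 :=
  (A.valuation_le_one_iff _).2 (intCast_mem A n)

theorem valuation_intCast_lt_one_of_dvd (hA : A.LiesOverPrime q) {n : ℤ} (hn : (q : ℤ) ∣ n) :
    A.valuation (n : L) < 1 := by
  obtain ⟨m, rfl⟩ := hn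
  rw [Int.cast_mul, map_mul, Int.cast_natCast]
  calc A.valuation (q : L) * A.valuation (m : L)
      ≤ A.valuation (q : L) * 1 := by gcongr; exact valuation_intCast_le_one A m
    _ < 1 := by rw [mul_one]; exact valuation_natCast_lt_one A hA

theorem valuation_intCast_eq_one (hq : q.Prime) (hA : A.LiesOverPrime q) {n : ℤ}
    (hn : ¬ (q : ℤ) ∣ n) : A.valuation (n : L) = 1 := by
  refine le_antisymm (valuation_intCast_le_one A n) ?_
  by_contra hcon
  rw [not_le] at hcon
  have hcop : IsCoprime (q : ℤ) n := by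
    have hp : Prime (q : ℤ) := Nat.prime_iff_prime_int.mp hq
    exact (Prime.coprime_iff_not_dvd hp).2 hn
  obtain ⟨a, b, hab⟩ := hcop
  have h1 : A.valuation ((a : L) * (q : L) + (b : L) * (n : L)) < 1 := by
    refine lt_of_le_of_lt (A.valuation.map_add _ _) (max_lt ?_ ?_)
    · rw [map_mul]
      calc A.valuation (a : L) * A.valuation (q : L)
          ≤ 1 * A.valuation (q : L) := by gcongr; exact valuation_intCast_le_one A a
        _ < 1 := by rw [one_mul]; exact valuation_natCast_lt_one A hA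
    · rw [map_mul]
      calc A.valuation (b : L) * A.valuation (n : L)
          ≤ 1 * A.valuation (n : L) := by gcongr; exact valuation_intCast_le_one A b
        _ < 1 := by rw [one_mul]; exact hcon
  have h2 : (a : L) * (q : L) + (b : L) * (n : L) = 1 := by
    have := congrArg (Int.cast : ℤ → L) hab
    push_cast at this
    exact this
  rw [h2, map_one] at h1
  exact lt_irrefl _ h1

theorem valuation_intCast_lt_one_iff (hq : q.Prime) (hA : A.LiesOverPrime q) {n : ℤ} :
    A.valuation (n : L) < 1 ↔ (q : ℤ) ∣ n := by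
  refine ⟨fun h => ?_, valuation_intCast_lt_one_of_dvd A hA⟩
  by_contra hn
  rw [valuation_intCast_eq_one A hq hA hn] at h
  exact lt_irrefl _ h

theorem valuation_two_eq_one (hq : q.Prime) (hq2 : q ≠ 2) (hA : A.LiesOverPrime q) :
    A.valuation (2 : L) = 1 := by
  have h : ¬ (q : ℤ) ∣ (2 : ℤ) := by
    intro hdvd
    have h2 : q ∣ 2 := by exact_mod_cast hdvd
    exact hq2 ((Nat.prime_dvd_prime_iff_eq hq Nat.prime_two).1 h2)
  have := valuation_intCast_eq_one A hq hA h
  simpa using this

theorem valuation_natCast_eq_one (hq : q.Prime) (hA : A.LiesOverPrime q) {n : ℕ}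
    (hn : ¬ q ∣ n) : A.valuation (n : L) = 1 := by
  have h : ¬ (q : ℤ) ∣ (n : ℤ) := by
    intro hdvd
    exact hn (by exact_mod_cast hdvd)
  have := valuation_intCast_eq_one A hq hA h
  simpa using this

/-- The value group is torsion-free. -/
theorem valuation_eq_of_pow_eq {x y : L} {n : ℕ} (hn : n ≠ 0)
    (h : A.valuation x ^ n = A.valuation y ^ n) : A.valuation x = A.valuation y :=
  (pow_left_inj hn).mp h

end Rational

end Fermat.Agent.S05.Val
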