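import Fermat.Prelude.Def_FLTPrelim_Ramification
import Fermat.Agent.S05.Defs
import Fermat.Agent.S05.Val
import Fermat.Agent.S05.Good
import Fermat.Agent.S05.Kernel
import Fermat.Agent.S05.Kummer

set_option autoImplicit false

/-!
# S05: the core theorem

For the curve `y² = x³ + a₂ x² + a₄ x` over `ℚ` (`a₂, a₄ ∈ ℤ`) and an odd prime `q ≠ p` at which
the model has good reduction, or multiplicative reduction with `a₄ = u b₀ ^ p`, `q ∤ u`, the
inertia groups at `q` act trivially on the `p`-torsion points.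
-/


namespace Fermat.Agent.S05.Core

open WeierstrassCurve WeierstrassCurve.Affine

set_option linter.unusedSectionVars false

variable {L : Type*} [Field L] [DecidableEq L] [Algebra ℚ L]
  (W' : WeierstrassCurve ℚ) (A : ValuationSubring L)

theorem nonsingular_smul (σ : L ≃ₐ[ℚ] L) {x y : L} (h : (W'⁄L).Nonsingular x y) :
    (W'⁄L).Nonsingular (σ x) (σ y) :=
  (WeierstrassCurve.Affine.baseChange_nonsingular W' (f := σ.toAlgHom)
    σ.toAlgHom.injective x y).mpr h

theorem smul_some (σ : L ≃ₐ[ℚ] L) {x y : L} (h : (W'⁄L).Nonsingular x y) :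
    σ • (Point.some x y h : (W'⁄L).Point) =
      Point.some (σ x) (σ y) (nonsingular_smul W' σ h) :=
  rfl

theorem smul_zero' (σ : L ≃ₐ[ℚ] L) : σ • (0 : (W'⁄L).Point) = 0 := rfl

theorem smul_add' (σ : L ≃ₐ[ℚ] L) (P Q : (W'⁄L).Point) : σ • (P + Q) = σ • P + σ • Q :=
  smul_add σ P Q

theorem smul_neg' (σ : L ≃ₐ[ℚ] L) (P : (W'⁄L).Point) : σ • (-P) = -(σ • P) :=
  smul_neg σ P

theorem smul_sub' (σ : L ≃ₐ[ℚ] L) (P Q : (W'⁄L).Point) : σ • (P - Q) = σ • P - σ • Q :=
  smul_sub σ P Q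

theorem smul_nsmul' (σ : L ≃ₐ[ℚ] L) (n : ℕ) (P : (W'⁄L).Point) : σ • (n • P) = n • (σ • P) :=
  (WeierstrassCurve.Affine.Point.map (W' := W') σ.toAlgHom).map_nsmul n P

variable {W' A}

/-- A good point moves by an element of the kernel of reduction under inertia. -/
theorem inE1_smul_sub [Algebra.IsAlgebraic ℚ L] (hW : IsModel A (W'⁄L)) {σ : L ≃ₐ[ℚ] L}
    (hσ : σ ∈ A.inertiaSubgroupIn ℚ) {R : (W'⁄L).Point} (hR : IsGood A (W'⁄L) R) :
    InE1 A (W'⁄L) (σ • R - R) := by
  cases R with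
  | zero =>
    show InE1 A (W'⁄L) (σ • (0 : (W'⁄L).Point) - 0)
    rw [smul_zero', sub_zero]
    trivial
  | some x y h =>
    rw [smul_some]
    by_cases hx : 1 < A.valuation x
    · rw [sub_eq_add_neg]
      apply Kernel.inE1_add A _ hW
      · show 1 < A.valuation (σ x)
        rw [Val.valuation_map A hσ]
        exact hx
      · apply Kernel.inE1_neg A _ hW
        exact hx
    · have hx' : A.valuation x ≤ 1 := not_lt.1 hx
      have hg : A.valuation y = 1 ∨
          A.valuation (3 * x ^ 2 + 2 * (W'⁄L).a₂ * x + (W'⁄L).a₄) = 1 := by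
        rcases hR with h1 | h1
        · exact absurd h1 hx
        · exact h1
      exact Good.inE1_sub A (W'⁄L) hW h _ hx' hg (Val.valuation_sub_lt_one A hσ hx')
        (Val.valuation_sub_lt_one A hσ (Good.val_y_le_one hW h hx'))

/-- If `σ • P - P` is in the kernel of reduction and `P` is `n`-torsion with `n` a unit, then
`σ • P = P`. -/
theorem smul_eq_of_inE1 (hW : IsModel A (W'⁄L)) {σ : L ≃ₐ[ℚ] L} {n : ℕ}
    (hn : A.valuation (n : L) = 1) {P : (W'⁄L).Point} (hP : n • P = 0)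
    (h : InE1 A (W'⁄L) (σ • P - P)) : σ • P = P := by
  have h0 : n • (σ • P - P) = 0 := by
    rw [smul_sub, ← smul_nsmul', hP, smul_zero', sub_zero]
  exact sub_eq_zero.1 (Kernel.eq_zero_of_nsmul_eq_zero A _ hW hn h h0)


theorem unram_good [Algebra.IsAlgebraic ℚ L] (hW : IsGoodModel A (W'⁄L)) {σ : L ≃ₐ[ℚ] L}
    (hσ : σ ∈ A.inertiaSubgroupIn ℚ) {n : ℕ} (hn : A.valuation (n : L) = 1)
    {P : (W'⁄L).Point} (hP : n • P = 0) : σ • P = P :=
  smul_eq_of_inE1 hW.toIsModel hn hP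
    (inE1_smul_sub hW.toIsModel hσ (Good.isGood_of_goodModel A _ hW P))

theorem baseChange_a₂ : (W'⁄L).a₂ = algebraMap ℚ L W'.a₂ := rfl

theorem baseChange_a₄ : (W'⁄L).a₄ = algebraMap ℚ L W'.a₄ := rfl

/-- The node `(0, 0)`. -/
theorem nonsingular_node (hW : IsMultModel A (W'⁄L)) : (W'⁄L).Nonsingular 0 0 := by
  rw [WeierstrassCurve.Affine.nonsingular_iff, WeierstrassCurve.Affine.equation_iff]
  refine ⟨?_, Or.inl ?_⟩
  · rw [hW.a₁, hW.a₃, hW.a₆]; ring
  · rw [hW.a₁]
    have := hW.a₄_ne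
    simpa using this.symm

/-- A fixed point on a given component: a point `Q`, fixed by inertia, with `ell Q = ell P`,
provided `ell P` is the valuation of a rational number. -/
theorem exists_fixed [Algebra.IsAlgebraic ℚ L] [IsAlgClosed L] (hW : IsMultModel A (W'⁄L))
    {σ : L ≃ₐ[ℚ] L} (hσ : σ ∈ A.inertiaSubgroupIn ℚ) (c₀ : ℚ) {z : A.ValueGroup}
    (hz : z = A.valuation (algebraMap ℚ L c₀)) (hz1 : z < 1)
    (hz2 : A.valuation (W'⁄L).a₄ ≤ z) :
    ∃ Q : (W'⁄L).Point, σ • Q = Q ∧ ell A (W'⁄L) Q = z := by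
  rcases eq_or_lt_of_le hz2 with h4 | h4
  · refine ⟨Point.some 0 0 (nonsingular_node hW), ?_, ?_⟩
    · rw [smul_some]
      congr 1 <;> exact map_zero σ
    · rw [ell_some, map_zero, ← h4]
      have : min (1 : A.ValueGroup) 0 = 0 := min_eq_right zero_le_one
      rw [this]
      exact max_eq_left zero_le
  · set c : L := algebraMap ℚ L c₀ with hc
    have hc0 : c ≠ 0 := by
      intro h0
      rw [hz, h0, map_zero] at h4
      exact not_lt_zero h4
    have hc₀ : c₀ ≠ 0 := by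
      intro h0
      apply hc0
      rw [hc, h0, map_zero]
    have hvc : A.valuation c < 1 := hz ▸ hz1
    obtain ⟨s, hs⟩ := IsAlgClosed.exists_pow_nat_eq
      (algebraMap ℚ L (c₀ + W'.a₂ + W'.a₄ / c₀)) (n := 2) (by norm_num)
    have hs' : s ^ 2 = c + (W'⁄L).a₂ + (W'⁄L).a₄ / c := by
      rw [hs, baseChange_a₂, baseChange_a₄, map_add, map_add, map_div₀]
    have hvs2 : A.valuation (s ^ 2) = 1 := by
      rw [hs']
      have e : c + (W'⁄L).a₂ + (W'⁄L).a₄ / c = (W'⁄L).a₂ + (c + (W'⁄L).a₄ / c) := by ring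
      rw [e]
      apply Good.val_add_eq_one hW.a₂_unit
      refine lt_of_le_of_lt (A.valuation.map_add _ _) (max_lt hvc ?_)
      rw [map_div₀, div_lt_one₀ ((Valuation.pos_iff _).mpr hc0)]
      rw [← hz]
      exact h4
    have hvs : A.valuation s = 1 := by
      have : A.valuation s ^ 2 = A.valuation (1 : L) ^ 2 := by
        rw [← map_pow, hvs2, map_one, one_pow]
      rw [Val.valuation_eq_of_pow_eq A (by norm_num) this, map_one]
    have hs0 : s ≠ 0 := by
      intro h0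
      rw [h0, map_zero] at hvs
      exact zero_ne_one hvs
    have hσs : σ s = s := by
      apply Val.map_eq_of_sq A hσ hW.two hvs
      rw [hs]
      exact σ.commutes _
    have hσc : σ c = c := σ.commutes _
    have h2 : (2 : L) ≠ 0 := by
      intro h0
      have := hW.two
      rw [h0, map_zero] at this
      exact zero_ne_one this
    have hns : (W'⁄L).Nonsingular c (c * s) := by
      rw [WeierstrassCurve.Affine.nonsingular_iff, WeierstrassCurve.Affine.equation_iff]
      refine ⟨?_, Or.inr ?_⟩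
      · rw [hW.a₁, hW.a₃, hW.a₆]
        have : (c * s) ^ 2 = c ^ 3 + (W'⁄L).a₂ * c ^ 2 + (W'⁄L).a₄ * c := by
          rw [mul_pow, hs']
          field_simp
        linear_combination this
      · rw [hW.a₁, hW.a₃]
        intro h0
        have : 2 * (c * s) = 0 := by linear_combination h0
        exact mul_ne_zero h2 (mul_ne_zero hc0 hs0) this
    refine ⟨Point.some c (c * s) hns, ?_, ?_⟩
    · rw [smul_some]
      congr 1
      · rw [map_mul, hσc, hσs]
    · rw [ell_some, ← hz, min_eq_right hz1.le]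
      exact max_eq_right h4.le

theorem unram_mult [Algebra.IsAlgebraic ℚ L] [IsAlgClosed L] (hW : IsMultModel A (W'⁄L))
    {σ : L ≃ₐ[ℚ] L} (hσ : σ ∈ A.inertiaSubgroupIn ℚ) {n : ℕ} (hn0 : n ≠ 0)
    (hn : A.valuation (n : L) = 1) (b : ℚ)
    (hb : A.valuation (W'⁄L).a₄ = A.valuation (algebraMap ℚ L b) ^ n)
    {P : (W'⁄L).Point} (hP : n • P = 0) : σ • P = P := by
  have hM : IsModel A (W'⁄L) := hW.toIsModel
  apply smul_eq_of_inE1 hM hn hP
  by_cases hg : IsGood A (W'⁄L) P
  · exact inE1_smul_sub hM hσ hg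
  · -- the component of `P`
    obtain ⟨m, hm⟩ := Kummer.exists_zpow_of_nsmul_eq_zero hW hP
    have hell1 : ell A (W'⁄L) P ≠ 1 := fun h => hg ((Good.isGood_iff_ell_eq_one A _ hW P).2 h)
    have hell_le : ell A (W'⁄L) P ≤ 1 := by
      cases P with
      | zero => exact le_of_eq rfl
      | some x y h =>
        rw [ell_some]
        exact max_le hW.a₄_lt.le (min_le_left _ _)
    have hell_ge : A.valuation (W'⁄L).a₄ ≤ ell A (W'⁄L) P := by
      cases P with
      | zero => exact hW.a₄_lt.le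
      | some x y h =>
        rw [ell_some]
        exact le_max_left _ _
    have hz : ell A (W'⁄L) P = A.valuation (algebraMap ℚ L (b ^ (2 * m))) := by
      have h1 : ell A (W'⁄L) P ^ n = A.valuation (algebraMap ℚ L (b ^ (2 * m))) ^ n := by
        rw [hm, hb, map_zpow₀, map_zpow₀, ← zpow_natCast, ← zpow_natCast, ← zpow_mul, ← zpow_mul,
          mul_comm]
      exact (pow_left_inj hn0).mp h1
    obtain ⟨Q, hσQ, hQ⟩ := exists_fixed hW hσ (b ^ (2 * m)) hz (lt_of_le_of_ne hell_le hell1)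
      hell_ge
    rcases Kummer.isGood_add_or_sub hW hQ.symm with h | h
    · have := inE1_smul_sub hM hσ h
      rw [smul_add', hσQ] at this
      have e : σ • P + Q - (P + Q) = σ • P - P := by abel
      rwa [e] at this
    · have := inE1_smul_sub hM hσ h
      rw [smul_sub', hσQ] at this
      have e : σ • P - Q - (P - Q) = σ • P - P := by abel
      rwa [e] at this


/-- **Core theorem.** The mod `p` representation of `y² = x³ + a₂ x² + a₄ x` is unramified at
an odd prime `q ≠ p` at which the model has good reduction, or multiplicative reduction with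
`a₄` a unit times a `p`-th power. -/
theorem core_aux [Algebra.IsAlgebraic ℚ L] [IsAlgClosed L] {p q : ℕ} (hp : p.Prime)
    (hq : q.Prime) (hq2 : q ≠ 2) (hqp : q ≠ p) (W' : WeierstrassCurve ℚ) (a₂ a₄ : ℤ)
    (hW' : W' = ⟨0, (a₂ : ℚ), 0, (a₄ : ℚ), 0⟩)
    (h : (¬ (q : ℤ) ∣ a₄ ∧ ¬ (q : ℤ) ∣ a₂ ^ 2 - 4 * a₄) ∨
      (¬ (q : ℤ) ∣ a₂ ∧ ∃ u b₀ : ℤ, a₄ = u * b₀ ^ p ∧ ¬ (q : ℤ) ∣ u ∧ (q : ℤ) ∣ b₀ ∧ b₀ ≠ 0)) :
    WeierstrassCurve.Affine.Point.GaloisRepUnramifiedAt (K := L) ℚ W' p q := by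
  intro A hA σ hσ x
  have hx : p • (x : (W'⁄L).Point) = 0 := by
    have := x.2
    rw [Submodule.mem_torsionBy_iff] at this
    rw [← this]
    exact (natCast_zsmul _ _).symm
  have hpA : A.valuation (p : L) = 1 := by
    apply Val.valuation_natCast_eq_one A hq hA
    intro hdvd
    exact hqp ((Nat.prime_dvd_prime_iff_eq hq hp).1 hdvd)
  have e₂ : (W'⁄L).a₂ = (a₂ : L) := by
    rw [baseChange_a₂]; simp [hW']
  have e₄ : (W'⁄L).a₄ = (a₄ : L) := by
    rw [baseChange_a₄]; simp [hW']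
  have hM : IsModel A (W'⁄L) :=
    { a₁ := by show algebraMap ℚ L W'.a₁ = 0; simp [hW']
      a₃ := by show algebraMap ℚ L W'.a₃ = 0; simp [hW']
      a₆ := by show algebraMap ℚ L W'.a₆ = 0; simp [hW']
      a₂_le := by rw [e₂]; exact Val.valuation_intCast_le_one A a₂
      a₄_le := by rw [e₄]; exact Val.valuation_intCast_le_one A a₄
      two := Val.valuation_two_eq_one A hq hq2 hA }
  apply Subtype.ext
  show σ • (x : (W'⁄L).Point) = x
  rcases h with ⟨h4, hd⟩ | ⟨h2, u, b₀, hab, hu, hb, hb0⟩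
  · have hG : IsGoodModel A (W'⁄L) :=
      { hM with
        a₄_unit := by rw [e₄]; exact Val.valuation_intCast_eq_one A hq hA h4
        disc_unit := by
          rw [e₂, e₄]
          have := Val.valuation_intCast_eq_one (L := L) A hq hA hd
          push_cast at this
          exact this }
    exact unram_good hG hσ hpA hx
  · have hMu : IsMultModel A (W'⁄L) :=
      { hM with
        a₂_unit := by rw [e₂]; exact Val.valuation_intCast_eq_one A hq hA h2
        a₄_lt := by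
          rw [e₄]
          apply Val.valuation_intCast_lt_one_of_dvd A hA
          rw [hab]
          exact Dvd.dvd.mul_left (dvd_pow hb hp.ne_zero) u
        a₄_ne := by
          rw [e₄]
          have hu0 : u ≠ 0 := by
            rintro rfl
            exact hu (dvd_zero _)
          have h40 : a₄ ≠ 0 := by
            rw [hab]
            exact mul_ne_zero hu0 (pow_ne_zero _ hb0)
          have hc : CharZero L := algebraRat.charZero L
          exact Int.cast_ne_zero.2 h40 }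
    refine unram_mult hMu hσ hp.ne_zero hpA (b₀ : ℚ) ?_ hx
    rw [e₄, hab]
    push_cast
    rw [map_mul, map_pow, Val.valuation_intCast_eq_one A hq hA hu, one_mul]
    simp

theorem core [Algebra.IsAlgebraic ℚ L] [IsAlgClosed L] {p q : ℕ} (hp : p.Prime) (hq : q.Prime)
    (hq2 : q ≠ 2) (hqp : q ≠ p) (a₂ a₄ : ℤ)
    (h : (¬ (q : ℤ) ∣ a₄ ∧ ¬ (q : ℤ) ∣ a₂ ^ 2 - 4 * a₄) ∨
      (¬ (q : ℤ) ∣ a₂ ∧ ∃ u b₀ : ℤ, a₄ = u * b₀ ^ p ∧ ¬ (q : ℤ) ∣ u ∧ (q : ℤ) ∣ b₀ ∧ b₀ ≠ 0)) :
    WeierstrassCurve.Affine.Point.GaloisRepUnramifiedAt (K := L) ℚ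
      (⟨0, (a₂ : ℚ), 0, (a₄ : ℚ), 0⟩ : WeierstrassCurve ℚ) p q :=
  core_aux hp hq hq2 hqp _ a₂ a₄ rfl h

end Fermat.Agent.S05.Core
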