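import Mathlib
import Fermat.Prelude.Def_FLTPrelim_FreyPackage
import Fermat.Prelude.Def_FLTPrelim_GaloisRep
import Fermat.Prelude.Def_FLTPrelim_Ramification
import Fermat.Agent.S05.Defs
import Fermat.Agent.S51.PointMap

set_option autoImplicit false

namespace Fermat.Agent.S05.Frey

open WeierstrassCurve WeierstrassCurve.Affine WeierstrassCurve.Affine.Point
open Fermat.Agent.S51

/-!
# S05: the Frey curve and its models `Y² = X³ + a₂ X² + a₄ X`

* `transport W C` : Galois-equivariant isomorphism between the points of `C • W` and of `W` over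
  an extension field, for a rational change of variables `C`;
* `modelAB P` : `Y² = X (X - a^p) (X + b^p)`, `modelC P` : `Y² = X (X + a^p) (X + c^p)`;
* valuations of integers at a valuation subring over a prime `q`;
* `exists_model` : at an odd prime `q` one of the two models is a good model or a multiplicative
  model (in the sense of `S05.Defs`) with `v(a₄) = v(q) ^ (p * k)`, `k > 0`.
-/

/-! ### Transport of points along an equality of curves -/

section Congr

variable {K : Type*} [Field K] [DecidableEq K]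

/-- transport of points along an equality of Weierstrass curves -/
noncomputable def pointCongr {W₁ W₂ : WeierstrassCurve K} (h : W₁ = W₂) :
    W₁.toAffine.Point ≃+ W₂.toAffine.Point :=
  h ▸ AddEquiv.refl _

theorem pointCongr_zero {W₁ W₂ : WeierstrassCurve K} (h : W₁ = W₂) :
    pointCongr h (0 : W₁.toAffine.Point) = 0 := by
  subst h
  rfl

theorem pointCongr_some {W₁ W₂ : WeierstrassCurve K} (h : W₁ = W₂) {x y : K}
    (hxy : W₁.toAffine.Nonsingular x y) :
    pointCongr h (Point.some x y hxy) = Point.some x y (h ▸ hxy) := by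
  subst h
  rfl

end Congr

/-! ### Galois-equivariant transport along a rational change of variables -/

section Transport

variable {F K : Type*} [Field F] [Field K] [DecidableEq K] [Algebra F K]
  (W : WeierstrassCurve F) (C : WeierstrassCurve.VariableChange F)

omit [DecidableEq K] in
theorem baseChange_variableChange :
    ((C • W).baseChange K : WeierstrassCurve K) = (C.baseChange K) • (W.baseChange K) :=
  (WeierstrassCurve.map_variableChange W C (algebraMap F K)).symm

/-- the isomorphism between the points of the transformed curve and the points of the curve,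
over an extension field -/
noncomputable def transport :
    (Affine.baseChange (C • W) K).Point ≃+ (Affine.baseChange W K).Point :=
  (pointCongr (baseChange_variableChange W C)).trans
    (PointMap.pointEquiv (W.baseChange K) (C.baseChange K))

theorem transport_zero : transport (K := K) W C 0 = 0 := by
  simp [transport, pointCongr_zero]

theorem transport_some {x y : K} (h : ((C • W).baseChange K).toAffine.Nonsingular x y) :
    transport (K := K) W C (Point.some x y h) =
      Point.some (PointMap.vcX (C.baseChange K) x) (PointMap.vcY (C.baseChange K) x y)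
        ((PointMap.nonsingular_vc (W.baseChange K) (C.baseChange K) x y).mp
          (baseChange_variableChange (K := K) W C ▸ h)) := by
  unfold transport
  rw [AddEquiv.trans_apply, pointCongr_some, PointMap.pointEquiv_some]

omit [DecidableEq K] in
theorem vcX_map (σ : K ≃ₐ[F] K) (x : K) :
    PointMap.vcX (C.baseChange K) (σ x) = σ (PointMap.vcX (C.baseChange K) x) := by
  unfold PointMap.vcX
  simp only [map_add, map_mul, map_pow]
  congr 1
  · congr 2
    exact (σ.commutes _).symm
  · exact (σ.commutes _).symm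

omit [DecidableEq K] in
theorem vcY_map (σ : K ≃ₐ[F] K) (x y : K) :
    PointMap.vcY (C.baseChange K) (σ x) (σ y) = σ (PointMap.vcY (C.baseChange K) x y) := by
  unfold PointMap.vcY
  simp only [map_add, map_mul, map_pow]
  have hu : σ ((C.baseChange K).u : K) = ((C.baseChange K).u : K) := σ.commutes _
  have hs : σ ((C.baseChange K).s) = (C.baseChange K).s := σ.commutes _
  have ht : σ ((C.baseChange K).t) = (C.baseChange K).t := σ.commutes _
  rw [hu, hs, ht]

theorem smul_some' (W' : WeierstrassCurve F) (σ : K ≃ₐ[F] K) {x y : K}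
    (h : (W'.baseChange K).toAffine.Nonsingular x y) :
    ∃ h' : (W'.baseChange K).toAffine.Nonsingular (σ x) (σ y),
      σ • (Point.some x y h : (Affine.baseChange W' K).Point) = Point.some (σ x) (σ y) h' :=
  ⟨_, rfl⟩

theorem transport_smul (σ : K ≃ₐ[F] K) (P : (Affine.baseChange (C • W) K).Point) :
    transport (K := K) W C (σ • P) = σ • transport (K := K) W C P := by
  cases P with
  | zero =>
      show transport (K := K) W C (σ • 0) = σ • transport (K := K) W C 0
      rw [smul_zero, _root_.map_zero, smul_zero]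
  | some x y h =>
      obtain ⟨h₁, e₁⟩ := smul_some' (C • W) σ h
      rw [e₁, transport_some, transport_some]
      obtain ⟨h₂, e₂⟩ := smul_some' W σ
        ((PointMap.nonsingular_vc (W.baseChange K) (C.baseChange K) x y).mp
          (baseChange_variableChange (K := K) W C ▸ h))
      rw [e₂]
      congr 1
      · exact vcX_map C σ x
      · exact vcY_map C σ x y

end Transport

/-- transport along a change of variables with a prescribed name for the target -/
noncomputable def transport' {F K : Type*} [Field F] [Field K] [DecidableEq K] [Algebra F K]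
    {W M : WeierstrassCurve F} {C : WeierstrassCurve.VariableChange F} (h : C • W = M) :
    (Affine.baseChange M K).Point ≃+ (Affine.baseChange W K).Point :=
  (pointCongr (congrArg (fun X : WeierstrassCurve F => X.baseChange K) h.symm)).trans
    (transport (K := K) W C)

theorem transport'_smul {F K : Type*} [Field F] [Field K] [DecidableEq K] [Algebra F K]
    {W M : WeierstrassCurve F} {C : WeierstrassCurve.VariableChange F} (h : C • W = M)
    (σ : K ≃ₐ[F] K) (Q : (Affine.baseChange M K).Point) :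
    transport' (K := K) h (σ • Q) = σ • transport' (K := K) h Q := by
  subst h
  exact transport_smul W C σ Q

/-! ### Valuations of integers -/

section Val

variable {K : Type*} [Field K] (A : ValuationSubring K) {q : ℕ}

theorem val_intCast_le (n : ℤ) : A.valuation (n : K) ≤ 1 :=
  (A.valuation_le_one_iff _).mpr (intCast_mem A n)

theorem val_natCast_lt (hA : A.LiesOverPrime q) : A.valuation (q : K) < 1 :=
  A.mem_nonunits_iff.mp hA

theorem val_intCast_lt (hA : A.LiesOverPrime q) {n : ℤ} (h : (q : ℤ) ∣ n) :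
    A.valuation (n : K) < 1 := by
  obtain ⟨m, rfl⟩ := h
  push_cast
  rw [map_mul]
  calc A.valuation (q : K) * A.valuation (m : K)
      ≤ A.valuation (q : K) * 1 := by
        gcongr
        exact val_intCast_le A m
    _ = A.valuation (q : K) := mul_one _
    _ < 1 := val_natCast_lt A hA

theorem val_intCast_eq_one (hq : q.Prime) (hA : A.LiesOverPrime q) {n : ℤ}
    (h : ¬ (q : ℤ) ∣ n) : A.valuation (n : K) = 1 := by
  apply le_antisymm (val_intCast_le A n)
  by_contra hlt
  rw [not_le] at hlt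
  have hcop : IsCoprime (q : ℤ) n := by
    rw [Int.isCoprime_iff_gcd_eq_one]
    have hp : Prime (q : ℤ) := Nat.prime_iff_prime_int.mp hq
    exact Int.isCoprime_iff_gcd_eq_one.mp ((Prime.coprime_iff_not_dvd hp).mpr h)
  obtain ⟨x, y, hxy⟩ := hcop
  have h1 : A.valuation ((x * q + y * n : ℤ) : K) < 1 := by
    push_cast
    refine lt_of_le_of_lt (A.valuation.map_add _ _) (max_lt ?_ ?_)
    · rw [map_mul]
      calc A.valuation (x : K) * A.valuation (q : K)
          ≤ 1 * A.valuation (q : K) := by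
            gcongr
            exact val_intCast_le A x
        _ = A.valuation (q : K) := one_mul _
        _ < 1 := val_natCast_lt A hA
    · rw [map_mul]
      calc A.valuation (y : K) * A.valuation (n : K)
          ≤ 1 * A.valuation (n : K) := by
            gcongr
            exact val_intCast_le A y
        _ = A.valuation (n : K) := one_mul _
        _ < 1 := hlt
  rw [hxy] at h1
  simp at h1

theorem val_two (hq : q.Prime) (hq2 : q ≠ 2) (hA : A.LiesOverPrime q) :
    A.valuation (2 : K) = 1 := by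
  have h : ¬ (q : ℤ) ∣ (2 : ℤ) := by
    intro h
    have h' : q ∣ 2 := by exact_mod_cast h
    rcases (Nat.dvd_prime Nat.prime_two).mp h' with h1 | h1
    · exact hq.one_lt.ne' h1
    · exact hq2 h1
  have := val_intCast_eq_one A hq hA h
  simpa using this

/-- the valuation of an integer is a power of the valuation of `q` -/
theorem val_intCast_eq_pow (hq : q.Prime) (hA : A.LiesOverPrime q) {n : ℤ} (hn : n ≠ 0) :
    ∃ k : ℕ, A.valuation (n : K) = A.valuation (q : K) ^ k ∧ (0 < k ↔ (q : ℤ) ∣ n) := by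
  have hfin : FiniteMultiplicity (q : ℤ) n := by
    rw [Int.finiteMultiplicity_iff]
    refine ⟨?_, hn⟩
    simpa using hq.one_lt.ne'
  obtain ⟨c, hc, hcd⟩ := hfin.exists_eq_pow_mul_and_not_dvd
  refine ⟨multiplicity (q : ℤ) n, ?_, ?_⟩
  · conv_lhs => rw [hc]
    push_cast
    rw [map_mul, map_pow, val_intCast_eq_one A hq hA hcd, mul_one]
  · rw [Nat.pos_iff_ne_zero, multiplicity_ne_zero]

end Val

/-! ### The models of the Frey curve -/

section Models

variable (P : FreyPackage)

/-- the model `Y² = X (X - a^p) (X + b^p) = X³ + (b^p - a^p) X² - a^p b^p X` -/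
def modelAB : WeierstrassCurve ℚ :=
  ⟨0, ((P.b ^ P.p - P.a ^ P.p : ℤ) : ℚ), 0, ((-(P.a ^ P.p * P.b ^ P.p) : ℤ) : ℚ), 0⟩

/-- the change of variables from the Frey curve to `modelAB` -/
def changeAB : WeierstrassCurve.VariableChange ℚ :=
  ⟨Units.mk0 (1 / 2) (by norm_num), 0, -1 / 2, 0⟩

theorem changeAB_smul : changeAB • P.freyCurve = modelAB P := by
  ext
  all_goals
    simp only [variableChange_def, changeAB, modelAB, FreyPackage.freyCurve, Units.val_mk0,
      Units.val_inv_eq_inv_val]
    push_cast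
    ring

/-- the model `Y² = X (X + a^p) (X + c^p) = X³ + (a^p + c^p) X² + a^p c^p X`, obtained from
`modelAB` by the translation `X ↦ X + a^p` -/
def modelC : WeierstrassCurve ℚ :=
  ⟨0, ((P.a ^ P.p + P.c ^ P.p : ℤ) : ℚ), 0, ((P.a ^ P.p * P.c ^ P.p : ℤ) : ℚ), 0⟩

/-- the change of variables from the Frey curve to `modelC` -/
def changeC : WeierstrassCurve.VariableChange ℚ :=
  ⟨Units.mk0 (1 / 2) (by norm_num), (P.a : ℚ) ^ P.p / 4, -1 / 2, -((P.a : ℚ) ^ P.p) / 8⟩

theorem changeC_smul : changeC P • P.freyCurve = modelC P := by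
  have hc : (P.c : ℚ) ^ P.p = (P.a : ℚ) ^ P.p + (P.b : ℚ) ^ P.p := by
    have := P.hFLT
    exact_mod_cast this.symm
  ext
  all_goals
    simp only [variableChange_def, changeC, modelC, FreyPackage.freyCurve, Units.val_mk0,
      Units.val_inv_eq_inv_val]
    push_cast
    try rw [hc]
    ring

end Models

/-! ### Divisibility in a Frey package -/

section Dvd

variable (P : FreyPackage) {q : ℕ}

theorem not_dvd_of_gcd_eq_one (hq : q.Prime) {x y : ℤ} (h : gcd x y = 1) (hx : (q : ℤ) ∣ x) :
    ¬ (q : ℤ) ∣ y := by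
  intro hy
  have h1 : (q : ℤ) ∣ gcd x y := dvd_gcd hx hy
  rw [h] at h1
  exact (Nat.prime_iff_prime_int.mp hq).not_dvd_one h1

theorem not_dvd_b_of_dvd_a (hq : q.Prime) (h : (q : ℤ) ∣ P.a) : ¬ (q : ℤ) ∣ P.b :=
  not_dvd_of_gcd_eq_one hq P.hgcdab h

theorem not_dvd_a_of_dvd_b (hq : q.Prime) (h : (q : ℤ) ∣ P.b) : ¬ (q : ℤ) ∣ P.a :=
  not_dvd_of_gcd_eq_one hq (by rw [gcd_comm]; exact P.hgcdab) h

theorem not_dvd_a_of_dvd_c (hq : q.Prime) (h : (q : ℤ) ∣ P.c) : ¬ (q : ℤ) ∣ P.a :=
  not_dvd_of_gcd_eq_one hq (by rw [gcd_comm]; exact P.hgcdac) h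

theorem not_dvd_pow (hq : q.Prime) {x : ℤ} (h : ¬ (q : ℤ) ∣ x) (n : ℕ) : ¬ (q : ℤ) ∣ x ^ n :=
  fun h' => h ((Nat.prime_iff_prime_int.mp hq).dvd_of_dvd_pow h')

theorem not_dvd_mul (hq : q.Prime) {x y : ℤ} (hx : ¬ (q : ℤ) ∣ x) (hy : ¬ (q : ℤ) ∣ y) :
    ¬ (q : ℤ) ∣ x * y := by
  intro h
  rcases (Nat.prime_iff_prime_int.mp hq).dvd_or_dvd h with h1 | h1
  · exact hx h1
  · exact hy h1

end Dvd

/-! ### The models are good or multiplicative -/

section ModelProps

variable {K : Type*} [Field K] [Algebra ℚ K] (A : ValuationSubring K) {q : ℕ}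
  (P : FreyPackage)

theorem algebraMap_intCast' (n : ℤ) : algebraMap ℚ K ((n : ℤ) : ℚ) = (n : K) :=
  map_intCast _ n

theorem modelAB_a₂ : ((modelAB P).baseChange K).a₂ = ((P.b ^ P.p - P.a ^ P.p : ℤ) : K) :=
  algebraMap_intCast' _

theorem modelAB_a₄ : ((modelAB P).baseChange K).a₄ = ((-(P.a ^ P.p * P.b ^ P.p) : ℤ) : K) :=
  algebraMap_intCast' _

theorem modelC_a₂ : ((modelC P).baseChange K).a₂ = ((P.a ^ P.p + P.c ^ P.p : ℤ) : K) :=
  algebraMap_intCast' _

theorem modelC_a₄ : ((modelC P).baseChange K).a₄ = ((P.a ^ P.p * P.c ^ P.p : ℤ) : K) :=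
  algebraMap_intCast' _

theorem isModel_AB (hq : q.Prime) (hq2 : q ≠ 2) (hA : A.LiesOverPrime q) :
    IsModel A ((modelAB P).baseChange K) where
  a₁ := map_zero _
  a₃ := map_zero _
  a₆ := map_zero _
  a₂_le := by rw [modelAB_a₂]; exact val_intCast_le A _
  a₄_le := by rw [modelAB_a₄]; exact val_intCast_le A _
  two := val_two A hq hq2 hA

theorem isModel_C (hq : q.Prime) (hq2 : q ≠ 2) (hA : A.LiesOverPrime q) :
    IsModel A ((modelC P).baseChange K) where
  a₁ := map_zero _
  a₃ := map_zero _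
  a₆ := map_zero _
  a₂_le := by rw [modelC_a₂]; exact val_intCast_le A _
  a₄_le := by rw [modelC_a₄]; exact val_intCast_le A _
  two := val_two A hq hq2 hA

/-- good reduction at the primes not dividing `a b c` -/
theorem isGoodModel_AB (hq : q.Prime) (hq2 : q ≠ 2) (hA : A.LiesOverPrime q)
    (ha : ¬ (q : ℤ) ∣ P.a) (hb : ¬ (q : ℤ) ∣ P.b) (hc : ¬ (q : ℤ) ∣ P.c) :
    IsGoodModel A ((modelAB P).baseChange K) where
  toIsModel := isModel_AB A P hq hq2 hA
  a₄_unit := by
    rw [modelAB_a₄]
    apply val_intCast_eq_one A hq hA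
    rw [Int.dvd_neg]
    exact not_dvd_mul hq (not_dvd_pow hq ha _) (not_dvd_pow hq hb _)
  disc_unit := by
    rw [modelAB_a₂, modelAB_a₄]
    have e : (((P.b ^ P.p - P.a ^ P.p : ℤ) : K)) ^ 2 - 4 * ((-(P.a ^ P.p * P.b ^ P.p) : ℤ) : K)
        = (((P.c ^ P.p) ^ 2 : ℤ) : K) := by
      rw [← P.hFLT]
      push_cast
      ring
    rw [e]
    exact val_intCast_eq_one A hq hA (not_dvd_pow hq (not_dvd_pow hq hc _) _)

/-- multiplicative reduction with node at `X = 0` at the primes dividing `a b` -/
theorem isMultModel_AB (hq : q.Prime) (hq2 : q ≠ 2) (hA : A.LiesOverPrime q)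
    (hab : (q : ℤ) ∣ P.a * P.b) :
    IsMultModel A ((modelAB P).baseChange K) where
  toIsModel := isModel_AB A P hq hq2 hA
  a₂_unit := by
    rw [modelAB_a₂]
    apply val_intCast_eq_one A hq hA
    have hp0 : P.p ≠ 0 := P.hp0
    rcases (Nat.prime_iff_prime_int.mp hq).dvd_or_dvd hab with h | h
    · have hb := not_dvd_pow hq (not_dvd_b_of_dvd_a P hq h) P.p
      intro hd
      apply hb
      have : (q : ℤ) ∣ P.a ^ P.p := dvd_pow h hp0
      have := dvd_add hd this
      simpa using this
    · have ha := not_dvd_pow hq (not_dvd_a_of_dvd_b P hq h) P.p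
      intro hd
      apply ha
      have h1 : (q : ℤ) ∣ P.b ^ P.p := dvd_pow h hp0
      have := dvd_sub h1 hd
      simpa using this
  a₄_lt := by
    rw [modelAB_a₄]
    apply val_intCast_lt A hA
    rw [Int.dvd_neg, ← mul_pow]
    exact dvd_pow hab P.hp0
  a₄_ne := by
    rw [modelAB_a₄]
    have : CharZero K := algebraRat.charZero K
    rw [Int.cast_ne_zero, neg_ne_zero]
    exact mul_ne_zero (pow_ne_zero _ P.ha0) (pow_ne_zero _ P.hb0)

/-- multiplicative reduction with node at `X = 0` (after translation) at the primes dividing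
`c` -/
theorem isMultModel_C (hq : q.Prime) (hq2 : q ≠ 2) (hA : A.LiesOverPrime q)
    (hc : (q : ℤ) ∣ P.c) :
    IsMultModel A ((modelC P).baseChange K) where
  toIsModel := isModel_C A P hq hq2 hA
  a₂_unit := by
    rw [modelC_a₂]
    apply val_intCast_eq_one A hq hA
    have ha := not_dvd_pow hq (not_dvd_a_of_dvd_c P hq hc) P.p
    intro hd
    apply ha
    have h1 : (q : ℤ) ∣ P.c ^ P.p := dvd_pow hc P.hp0
    have := dvd_sub hd h1
    simpa using this
  a₄_lt := by
    rw [modelC_a₄]
    apply val_intCast_lt A hA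
    exact dvd_mul_of_dvd_right (dvd_pow hc P.hp0) _
  a₄_ne := by
    rw [modelC_a₄]
    have : CharZero K := algebraRat.charZero K
    rw [Int.cast_ne_zero]
    exact mul_ne_zero (pow_ne_zero _ P.ha0) (pow_ne_zero _ P.hc0)

omit [Algebra ℚ K] in
/-- the valuation of `x ^ p` for an integer `x` divisible by `q` -/
theorem val_pow_eq (hq : q.Prime) (hA : A.LiesOverPrime q) {x : ℤ} (hx0 : x ≠ 0)
    (hx : (q : ℤ) ∣ x) :
    ∃ k : ℕ, 0 < k ∧ A.valuation ((x ^ P.p : ℤ) : K) = A.valuation (q : K) ^ (P.p * k) := by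
  obtain ⟨k, hk, hk'⟩ := val_intCast_eq_pow A hq hA hx0
  refine ⟨k, hk'.mpr hx, ?_⟩
  push_cast
  rw [map_pow, hk, ← pow_mul, mul_comm]

theorem val_a₄_AB (hq : q.Prime) (hA : A.LiesOverPrime q) (hab : (q : ℤ) ∣ P.a * P.b) :
    ∃ k : ℕ, 0 < k ∧
      A.valuation ((modelAB P).baseChange K).a₄ = A.valuation (q : K) ^ (P.p * k) := by
  rw [modelAB_a₄]
  rcases (Nat.prime_iff_prime_int.mp hq).dvd_or_dvd hab with h | h
  · obtain ⟨k, hk, e⟩ := val_pow_eq A P hq hA P.ha0 h
    refine ⟨k, hk, ?_⟩
    have hb := val_intCast_eq_one A hq hA (not_dvd_pow hq (not_dvd_b_of_dvd_a P hq h) P.p)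
    rw [Int.cast_neg, Valuation.map_neg, Int.cast_mul, map_mul, e, hb, mul_one]
  · obtain ⟨k, hk, e⟩ := val_pow_eq A P hq hA P.hb0 h
    refine ⟨k, hk, ?_⟩
    have ha := val_intCast_eq_one A hq hA (not_dvd_pow hq (not_dvd_a_of_dvd_b P hq h) P.p)
    rw [Int.cast_neg, Valuation.map_neg, Int.cast_mul, map_mul, e, ha, one_mul]

theorem val_a₄_C (hq : q.Prime) (hA : A.LiesOverPrime q) (hc : (q : ℤ) ∣ P.c) :
    ∃ k : ℕ, 0 < k ∧
      A.valuation ((modelC P).baseChange K).a₄ = A.valuation (q : K) ^ (P.p * k) := by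
  rw [modelC_a₄]
  obtain ⟨k, hk, e⟩ := val_pow_eq A P hq hA P.hc0 hc
  refine ⟨k, hk, ?_⟩
  have ha := val_intCast_eq_one A hq hA (not_dvd_pow hq (not_dvd_a_of_dvd_c P hq hc) P.p)
  rw [Int.cast_mul, map_mul, e, ha, one_mul]

/-- the condition on a model at a valuation subring over `q` under which the leaves of S05
apply: good reduction, or multiplicative reduction with node at `X = 0` and `v(a₄)` a
`p`-th power of a positive power of `v(q)` -/
def IsAdapted (p q : ℕ) (W : WeierstrassCurve K) : Prop :=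
  IsGoodModel A W ∨
    (IsMultModel A W ∧ ∃ k : ℕ, 0 < k ∧ A.valuation W.a₄ = A.valuation (q : K) ^ (p * k))

/-- **The models of the Frey curve**: at every odd prime `q` (and every valuation subring of
an extension field of `ℚ` over `q`) the Frey curve is isomorphic over `ℚ` to a curve
`Y² = X³ + a₂ X² + a₄ X` with integral coefficients which is adapted at `q`. -/
theorem exists_model [DecidableEq K] (hq : q.Prime) (hq2 : q ≠ 2) (hA : A.LiesOverPrime q) :
    ∃ (M : WeierstrassCurve ℚ)
      (e : (Affine.baseChange M K).Point ≃+ (Affine.baseChange P.freyCurve K).Point),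
      (∀ (σ : K ≃ₐ[ℚ] K) (Q : (Affine.baseChange M K).Point), e (σ • Q) = σ • e Q) ∧
      IsAdapted A P.p q (M.baseChange K) := by
  by_cases hc : (q : ℤ) ∣ P.c
  · exact ⟨modelC P, transport' (K := K) (changeC_smul P),
      transport'_smul (changeC_smul P),
      Or.inr ⟨isMultModel_C A P hq hq2 hA hc, val_a₄_C A P hq hA hc⟩⟩
  · by_cases hab : (q : ℤ) ∣ P.a * P.b
    · exact ⟨modelAB P, transport' (K := K) (changeAB_smul P),
        transport'_smul (changeAB_smul P),
        Or.inr ⟨isMultModel_AB A P hq hq2 hA hab, val_a₄_AB A P hq hA hab⟩⟩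
    · have ha : ¬ (q : ℤ) ∣ P.a := fun h => hab (dvd_mul_of_dvd_left h _)
      have hb : ¬ (q : ℤ) ∣ P.b := fun h => hab (dvd_mul_of_dvd_right h _)
      exact ⟨modelAB P, transport' (K := K) (changeAB_smul P),
        transport'_smul (changeAB_smul P),
        Or.inl (isGoodModel_AB A P hq hq2 hA ha hb hc)⟩

end ModelProps

/-! ### Reduction of S05 to the models -/

section Reduction

open ValuationSubring

/-- **Reduction to adapted models**, for an arbitrary extension field `K` of `ℚ`: if inertia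
acts trivially on the `p`-torsion of every adapted model `Y² = X³ + a₂ X² + a₄ X` over `ℚ`,
then the mod `p` representation of the Frey curve is unramified at `q`. -/
theorem unramifiedAt_of_models {K : Type*} [Field K] [DecidableEq K] [Algebra ℚ K]
    (P : FreyPackage) {q : ℕ} (hq : q.Prime) (hq2 : q ≠ 2)
    (H : ∀ (A : ValuationSubring K), A.LiesOverPrime q →
      ∀ M : WeierstrassCurve ℚ, IsAdapted A P.p q (M.baseChange K) →
      ∀ σ ∈ A.inertiaSubgroupIn ℚ,
      ∀ Q : (Affine.baseChange M K).Point, P.p • Q = 0 → σ • Q = Q) :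
    WeierstrassCurve.Affine.Point.GaloisRepUnramifiedAt (K := K) ℚ P.freyCurve P.p q := by
  intro A hA σ hσ x
  obtain ⟨M, e, he, hM⟩ := exists_model A P hq hq2 hA
  obtain ⟨x₀, hx⟩ := x
  apply Subtype.ext
  show σ • x₀ = x₀
  obtain ⟨Q, hQ⟩ := e.surjective x₀
  rw [Submodule.mem_torsionBy_iff] at hx
  have hQ0 : P.p • Q = 0 := by
    apply e.injective
    rw [map_nsmul, hQ, _root_.map_zero, ← natCast_zsmul]
    exact hx
  rw [← hQ, ← he, H A hA M hM σ hσ Q hQ0]

/-- **Reduction of S05 to adapted models**, in the shape of the frozen statement (the algebra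
structure of `AlgebraicClosure ℚ` over `ℚ` is the one of the frozen statement). -/
theorem galoisRepUnramifiedAt_of_models (P : FreyPackage) {q : ℕ} (hq : q.Prime) (hq2 : q ≠ 2)
    (H : letI : Algebra ℚ (AlgebraicClosure ℚ) := AlgebraicClosure.instAlgebra ℚ
      ∀ (A : ValuationSubring (AlgebraicClosure ℚ)), A.LiesOverPrime q →
      ∀ M : WeierstrassCurve ℚ, IsAdapted A P.p q (M.baseChange (AlgebraicClosure ℚ)) →
      ∀ σ ∈ A.inertiaSubgroupIn ℚ,
      ∀ Q : (Affine.baseChange M (AlgebraicClosure ℚ)).Point, P.p • Q = 0 → σ • Q = Q) :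
    P.GaloisRepUnramifiedAt q :=
  letI : Algebra ℚ (AlgebraicClosure ℚ) := AlgebraicClosure.instAlgebra ℚ
  unramifiedAt_of_models P hq hq2 H

/-- **Transfer along a rational change of variables**: the mod `n` representation of `W₁` is
unramified at `q` as soon as that of `C • W₁` is. -/
theorem transfer {F K : Type*} [Field F] [Field K] [DecidableEq K] [Algebra F K]
    (W₁ : WeierstrassCurve F) (C : WeierstrassCurve.VariableChange F) (n q : ℕ)
    (h : WeierstrassCurve.Affine.Point.GaloisRepUnramifiedAt (K := K) F (C • W₁) n q) :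
    WeierstrassCurve.Affine.Point.GaloisRepUnramifiedAt (K := K) F W₁ n q := by
  intro A hA σ hσ x
  obtain ⟨x₀, hx⟩ := x
  apply Subtype.ext
  show σ • x₀ = x₀
  obtain ⟨Q, hQ⟩ := (transport (K := K) W₁ C).surjective x₀
  rw [Submodule.mem_torsionBy_iff] at hx
  have hQ0 : Q ∈ Submodule.torsionBy ℤ (Affine.baseChange (C • W₁) K).Point n := by
    rw [Submodule.mem_torsionBy_iff]
    apply (transport (K := K) W₁ C).injective
    rw [map_zsmul, hQ, _root_.map_zero]
    exact hx
  have h1 := h A hA σ hσ ⟨Q, hQ0⟩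
  have h2 : σ • Q = Q := congrArg Subtype.val h1
  rw [← hQ, ← transport_smul, h2]

/-- **Transfer** in the shape of the frozen statement S05. -/
theorem transfer_frey (P : FreyPackage) (C : WeierstrassCurve.VariableChange ℚ) (q : ℕ)
    (h : letI : Algebra ℚ (AlgebraicClosure ℚ) := AlgebraicClosure.instAlgebra ℚ
      WeierstrassCurve.Affine.Point.GaloisRepUnramifiedAt (K := AlgebraicClosure ℚ) ℚ
        (C • P.freyCurve) P.p q) :
    P.GaloisRepUnramifiedAt q :=
  letI : Algebra ℚ (AlgebraicClosure ℚ) := AlgebraicClosure.instAlgebra ℚ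
  transfer P.freyCurve C P.p q h

end Reduction

/-! ### The arithmetic form of the models -/

section Arithmetic

/-- **The models of the Frey curve, arithmetic form**: at every odd prime `q` the Frey curve
is isomorphic over `ℚ` to a curve `Y² = X³ + a₂ X² + a₄ X` with `a₂, a₄ ∈ ℤ` which has either
good reduction at `q` (`q ∤ a₄ (a₂² - 4 a₄)`) or multiplicative reduction with node at `X = 0`
(`q ∤ a₂`) and `a₄ = u b₀ ^ p` with `q ∤ u`, `q ∣ b₀ ≠ 0`. -/
theorem exists_model_int (P : FreyPackage) {q : ℕ} (hq : q.Prime) :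
    ∃ (C : WeierstrassCurve.VariableChange ℚ) (a₂ a₄ : ℤ),
      C • P.freyCurve = ⟨0, (a₂ : ℚ), 0, (a₄ : ℚ), 0⟩ ∧
      ((¬ (q : ℤ) ∣ a₄ ∧ ¬ (q : ℤ) ∣ a₂ ^ 2 - 4 * a₄) ∨
        (¬ (q : ℤ) ∣ a₂ ∧ ∃ u b₀ : ℤ, a₄ = u * b₀ ^ P.p ∧ ¬ (q : ℤ) ∣ u ∧ (q : ℤ) ∣ b₀ ∧
          b₀ ≠ 0)) := by
  have hp0 : P.p ≠ 0 := P.hp0
  by_cases hc : (q : ℤ) ∣ P.c
  · refine ⟨changeC P, P.a ^ P.p + P.c ^ P.p, P.a ^ P.p * P.c ^ P.p, changeC_smul P,
      Or.inr ⟨?_, P.a ^ P.p, P.c, rfl, ?_, hc, P.hc0⟩⟩
    · have ha := not_dvd_pow hq (not_dvd_a_of_dvd_c P hq hc) P.p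
      intro hd
      apply ha
      have h1 : (q : ℤ) ∣ P.c ^ P.p := dvd_pow hc hp0
      have := dvd_sub hd h1
      simpa using this
    · exact not_dvd_pow hq (not_dvd_a_of_dvd_c P hq hc) P.p
  · by_cases ha : (q : ℤ) ∣ P.a
    · refine ⟨changeAB, P.b ^ P.p - P.a ^ P.p, -(P.a ^ P.p * P.b ^ P.p), changeAB_smul P,
        Or.inr ⟨?_, -(P.b ^ P.p), P.a, by ring, ?_, ha, P.ha0⟩⟩
      · have hb := not_dvd_pow hq (not_dvd_b_of_dvd_a P hq ha) P.p
        intro hd
        apply hb
        have h1 : (q : ℤ) ∣ P.a ^ P.p := dvd_pow ha hp0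
        have := dvd_add hd h1
        simpa using this
      · rw [Int.dvd_neg]
        exact not_dvd_pow hq (not_dvd_b_of_dvd_a P hq ha) P.p
    · by_cases hb : (q : ℤ) ∣ P.b
      · refine ⟨changeAB, P.b ^ P.p - P.a ^ P.p, -(P.a ^ P.p * P.b ^ P.p), changeAB_smul P,
          Or.inr ⟨?_, -(P.a ^ P.p), P.b, by ring, ?_, hb, P.hb0⟩⟩
        · have ha' := not_dvd_pow hq ha P.p
          intro hd
          apply ha'
          have h1 : (q : ℤ) ∣ P.b ^ P.p := dvd_pow hb hp0
          have := dvd_sub h1 hd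
          simpa using this
        · rw [Int.dvd_neg]
          exact not_dvd_pow hq ha P.p
      · refine ⟨changeAB, P.b ^ P.p - P.a ^ P.p, -(P.a ^ P.p * P.b ^ P.p), changeAB_smul P,
          Or.inl ⟨?_, ?_⟩⟩
        · rw [Int.dvd_neg]
          exact not_dvd_mul hq (not_dvd_pow hq ha _) (not_dvd_pow hq hb _)
        · have e : (P.b ^ P.p - P.a ^ P.p) ^ 2 - 4 * -(P.a ^ P.p * P.b ^ P.p)
              = (P.c ^ P.p) ^ 2 := by
            rw [← P.hFLT]
            ring
          rw [e]
          exact not_dvd_pow hq (not_dvd_pow hq hc _) _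

end Arithmetic

end Fermat.Agent.S05.Frey
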