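import Mathlib
import Fermat.Agent.S05.Defs
import Fermat.Agent.S05.Good

/-!
# S05, module C (induction half): consequences of the pair rule

The pair rule `fold_add_sub` for the truncated valuation `ell` of the `x`-coordinate on a
multiplicative model is taken as a hypothesis `H`.  We deduce
* `fold_nsmul_of` : `ell (k • P)` is a fold of `ell P ^ k`;
* `exists_zpow_of` : if `n • P = 0` then `ell P ^ n = v(a₄) ^ (2 m)` for some `m : ℤ`;
* `isGood_add_or_sub_of` : if `ell P = ell Q` then `P + Q` or `P - Q` is good.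
-/

set_option autoImplicit false

namespace Fermat.Agent.S05.KummerInd

open WeierstrassCurve WeierstrassCurve.Affine

/-! ### The fold relation in a commutative group with zero -/

section General

variable {G : Type*} [CommGroupWithZero G] (α : G)

/-- the equivalence relation generated by `w ↦ w⁻¹` and `w ↦ w * α ^ 2` -/
def Fd (z w : G) : Prop := ∃ m : ℤ, w = z * α ^ (2 * m) ∨ w = z⁻¹ * α ^ (2 * m)

variable {α}

theorem Fd.refl (z : G) : Fd α z z := ⟨0, Or.inl (by simp)⟩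

theorem Fd.inv (z : G) : Fd α z z⁻¹ := ⟨0, Or.inr (by simp)⟩

theorem Fd.mul_zpow (z : G) (m : ℤ) : Fd α z (z * α ^ (2 * m)) := ⟨m, Or.inl rfl⟩

theorem Fd.inv_mul_zpow (z : G) (m : ℤ) : Fd α z (z⁻¹ * α ^ (2 * m)) := ⟨m, Or.inr rfl⟩

theorem zpow_mul_zpow_neg (hα : α ≠ 0) (m : ℤ) : α ^ (2 * m) * α ^ (2 * -m) = 1 := by
  rw [← zpow_add₀ hα]
  have : 2 * m + 2 * -m = 0 := by ring
  rw [this, zpow_zero]

theorem Fd.symm (hα : α ≠ 0) {z w : G} (h : Fd α z w) : Fd α w z := by
  obtain ⟨m, h | h⟩ := h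
  · refine ⟨-m, Or.inl ?_⟩
    rw [h, mul_assoc, zpow_mul_zpow_neg hα, mul_one]
  · refine ⟨m, Or.inr ?_⟩
    rw [h, mul_inv, inv_inv, mul_assoc, ← zpow_neg, ← zpow_add₀ hα]
    simp

theorem Fd.trans (hα : α ≠ 0) {z w u : G} (h₁ : Fd α z w) (h₂ : Fd α w u) : Fd α z u := by
  obtain ⟨m, h₁ | h₁⟩ := h₁ <;> obtain ⟨n, h₂ | h₂⟩ := h₂
  · refine ⟨m + n, Or.inl ?_⟩
    rw [h₂, h₁, mul_assoc, ← zpow_add₀ hα]
    congr 2
    ring
  · refine ⟨n - m, Or.inr ?_⟩
    rw [h₂, h₁, mul_inv, mul_assoc, ← zpow_neg, ← zpow_add₀ hα]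
    congr 2
    ring
  · refine ⟨m + n, Or.inr ?_⟩
    rw [h₂, h₁, mul_assoc, ← zpow_add₀ hα]
    congr 2
    ring
  · refine ⟨n - m, Or.inl ?_⟩
    rw [h₂, h₁, mul_inv, inv_inv, mul_assoc, ← zpow_neg, ← zpow_add₀ hα]
    congr 2
    ring

/-- the step of the induction: multiplying and dividing by `ℓ` -/
theorem Fd.step {ℓ : G} (hℓ : ℓ ≠ 0) (k : ℕ) {e : G} (h : Fd α (ℓ ^ (k + 1)) e) :
    (Fd α (ℓ ^ (k + 2)) (e * ℓ) ∧ Fd α (ℓ ^ k) (e / ℓ)) ∨
      (Fd α (ℓ ^ k) (e * ℓ) ∧ Fd α (ℓ ^ (k + 2)) (e / ℓ)) := by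
  obtain ⟨m, h | h⟩ := h
  · left
    constructor
    · refine ⟨m, Or.inl ?_⟩
      rw [h, pow_succ ℓ (k + 1)]
      rw [mul_assoc, mul_assoc, mul_comm (α ^ (2 * m)) ℓ]
    · refine ⟨m, Or.inl ?_⟩
      rw [h, pow_succ ℓ k, div_eq_mul_inv]
      rw [mul_assoc, mul_assoc, mul_comm (α ^ (2 * m)) ℓ⁻¹, ← mul_assoc ℓ, mul_inv_cancel₀ hℓ,
        one_mul]
  · right
    constructor
    · refine ⟨m, Or.inr ?_⟩
      rw [h, pow_succ ℓ k, mul_inv]
      rw [mul_assoc, mul_assoc, mul_comm (α ^ (2 * m)) ℓ, ← mul_assoc ℓ⁻¹, inv_mul_cancel₀ hℓ,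
        one_mul]
    · refine ⟨m, Or.inr ?_⟩
      rw [h, pow_succ ℓ (k + 1), mul_inv, div_eq_mul_inv]
      rw [mul_assoc, mul_assoc, mul_comm (α ^ (2 * m)) ℓ⁻¹]

end General

/-! ### The fold relation in a linearly ordered group with zero -/

section Ordered

variable {G : Type*} [LinearOrderedCommGroupWithZero G] {α : G}

/-- an element of `[α, 1]` which is a fold of `1` is `1` -/
theorem eq_one_of_Fd_one (hα : α ≠ 0) (hα1 : α < 1) {w : G} (h : Fd α 1 w) (h1 : α ≤ w)
    (h2 : w ≤ 1) : w = 1 := by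
  have hpos : 0 < α := zero_lt_iff.mpr hα
  have hw : ∃ m : ℤ, w = α ^ (2 * m) := by
    obtain ⟨m, h | h⟩ := h
    · exact ⟨m, by rw [h, one_mul]⟩
    · exact ⟨m, by rw [h, inv_one, one_mul]⟩
  obtain ⟨m, rfl⟩ := hw
  rcases lt_trichotomy m 0 with hm | hm | hm
  · have : 1 < α ^ (2 * m) := one_lt_zpow_of_neg₀ hpos hα1 (by omega)
    exact absurd h2 (not_le.mpr this)
  · rw [hm]
    simp
  · have : α ^ (2 * m) < α ^ (1 : ℤ) :=
      zpow_lt_zpow_right_of_lt_one₀ hpos hα1 (by omega)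
    rw [zpow_one] at this
    exact absurd h1 (not_le.mpr this)

end Ordered

/-! ### Consequences of the pair rule -/

section Main

variable {K : Type*} [Field K] [DecidableEq K] (A : ValuationSubring K) (W : WeierstrassCurve K)

omit [DecidableEq K] in
theorem fold_iff (z w : A.ValueGroup) : Fold A W z w ↔ Fd (A.valuation W.a₄) z w := Iff.rfl

variable {A W}

omit [DecidableEq K] in
theorem val_a₄_ne_zero (hW : IsMultModel A W) : A.valuation W.a₄ ≠ 0 :=
  (Valuation.ne_zero_iff _).mpr hW.a₄_ne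

omit [DecidableEq K] in
theorem val_a₄_le_ell (hW : IsModel A W) (P : W.toAffine.Point) :
    A.valuation W.a₄ ≤ ell A W P := by
  cases P with
  | zero => exact hW.a₄_le
  | some x y h => exact le_max_left _ _

omit [DecidableEq K] in
theorem ell_le_one (hW : IsModel A W) (P : W.toAffine.Point) : ell A W P ≤ 1 := by
  cases P with
  | zero => exact le_refl _
  | some x y h => exact max_le hW.a₄_le (min_le_left _ _)

omit [DecidableEq K] in
theorem ell_ne_zero (hW : IsMultModel A W) (P : W.toAffine.Point) : ell A W P ≠ 0 := by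
  have h1 := val_a₄_le_ell hW.toIsModel P
  have h2 := zero_lt_iff.mpr (val_a₄_ne_zero hW)
  exact (lt_of_lt_of_le h2 h1).ne'

variable (A W)

/-- **The multiplication rule**: `ell (k • P)` is a fold of `ell P ^ k`. -/
theorem fold_nsmul_of (hW : IsMultModel A W)
    (H : ∀ P Q : W.toAffine.Point,
      (Fold A W (ell A W P * ell A W Q) (ell A W (P + Q)) ∧
        Fold A W (ell A W P / ell A W Q) (ell A W (P - Q))) ∨
      (Fold A W (ell A W P / ell A W Q) (ell A W (P + Q)) ∧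
        Fold A W (ell A W P * ell A W Q) (ell A W (P - Q))))
    (P : W.toAffine.Point) (k : ℕ) : Fold A W (ell A W P ^ k) (ell A W (k • P)) := by
  have hα := val_a₄_ne_zero hW
  have hℓ := ell_ne_zero hW P
  have key : ∀ k : ℕ, Fd (A.valuation W.a₄) (ell A W P ^ k) (ell A W (k • P)) ∧
      Fd (A.valuation W.a₄) (ell A W P ^ (k + 1)) (ell A W ((k + 1) • P)) := by
    intro k
    induction k with
    | zero =>
        constructor
        · rw [zero_nsmul, pow_zero]
          exact Fd.refl _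
        · rw [zero_add, one_nsmul, pow_one]
          exact Fd.refl _
    | succ k ih =>
        obtain ⟨ih0, ih1⟩ := ih
        refine ⟨ih1, ?_⟩
        have e₂ : (k + 1) • P + P = (k + 1 + 1) • P := (succ_nsmul P (k + 1)).symm
        have e₀ : (k + 1) • P - P = k • P := by
          rw [succ_nsmul, add_sub_cancel_right]
        have hH := H ((k + 1) • P) P
        rw [e₂, e₀] at hH
        rcases Fd.step hℓ k ih1 with ⟨h1, h2⟩ | ⟨h1, h2⟩ <;> rcases hH with ⟨g1, g2⟩ | ⟨g1, g2⟩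
        · exact h1.trans hα g1
        · exact (((h1.trans hα g2).trans hα (ih0.symm hα)).trans hα h2).trans hα g1
        · exact (((h2.trans hα g2).trans hα (ih0.symm hα)).trans hα h1).trans hα g1
        · exact h2.trans hα g1
  exact (key k).1

/-- If `n • P = 0` then `ell P ^ n` is an even power of `v(a₄)`. -/
theorem exists_zpow_of (hW : IsMultModel A W)
    (H : ∀ P Q : W.toAffine.Point,
      (Fold A W (ell A W P * ell A W Q) (ell A W (P + Q)) ∧
        Fold A W (ell A W P / ell A W Q) (ell A W (P - Q))) ∨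
      (Fold A W (ell A W P / ell A W Q) (ell A W (P + Q)) ∧
        Fold A W (ell A W P * ell A W Q) (ell A W (P - Q))))
    {P : W.toAffine.Point} {n : ℕ} (h : n • P = 0) :
    ∃ m : ℤ, ell A W P ^ n = A.valuation W.a₄ ^ (2 * m) := by
  have hα := val_a₄_ne_zero hW
  have hℓ := ell_ne_zero hW P
  have h1 := fold_nsmul_of A W hW H P n
  rw [h, ell_zero] at h1
  obtain ⟨m, h1 | h1⟩ := h1
  · refine ⟨-m, ?_⟩
    have h2 : ell A W P ^ n * (A.valuation W.a₄ ^ (2 * m) * A.valuation W.a₄ ^ (2 * -m)) =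
        A.valuation W.a₄ ^ (2 * -m) := by
      rw [← mul_assoc, ← h1, one_mul]
    rwa [zpow_mul_zpow_neg hα, mul_one] at h2
  · refine ⟨m, ?_⟩
    have h2 : ell A W P ^ n * ((ell A W P ^ n)⁻¹ * A.valuation W.a₄ ^ (2 * m)) =
        ell A W P ^ n := by
      rw [← h1, mul_one]
    rw [← mul_assoc, mul_inv_cancel₀ (pow_ne_zero n hℓ), one_mul] at h2
    exact h2.symm

/-- If `ell P = ell Q` then `P + Q` or `P - Q` is a good point. -/
theorem isGood_add_or_sub_of (hW : IsMultModel A W)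
    (H : ∀ P Q : W.toAffine.Point,
      (Fold A W (ell A W P * ell A W Q) (ell A W (P + Q)) ∧
        Fold A W (ell A W P / ell A W Q) (ell A W (P - Q))) ∨
      (Fold A W (ell A W P / ell A W Q) (ell A W (P + Q)) ∧
        Fold A W (ell A W P * ell A W Q) (ell A W (P - Q))))
    {P Q : W.toAffine.Point} (h : ell A W P = ell A W Q) :
    IsGood A W (P + Q) ∨ IsGood A W (P - Q) := by
  have hα := val_a₄_ne_zero hW
  have hℓ := ell_ne_zero hW Q
  have hdiv : ell A W P / ell A W Q = 1 := by rw [h, div_self hℓ]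
  rcases H P Q with ⟨-, g⟩ | ⟨g, -⟩
  · right
    rw [hdiv] at g
    rw [Good.isGood_iff_ell_eq_one A W hW]
    exact eq_one_of_Fd_one hα hW.a₄_lt g (val_a₄_le_ell hW.toIsModel _)
      (ell_le_one hW.toIsModel _)
  · left
    rw [hdiv] at g
    rw [Good.isGood_iff_ell_eq_one A W hW]
    exact eq_one_of_Fd_one hα hW.a₄_lt g (val_a₄_le_ell hW.toIsModel _)
      (ell_le_one hW.toIsModel _)

end Main

end Fermat.Agent.S05.KummerInd
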